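/-
S27 / (VAL), brick (GAUSS-EX) (helper33) — existence of the generic specialisation.  Mathlib only,
arbitrary rank, universe-polymorphic.

* `exists_valuationSubring_center` : for a subring `R` of a field `Ω` and a prime `p` of `R` there
  is a valuation subring `V ⊇ R` of `Ω` whose non-units meet `R` exactly in `p`
  (`V` dominates the localisation `R_p`).
* `exists_valuationSubring_gauss` : **for a valuation subring `A` of `K` and a family `t` in an
  extension `Ω`, algebraically independent over `K`, there is a valuation subring `V` of `Ω` with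
  `V ∩ K = A`, `t i ∈ V`, and the residues of the `t i` algebraically independent over the
  residue field of `A`** (Gauss form: a polynomial with coefficients in `A` whose value at `t` is
  a non-unit of `V` has all its coefficients non-units).
-/
import Mathlib

set_option autoImplicit false

namespace Fermat.Agent.S27P.Val.GaussExt

/-! ### Units of a valuation subring, seen in the ambient field -/

theorem isUnit_toSubring_iff {Ω : Type*} [Field Ω] (V : ValuationSubring Ω) (x : V.toSubring) :
    IsUnit x ↔ (x : Ω) ∉ V.nonunits := by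
  rw [ValuationSubring.mem_nonunits_iff_or]
  constructor
  · intro h hx
    obtain ⟨y, hy⟩ := isUnit_iff_exists_inv.1 h
    have hy' : (x : Ω) * (y : Ω) = 1 := congrArg Subtype.val hy
    rcases hx with hx | hx
    · rw [hx, zero_mul] at hy'
      exact zero_ne_one hy'
    · apply hx
      rw [← eq_inv_of_mul_eq_one_right hy']
      exact y.2
  · intro h
    have h0 : (x : Ω) ≠ 0 := fun h0 => h (Or.inl h0)
    have h1 : (x : Ω)⁻¹ ∈ V := by
      by_contra h1
      exact h (Or.inr h1)
    exact isUnit_iff_exists_inv.2 ⟨⟨(x : Ω)⁻¹, h1⟩, Subtype.ext (mul_inv_cancel₀ h0)⟩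

theorem mul_mem_nonunits {Ω : Type*} [Field Ω] (V : ValuationSubring Ω) {x y : Ω} (hx : x ∈ V)
    (hy : y ∈ V.nonunits) : x * y ∈ V.nonunits := by
  rw [V.mem_nonunits_iff] at hy ⊢
  rw [map_mul]
  have h1 := (V.valuation_le_one_iff x).2 hx
  calc V.valuation x * V.valuation y ≤ 1 * V.valuation y := mul_le_mul' h1 le_rfl
    _ = V.valuation y := one_mul _
    _ < 1 := hy

theorem one_notMem_nonunits {Ω : Type*} [Field Ω] (V : ValuationSubring Ω) :
    (1 : Ω) ∉ V.nonunits := by
  rw [V.mem_nonunits_iff, map_one]
  exact lt_irrefl _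

theorem zero_mem_nonunits {Ω : Type*} [Field Ω] (V : ValuationSubring Ω) :
    (0 : Ω) ∈ V.nonunits := by
  rw [V.mem_nonunits_iff, map_zero]
  exact zero_lt_one

/-! ### A valuation subring with prescribed centre -/

/-- **Domination with prescribed centre**: a subring `R` of a field and a prime ideal `p` of `R`;
there is a valuation subring containing `R` whose non-units meet `R` exactly in `p`. -/
theorem exists_valuationSubring_center {Ω : Type*} [Field Ω] (R : Subring Ω) (p : Ideal R)
    [p.IsPrime] :
    ∃ V : ValuationSubring Ω, R ≤ V.toSubring ∧ ∀ r : R, (r : Ω) ∈ V.nonunits ↔ r ∈ p := by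
  obtain ⟨V, hle, hloc⟩ := (LocalSubring.ofPrime R p).exists_le_valuationSubring
  have hRV : R ≤ V.toSubring := (LocalSubring.le_ofPrime R p).trans hle
  refine ⟨V, hRV, fun r => ?_⟩
  have hunit : IsUnit (algebraMap R (LocalSubring.ofPrime R p).toSubring r) ↔ r ∈ p.primeCompl :=
    IsLocalization.AtPrime.isUnit_to_map_iff _ p r
  have h2 : IsUnit (Subring.inclusion hle (algebraMap R (LocalSubring.ofPrime R p).toSubring r)) ↔
      IsUnit (algebraMap R (LocalSubring.ofPrime R p).toSubring r) :=
    isUnit_map_iff (Subring.inclusion hle) _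
  have h3 : IsUnit (Subring.inclusion hle (algebraMap R (LocalSubring.ofPrime R p).toSubring r)) ↔
      (r : Ω) ∉ V.nonunits :=
    isUnit_toSubring_iff V _
  constructor
  · intro hr
    by_contra hrp
    exact (h3.1 (h2.2 (hunit.2 hrp))) hr
  · intro hrp
    by_contra hr
    exact (hunit.1 (h2.1 (h3.2 hr))) hrp

/-! ### The generic specialisation -/

/-- **(GAUSS-EX)** `A` a valuation subring of `K`, `t` a family of an extension field `Ω`,
algebraically independent over `K`.  There is a valuation subring `V` of `Ω` with trace `A` on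
`K`, containing the `t i`, such that the residues of the `t i` are algebraically independent over
the residue field of `A`. -/
theorem exists_valuationSubring_gauss {K Ω : Type*} [Field K] [Field Ω] [Algebra K Ω]
    (A : ValuationSubring K) {ι : Type*} (t : ι → Ω) (ht : AlgebraicIndependent K t) :
    ∃ V : ValuationSubring Ω, (∀ a : K, algebraMap K Ω a ∈ V ↔ a ∈ A) ∧ (∀ i, t i ∈ V) ∧
      ∀ P : MvPolynomial ι K, (∀ m, P.coeff m ∈ A) → MvPolynomial.aeval t P ∈ V.nonunits →
        ∀ m, P.coeff m ∈ A.nonunits := by
  classical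
  -- evaluation of polynomials with coefficients in `A`
  set f₀ : A →+* Ω := (algebraMap K Ω).comp A.subtype with hf₀
  set φ : MvPolynomial ι A →+* Ω := MvPolynomial.eval₂Hom f₀ t with hφ
  have hφeval : ∀ Q : MvPolynomial ι A,
      φ Q = MvPolynomial.aeval t (MvPolynomial.map A.subtype Q) := by
    intro Q
    rw [MvPolynomial.aeval_def, MvPolynomial.eval₂_map]
    rfl
  have hφinj : Function.Injective φ := by
    rw [injective_iff_map_eq_zero]
    intro Q hQ
    rw [hφeval] at hQ
    have h1 : MvPolynomial.map A.subtype Q = 0 := (algebraicIndependent_iff.1 ht) _ hQ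
    exact (MvPolynomial.map_injective _ Subtype.val_injective) (by rw [h1, map_zero])
  -- the prime of polynomials with non-unit coefficients
  set q : Ideal (MvPolynomial ι A) :=
    RingHom.ker (MvPolynomial.map (σ := ι) (IsLocalRing.residue A)) with hq
  have hqprime : q.IsPrime := RingHom.ker_isPrime _
  have hqmem : ∀ Q : MvPolynomial ι A, Q ∈ q ↔ ∀ m, ((Q.coeff m : A) : K) ∈ A.nonunits := by
    intro Q
    rw [hq, RingHom.mem_ker, MvPolynomial.ext_iff]
    refine forall_congr' fun m => ?_
    rw [MvPolynomial.coeff_map, MvPolynomial.coeff_zero, IsLocalRing.residue_eq_zero_iff,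
      ValuationSubring.coe_mem_nonunits_iff]
  -- the subring `A[t]` and its prime
  have hsurj : Function.Surjective φ.rangeRestrict := φ.rangeRestrict_surjective
  have hinj : Function.Injective φ.rangeRestrict := fun x y h =>
    hφinj (congrArg Subtype.val h)
  have hpprime : (Ideal.map φ.rangeRestrict q).IsPrime :=
    Ideal.map_isPrime_of_surjective hsurj
      (by rw [(RingHom.injective_iff_ker_eq_bot _).1 hinj]; exact bot_le)
  have hpmem : ∀ Q : MvPolynomial ι A, φ.rangeRestrict Q ∈ Ideal.map φ.rangeRestrict q ↔ Q ∈ q := by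
    intro Q
    rw [Ideal.mem_map_iff_of_surjective _ hsurj]
    constructor
    · rintro ⟨Q', hQ', h⟩
      rw [← hinj h]
      exact hQ'
    · intro h
      exact ⟨Q, h, rfl⟩
  obtain ⟨V, hRV, hV⟩ := exists_valuationSubring_center φ.range (Ideal.map φ.rangeRestrict q)
  have hφV : ∀ Q, φ Q ∈ V := fun Q => hRV (φ.rangeRestrict Q).2
  have hnon : ∀ Q : MvPolynomial ι A, φ Q ∈ V.nonunits ↔ Q ∈ q := fun Q =>
    (hV (φ.rangeRestrict Q)).trans (hpmem Q)
  have hφC : ∀ a : A, φ (MvPolynomial.C a) = algebraMap K Ω (a : K) := by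
    intro a
    rw [hφ, MvPolynomial.coe_eval₂Hom, MvPolynomial.eval₂_C]
    rfl
  have hφX : ∀ i, φ (MvPolynomial.X i) = t i := by
    intro i
    rw [hφ, MvPolynomial.coe_eval₂Hom, MvPolynomial.eval₂_X]
  refine ⟨V, fun a => ⟨fun ha => ?_, fun ha => ?_⟩, fun i => ?_, fun P hP hPnon m => ?_⟩
  · -- the trace of `V` on `K` is contained in `A`
    by_contra hcon
    have ha0 : a ≠ 0 := by
      rintro rfl
      exact hcon A.zero_mem
    have h1 : a⁻¹ ∈ A.nonunits := by
      rw [A.mem_nonunits_iff_or]
      right
      rw [inv_inv]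
      exact hcon
    have h2 : a⁻¹ ∈ A := by
      rw [← A.valuation_le_one_iff]
      exact le_of_lt (A.mem_nonunits_iff.1 h1)
    have h3 : φ (MvPolynomial.C ⟨a⁻¹, h2⟩) ∈ V.nonunits := by
      rw [hnon, hqmem]
      intro m
      rw [MvPolynomial.coeff_C]
      split_ifs
      · exact h1
      · exact zero_mem_nonunits A
    rw [hφC] at h3
    have h5 : algebraMap K Ω a * algebraMap K Ω a⁻¹ ∈ V.nonunits := mul_mem_nonunits V ha h3
    rw [← map_mul, mul_inv_cancel₀ ha0, map_one] at h5
    exact one_notMem_nonunits V h5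
  · have h4 := hφC ⟨a, ha⟩
    rw [← h4]
    exact hφV _
  · rw [← hφX i]
    exact hφV _
  · -- the Gauss property
    obtain ⟨Q, hQ⟩ : ∃ Q : MvPolynomial ι A, MvPolynomial.map A.subtype Q = P := by
      refine (MvPolynomial.mem_range_map_iff_coeffs_subset (f := A.subtype) (x := P)).2 ?_
      intro c hc
      obtain ⟨m, -, rfl⟩ := MvPolynomial.mem_coeffs_iff.1 hc
      exact ⟨⟨P.coeff m, hP m⟩, rfl⟩
    have h1 : φ Q ∈ V.nonunits := by
      rw [hφeval, hQ]
      exact hPnon
    have h2 := (hqmem Q).1 ((hnon Q).1 h1) m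
    have h3 : ((Q.coeff m : A) : K) = P.coeff m := by
      rw [← hQ, MvPolynomial.coeff_map]
      rfl
    rw [h3] at h2
    exact h2

end Fermat.Agent.S27P.Val.GaussExt
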