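/-
S27 / (GEN) row (G8), valuation theory (helper91): **a valuation ring of an algebraic extension is
the localisation of the integral closure at its centre** — for an arbitrary valued field (any
rank, any characteristic).

`L/K` a field extension, `A` a valuation ring of `K`, `B` a valuation ring of `L` lying over `A`
(`hAB : ∀ a : K, algebraMap K L a ∈ B ↔ a ∈ A`).

* `mem_of_isIntegral` : elements of `L` integral over `A` lie in `B`;
* `exists_unit_mul_isIntegral` (Kaplansky): for `L/K` algebraic, every `x ∈ B` is `a / s` with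
  `s`, `a` integral over `A` and `s` a unit of `B`;
* `centre A B : Ideal (integralClosure A L)`, `mem_centre`, `centre_isPrime`, `centre_under`
  (`= 𝔪_A`), `centre_isMaximal`;
* `mem_iff_exists` : `x ∈ B ↔ ∃ s ∉ centre, s * x` integral — `B` is determined by its centre.
-/
import Mathlib

set_option autoImplicit false

noncomputable section

namespace Fermat.Agent.S27P.Val91

open Polynomial

variable {K L : Type*} [Field K] [Field L] [Algebra K L]

/-- Elements integral over a valuation ring `A` below `B` lie in `B`. -/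
theorem mem_of_isIntegral (A : ValuationSubring K) (B : ValuationSubring L)
    (hAB : ∀ a : K, a ∈ A → algebraMap K L a ∈ B) {s : L} (hs : IsIntegral A s) : s ∈ B := by
  obtain ⟨p, hp, hps⟩ := hs
  let φ : A →+* B :=
    { toFun := fun a => ⟨algebraMap K L (a : K), hAB _ a.2⟩
      map_one' := Subtype.ext (by simp)
      map_mul' := fun a b => Subtype.ext (by simp)
      map_zero' := Subtype.ext (by simp)
      map_add' := fun a b => Subtype.ext (by simp) }
  have hφ : (algebraMap B L).comp φ = algebraMap A L := by
    ext a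
    rfl
  have h2 : IsIntegral B s := by
    refine ⟨p.map φ, hp.map φ, ?_⟩
    rw [eval₂_map, hφ]
    exact hps
  obtain ⟨y, hy⟩ := IsIntegrallyClosed.isIntegral_iff.mp h2
  rw [← hy]
  exact y.2

theorem val_le_one_of_isIntegral (A : ValuationSubring K) (B : ValuationSubring L)
    (hAB : ∀ a : K, a ∈ A → algebraMap K L a ∈ B) {s : L} (hs : IsIntegral A s) :
    B.valuation s ≤ 1 :=
  (B.valuation_le_one_iff s).2 (mem_of_isIntegral A B hAB hs)

/-- Key lemma (Kaplansky style induction on the degree). -/
theorem exists_unit_mul_isIntegral_aux (A : ValuationSubring K) (B : ValuationSubring L)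
    (hAB : ∀ a : K, a ∈ A → algebraMap K L a ∈ B) (x : L) (hx : B.valuation x ≤ 1) :
    ∀ (n : ℕ) (f : (integralClosure A L)[X]), f.natDegree ≤ n → aeval x f = 0 →
      (∃ i, B.valuation (f.coeff i : L) = 1) →
      ∃ s : L, IsIntegral A s ∧ B.valuation s = 1 ∧ IsIntegral A (s * x) := by
  intro n
  induction n with
  | zero =>
    intro f hf h0 ⟨i, hi⟩
    exfalso
    rw [Nat.le_zero] at hf
    rw [eq_C_of_natDegree_eq_zero hf, aeval_C] at h0
    have h00 : f.coeff 0 = 0 := by
      simpa using h0
    have hf0 : f = 0 := by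
      rw [eq_C_of_natDegree_eq_zero hf, h00, C_0]
    rw [hf0] at hi
    simp at hi
  | succ n ih =>
    intro f hf h0 ⟨i, hi⟩
    by_cases hdeg : f.natDegree ≤ n
    · exact ih f hdeg h0 ⟨i, hi⟩
    have hdeg' : f.natDegree = n + 1 := by omega
    have hcx : IsIntegral A ((f.leadingCoeff : L) * x) := by
      have := isIntegral_trans (R := A) _ (isIntegral_leadingCoeff_smul f x h0)
      rwa [Algebra.smul_def] at this
    by_cases hvc : B.valuation (f.leadingCoeff : L) = 1
    · exact ⟨f.leadingCoeff, f.leadingCoeff.2, hvc, hcx⟩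
    · have hvc' : B.valuation (f.leadingCoeff : L) < 1 :=
        lt_of_le_of_ne (val_le_one_of_isIntegral A B hAB f.leadingCoeff.2) hvc
      let b : integralClosure A L := ⟨(f.leadingCoeff : L) * x, hcx⟩
      have hvb : B.valuation (b : L) < 1 := by
        show B.valuation ((f.leadingCoeff : L) * x) < 1
        rw [map_mul]
        exact mul_lt_one_of_lt_of_le hvc' hx
      apply ih (f.eraseLead + C b * X ^ n)
      · refine (natDegree_add_le _ _).trans (max_le ?_ ?_)
        · have := eraseLead_natDegree_le f
          omega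
        · exact natDegree_C_mul_X_pow_le b n
      · have h1 : aeval x f.eraseLead + (f.leadingCoeff : L) * x ^ (n + 1) = 0 := by
          conv_rhs => rw [← h0, ← eraseLead_add_C_mul_X_pow f]
          rw [map_add, hdeg']
          simp
        rw [map_add]
        simp only [map_mul, aeval_C, map_pow, aeval_X]
        rw [← h1]
        show _ + (f.leadingCoeff : L) * x * x ^ n = _
        ring
      · have hin : i ≠ n + 1 := by
          rintro rfl
          rw [← hdeg'] at hi
          exact hvc hi
        have hile : i ≤ n + 1 := by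
          by_contra hlt
          have : f.coeff i = 0 := coeff_eq_zero_of_natDegree_lt (by omega)
          rw [this] at hi
          simp at hi
        refine ⟨i, ?_⟩
        rw [coeff_add, eraseLead_coeff, if_neg (by rw [hdeg']; exact hin), coeff_C_mul,
          coeff_X_pow]
        by_cases hin' : i = n
        · rw [if_pos hin', mul_one]
          show B.valuation ((f.coeff i : L) + (b : L)) = 1
          rw [Valuation.map_add_eq_of_lt_left, hi]
          rw [hi]; exact hvb
        · rw [if_neg hin', mul_zero, add_zero]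
          exact hi

/-- **Kaplansky's lemma.**  `L/K` algebraic, `B` a valuation ring of `L` over the valuation ring
`A` of `K`: every `x ∈ B` is a quotient `a / s` of elements integral over `A`, `s` a unit of
`B`. -/
theorem exists_unit_mul_isIntegral [Algebra.IsAlgebraic K L] (A : ValuationSubring K)
    (B : ValuationSubring L) (hAB : ∀ a : K, algebraMap K L a ∈ B ↔ a ∈ A) {x : L}
    (hx : x ∈ B) :
    ∃ s : L, IsIntegral A s ∧ B.valuation s = 1 ∧ IsIntegral A (s * x) := by
  obtain ⟨p, hp0, hpx⟩ := Algebra.IsAlgebraic.isAlgebraic (R := K) x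
  -- the coefficient of maximal valuation
  have hsupp : p.support.Nonempty := by
    rw [Finset.nonempty_iff_ne_empty, Ne, support_eq_empty]
    exact hp0
  obtain ⟨i₀, hi₀, hmax⟩ := Finset.exists_max_image p.support
    (fun i => A.valuation (p.coeff i)) hsupp
  have hc0 : p.coeff i₀ ≠ 0 := mem_support_iff.mp hi₀
  have hvc0 : A.valuation (p.coeff i₀) ≠ 0 := (Valuation.ne_zero_iff _).2 hc0
  have hcoeff : ∀ n, (C (p.coeff i₀)⁻¹ * p).coeff n ∈ Set.range (algebraMap A K) := by
    intro n
    rw [coeff_C_mul]
    have hmem : (p.coeff i₀)⁻¹ * p.coeff n ∈ A := by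
      rw [← A.valuation_le_one_iff, map_mul, map_inv₀]
      by_cases hn : n ∈ p.support
      · have h1 := hmax n hn
        calc (A.valuation (p.coeff i₀))⁻¹ * A.valuation (p.coeff n)
            ≤ (A.valuation (p.coeff i₀))⁻¹ * A.valuation (p.coeff i₀) := mul_le_mul' le_rfl h1
          _ = 1 := inv_mul_cancel₀ hvc0
      · rw [notMem_support_iff.mp hn, map_zero, mul_zero]
        exact zero_le_one
    exact ⟨⟨_, hmem⟩, rfl⟩
  obtain ⟨p', hp''⟩ := (lifts_iff_coeff_lifts _).2 hcoeff
  have hp' : p'.map (algebraMap A K) = C (p.coeff i₀)⁻¹ * p := hp''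
  have hp'i : p'.coeff i₀ = 1 := by
    apply Subtype.ext
    have h1 : algebraMap A K (p'.coeff i₀) = (C (p.coeff i₀)⁻¹ * p).coeff i₀ := by
      rw [← hp', coeff_map]
    rw [coeff_C_mul, inv_mul_cancel₀ hc0] at h1
    exact h1
  refine exists_unit_mul_isIntegral_aux A B (fun a ha => (hAB a).2 ha) x
    ((B.valuation_le_one_iff x).2 hx) _ (p'.map (algebraMap A (integralClosure A L))) le_rfl ?_
    ⟨i₀, ?_⟩
  · rw [aeval_map_algebraMap]
    have h1 : aeval x p' = aeval x (p'.map (algebraMap A K)) := by
      rw [aeval_map_algebraMap]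
    rw [h1, hp', map_mul, aeval_C, hpx, mul_zero]
  · rw [coeff_map, hp'i, map_one]
    show B.valuation (1 : L) = 1
    exact map_one _

/-! ### The centre of `B` on the integral closure of `A` -/

theorem integralClosure_le (A : ValuationSubring K) (B : ValuationSubring L)
    (hAB : ∀ a : K, a ∈ A → algebraMap K L a ∈ B) :
    (integralClosure A L).toSubring ≤ B.toSubring := fun _ hb =>
  mem_of_isIntegral A B hAB hb

/-- The centre of a valuation ring `B` of `L` on the integral closure of `A` in `L`. -/
def centre (A : ValuationSubring K) (B : ValuationSubring L)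
    (hAB : ∀ a : K, a ∈ A → algebraMap K L a ∈ B) : Ideal (integralClosure A L) :=
  (IsLocalRing.maximalIdeal B).comap (Subring.inclusion (integralClosure_le A B hAB))

theorem mem_centre (A : ValuationSubring K) (B : ValuationSubring L)
    (hAB : ∀ a : K, a ∈ A → algebraMap K L a ∈ B) (b : integralClosure A L) :
    b ∈ centre A B hAB ↔ B.valuation (b : L) < 1 := by
  show Subring.inclusion (integralClosure_le A B hAB) b ∈ IsLocalRing.maximalIdeal B ↔ _
  rw [B.valuation_lt_one_iff]
  rfl

theorem centre_isPrime (A : ValuationSubring K) (B : ValuationSubring L)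
    (hAB : ∀ a : K, a ∈ A → algebraMap K L a ∈ B) : (centre A B hAB).IsPrime :=
  Ideal.comap_isPrime _ _

/-- The centre lies over the maximal ideal of `A`. -/
theorem centre_under (A : ValuationSubring K) (B : ValuationSubring L)
    (hAB : ∀ a : K, algebraMap K L a ∈ B ↔ a ∈ A) :
    (centre A B fun a ha => (hAB a).2 ha).under A = IsLocalRing.maximalIdeal A := by
  ext a
  rw [Ideal.under_def, Ideal.mem_comap, mem_centre, IsLocalRing.mem_maximalIdeal,
    mem_nonunits_iff]
  show B.valuation (algebraMap K L (a : K)) < 1 ↔ _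
  constructor
  · intro h hu
    obtain ⟨u, hu⟩ := hu
    have h1 : algebraMap K L ((u⁻¹ : Aˣ) : A) * algebraMap K L (a : K) = 1 := by
      rw [← map_mul, ← hu]
      have h2 : (((u⁻¹ : Aˣ) : A) : K) * ((u : A) : K) = 1 := by
        exact_mod_cast congrArg Subtype.val (Units.inv_mul u)
      rw [h2, map_one]
    have h3 := congrArg B.valuation h1
    rw [map_mul, map_one] at h3
    have h4 : B.valuation (algebraMap K L (((u⁻¹ : Aˣ) : A) : K)) ≤ 1 :=
      (B.valuation_le_one_iff _).2 ((hAB _).2 ((u⁻¹ : Aˣ) : A).2)
    have h5 : B.valuation (algebraMap K L (a : K)) *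
        B.valuation (algebraMap K L (((u⁻¹ : Aˣ) : A) : K)) < 1 :=
      mul_lt_one_of_lt_of_le h h4
    rw [mul_comm, h3] at h5
    exact lt_irrefl _ h5
  · intro hnu
    by_contra hge
    rw [not_lt] at hge
    have ha1 : B.valuation (algebraMap K L (a : K)) = 1 :=
      le_antisymm ((B.valuation_le_one_iff _).2 ((hAB _).2 a.2)) hge
    have ha0 : (a : K) ≠ 0 := by
      intro h0
      rw [h0, map_zero, map_zero] at ha1
      exact zero_ne_one ha1
    have hinv : algebraMap K L ((a : K)⁻¹) ∈ B := by
      rw [← B.valuation_le_one_iff, map_inv₀, map_inv₀, ha1, inv_one]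
    have hinvA : (a : K)⁻¹ ∈ A := (hAB _).1 hinv
    exact hnu ⟨⟨a, ⟨_, hinvA⟩, Subtype.ext (mul_inv_cancel₀ ha0),
      Subtype.ext (inv_mul_cancel₀ ha0)⟩, rfl⟩

/-- The centre is a maximal ideal of the integral closure. -/
theorem centre_isMaximal (A : ValuationSubring K) (B : ValuationSubring L)
    (hAB : ∀ a : K, algebraMap K L a ∈ B ↔ a ∈ A) :
    (centre A B fun a ha => (hAB a).2 ha).IsMaximal := by
  have := centre_isPrime A B fun a ha => (hAB a).2 ha
  have hmax : ((centre A B fun a ha => (hAB a).2 ha).comap
      (algebraMap A (integralClosure A L))).IsMaximal := by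
    have h := centre_under A B hAB
    rw [Ideal.under_def] at h
    rw [h]
    exact IsLocalRing.maximalIdeal.isMaximal A
  exact Ideal.isMaximal_of_isIntegral_of_isMaximal_comap _ hmax

/-- **`B` is the localisation of the integral closure at its centre.** -/
theorem mem_iff_exists [Algebra.IsAlgebraic K L] (A : ValuationSubring K)
    (B : ValuationSubring L) (hAB : ∀ a : K, algebraMap K L a ∈ B ↔ a ∈ A) (x : L) :
    x ∈ B ↔ ∃ s : integralClosure A L, s ∉ centre A B (fun a ha => (hAB a).2 ha) ∧
      IsIntegral A ((s : L) * x) := by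
  have hAB' : ∀ a : K, a ∈ A → algebraMap K L a ∈ B := fun a ha => (hAB a).2 ha
  constructor
  · intro hx
    obtain ⟨s, hs, hvs, hsx⟩ := exists_unit_mul_isIntegral A B hAB hx
    refine ⟨⟨s, hs⟩, ?_, hsx⟩
    rw [mem_centre, hvs]
    exact lt_irrefl _
  · rintro ⟨s, hs, hsx⟩
    rw [mem_centre, not_lt] at hs
    have hs1 : B.valuation (s : L) = 1 :=
      le_antisymm (val_le_one_of_isIntegral A B hAB' s.2) hs
    have h1 := val_le_one_of_isIntegral A B hAB' hsx
    rw [map_mul, hs1, one_mul] at h1
    exact (B.valuation_le_one_iff x).mp h1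

end Fermat.Agent.S27P.Val91
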