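/-
S27 / (GEN) row (G8), valuation theory (helper91): **conjugacy of the extensions of a valuation
ring to a Galois extension, and the decomposition group maps onto the residue automorphisms** —
for an arbitrary valued field (any rank, any characteristic).

`L/K` Galois (possibly infinite), `A` a valuation ring of `K`.

* `exists_algEquiv_map_eq` : two valuation rings `B`, `B'` of `L` over `A` are conjugate:
  `∃ σ : L ≃ₐ[K] L, ∀ x, σ x ∈ B' ↔ x ∈ B`;
* `exists_algEquiv_residue_eq` : every automorphism `ψ` of the residue field of `B` fixing the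
  residues of the elements of `K` is induced by some `σ : L ≃ₐ[K] L` with `σ B = B`.

Proof: `B` is the localisation of the integral closure `C` of `A` at its centre
(`Val/Centre91.lean`), and `Gal(L/K)` is a profinite group acting on `C` with invariants `A`
(`Algebra.IsInvariant.exists_smul_of_under_eq_of_profinite`,
`Ideal.Quotient.stabilizerHom_surjective_of_profinite`).
-/
import Mathlib
import Fermat.Agent.S27P.Val.Centre91

set_option autoImplicit false

noncomputable section

namespace Fermat.Agent.S27P.Val91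

open scoped Pointwise

variable {K L : Type*} [Field K] [Field L] [Algebra K L]

section Action

variable (A : ValuationSubring K)

theorem isIntegral_algEquiv (g : L ≃ₐ[K] L) {b : L} (hb : IsIntegral A b) :
    IsIntegral A (g b) :=
  IsIntegral.map ((g : L →ₐ[K] L).restrictScalars A) hb

/-- The action of `Gal(L/K)` on the integral closure of `A` in `L`. -/
@[instance_reducible]
def galAction : MulSemiringAction (L ≃ₐ[K] L) (integralClosure A L) where
  smul g b := ⟨g b.1, isIntegral_algEquiv A g b.2⟩
  one_smul _ := Subtype.ext rfl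
  mul_smul _ _ _ := Subtype.ext rfl
  smul_zero g := Subtype.ext (map_zero g)
  smul_add g a b := Subtype.ext (map_add g a.1 b.1)
  smul_one g := Subtype.ext (map_one g)
  smul_mul g a b := Subtype.ext (map_mul g a.1 b.1)

attribute [local instance] galAction

theorem galAction_coe (g : L ≃ₐ[K] L) (b : integralClosure A L) :
    ((g • b : integralClosure A L) : L) = g (b : L) := rfl

theorem galAction_smulCommClass : SMulCommClass (L ≃ₐ[K] L) A (integralClosure A L) :=
  ⟨fun g a b => Subtype.ext (by
    show g ((a • b : integralClosure A L) : L) = ((a • (g • b) : integralClosure A L) : L)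
    have h1 : ∀ c : integralClosure A L, ((a • c : integralClosure A L) : L) =
        algebraMap K L (a : K) * (c : L) := by
      intro c
      show a • (c : L) = _
      rw [Algebra.smul_def]
      rfl
    rw [h1, h1, map_mul, AlgEquiv.commutes]
    rfl)⟩

attribute [local instance] galAction_smulCommClass

theorem galAction_isInvariant [IsGalois K L] :
    Algebra.IsInvariant A (integralClosure A L) (L ≃ₐ[K] L) := by
  refine ⟨fun b hb => ?_⟩
  have h1 : (b : L) ∈ (⊥ : IntermediateField K L) := by
    rw [InfiniteGalois.mem_bot_iff_fixed]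
    intro g
    exact congrArg Subtype.val (hb g)
  obtain ⟨q, hq⟩ := IntermediateField.mem_bot.mp h1
  have h2 : IsIntegral A q := by
    have := b.2
    rw [← hq] at this
    exact (isIntegral_algebraMap_iff (algebraMap K L).injective).mp this
  obtain ⟨n, hn⟩ := IsIntegrallyClosed.algebraMap_eq_of_integral h2
  refine ⟨n, Subtype.ext ?_⟩
  rw [← hq, ← hn]
  rfl

attribute [local instance] galAction_isInvariant

/-- The discrete topology on the integral closure. -/
@[instance_reducible]
def icTopology : TopologicalSpace (integralClosure A L) := ⊥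

attribute [local instance] icTopology

theorem icDiscrete : DiscreteTopology (integralClosure A L) := ⟨rfl⟩

attribute [local instance] icDiscrete

theorem galAction_continuousSMul [IsGalois K L] :
    ContinuousSMul (L ≃ₐ[K] L) (integralClosure A L) := by
  rw [continuousSMul_iff_stabilizer_isOpen]
  intro b
  have := stabilizer_isOpen_of_isIntegral (K := K) (L := L) (b : L)
  convert this using 1
  ext g
  simp [MulAction.mem_stabilizer_iff, Subtype.ext_iff]

attribute [local instance] galAction_continuousSMul

/-- An automorphism moving the centre of `B` to the centre of `B'` moves `B` to `B'`. -/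
theorem map_mem_iff_of_centre_eq [Algebra.IsAlgebraic K L] (B B' : ValuationSubring L)
    (hAB : ∀ a : K, algebraMap K L a ∈ B ↔ a ∈ A)
    (hAB' : ∀ a : K, algebraMap K L a ∈ B' ↔ a ∈ A) (τ : L ≃ₐ[K] L)
    (hτ : centre A B' (fun a ha => (hAB' a).2 ha) = τ • centre A B (fun a ha => (hAB a).2 ha))
    (x : L) : τ x ∈ B' ↔ x ∈ B := by
  rw [mem_iff_exists A B' hAB', mem_iff_exists A B hAB]
  constructor
  · rintro ⟨s, hs, hsx⟩
    refine ⟨τ⁻¹ • s, ?_, ?_⟩
    · intro h
      apply hs
      rw [hτ, Ideal.mem_pointwise_smul_iff_inv_smul_mem]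
      exact h
    · have h1 : (((τ⁻¹ • s : integralClosure A L) : L)) * x = τ⁻¹ ((s : L) * τ x) := by
        rw [map_mul]
        have h2 : τ⁻¹ (τ x) = x := τ.symm_apply_apply x
        rw [h2]
        rfl
      rw [h1]
      exact isIntegral_algEquiv A τ⁻¹ hsx
  · rintro ⟨s, hs, hsx⟩
    refine ⟨τ • s, ?_, ?_⟩
    · intro h
      apply hs
      rw [hτ] at h
      exact Ideal.smul_mem_pointwise_smul_iff.mp h
    · have h1 : (((τ • s : integralClosure A L) : L)) * τ x = τ ((s : L) * x) := by
        rw [map_mul]
        rfl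
      rw [h1]
      exact isIntegral_algEquiv A τ hsx

/-- **Conjugacy.**  Two valuation rings of a Galois extension `L/K` lying over the same valuation
ring of `K` are conjugate under `Gal(L/K)`. -/
theorem exists_algEquiv_map_eq [IsGalois K L] (B B' : ValuationSubring L)
    (hAB : ∀ a : K, algebraMap K L a ∈ B ↔ a ∈ A)
    (hAB' : ∀ a : K, algebraMap K L a ∈ B' ↔ a ∈ A) :
    ∃ σ : L ≃ₐ[K] L, ∀ x : L, σ x ∈ B' ↔ x ∈ B := by
  have := centre_isPrime A B fun a ha => (hAB a).2 ha
  have := centre_isPrime A B' fun a ha => (hAB' a).2 ha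
  obtain ⟨τ, hτ⟩ := Algebra.IsInvariant.exists_smul_of_under_eq_of_profinite (A := A)
    (G := L ≃ₐ[K] L) (centre A B fun a ha => (hAB a).2 ha)
    (centre A B' fun a ha => (hAB' a).2 ha)
    (by rw [centre_under A B hAB, centre_under A B' hAB'])
  exact ⟨τ, map_mem_iff_of_centre_eq A B B' hAB hAB' τ hτ⟩

/-! ### The decomposition group and the residue field -/

/-- The residue map of `B` on the integral closure of `A`. -/
def resIC (B : ValuationSubring L) (hAB : ∀ a : K, a ∈ A → algebraMap K L a ∈ B) :
    integralClosure A L →+* IsLocalRing.ResidueField B :=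
  (IsLocalRing.residue B).comp (Subring.inclusion (integralClosure_le A B hAB))

theorem resIC_apply (B : ValuationSubring L) (hAB : ∀ a : K, a ∈ A → algebraMap K L a ∈ B)
    (c : integralClosure A L) :
    resIC A B hAB c = IsLocalRing.residue B ⟨(c : L), mem_of_isIntegral A B hAB c.2⟩ := rfl

theorem resIC_eq_zero_iff (B : ValuationSubring L)
    (hAB : ∀ a : K, a ∈ A → algebraMap K L a ∈ B) (c : integralClosure A L) :
    resIC A B hAB c = 0 ↔ c ∈ centre A B hAB := by
  rw [resIC_apply, IsLocalRing.residue_eq_zero_iff]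
  rfl

/-- Every residue of `B` is a quotient of residues of integral elements. -/
theorem exists_resIC_mul_eq [Algebra.IsAlgebraic K L] (B : ValuationSubring L)
    (hAB : ∀ a : K, algebraMap K L a ∈ B ↔ a ∈ A) {b : L} (hb : b ∈ B) :
    ∃ s c : integralClosure A L, s ∉ centre A B (fun a ha => (hAB a).2 ha) ∧
      (c : L) = (s : L) * b ∧
      resIC A B (fun a ha => (hAB a).2 ha) s * IsLocalRing.residue B ⟨b, hb⟩ =
        resIC A B (fun a ha => (hAB a).2 ha) c := by
  obtain ⟨s, hs, hsb⟩ := (mem_iff_exists A B hAB b).1 hb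
  refine ⟨s, ⟨(s : L) * b, hsb⟩, hs, rfl, ?_⟩
  rw [resIC_apply, resIC_apply, ← map_mul]
  rfl

/-- **The decomposition group maps onto the automorphisms of the residue field.**  `L/K` Galois,
`B` a valuation ring of `L` over the valuation ring `A` of `K`: every automorphism of the
residue field of `B` fixing the residues of the elements of `K` is induced by an element of
`Gal(L/K)` stabilising `B`. -/
theorem exists_algEquiv_residue_eq [IsGalois K L] (B : ValuationSubring L)
    (hAB : ∀ a : K, algebraMap K L a ∈ B ↔ a ∈ A)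
    (ψ : IsLocalRing.ResidueField B ≃+* IsLocalRing.ResidueField B)
    (hψ : ∀ (a : K) (ha : algebraMap K L a ∈ B),
      ψ (IsLocalRing.residue B ⟨algebraMap K L a, ha⟩) =
        IsLocalRing.residue B ⟨algebraMap K L a, ha⟩) :
    ∃ σ : L ≃ₐ[K] L, (∀ x : L, σ x ∈ B ↔ x ∈ B) ∧
      ∀ (b : L) (hb : b ∈ B) (hσb : σ b ∈ B),
        IsLocalRing.residue B ⟨σ b, hσb⟩ = ψ (IsLocalRing.residue B ⟨b, hb⟩) := by
  have hAB' : ∀ a : K, a ∈ A → algebraMap K L a ∈ B := fun a ha => (hAB a).2 ha
  have hprime := centre_isPrime A B hAB'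
  have hmax := centre_isMaximal A B hAB
  have hover : (centre A B hAB').LiesOver (IsLocalRing.maximalIdeal A) :=
    ⟨(centre_under A B hAB).symm⟩
  let _ := Ideal.Quotient.field (centre A B hAB')
  -- the isomorphism `C / centre ≃ k_B`
  let ι : integralClosure A L ⧸ centre A B hAB' →+* IsLocalRing.ResidueField B :=
    Ideal.Quotient.lift (centre A B hAB') (resIC A B hAB')
      (fun c hc => (resIC_eq_zero_iff A B hAB' c).2 hc)
  have hι : ∀ c : integralClosure A L, ι (Ideal.Quotient.mk _ c) = resIC A B hAB' c :=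
    fun c => Ideal.Quotient.lift_mk _ _ _
  have hιinj : Function.Injective ι := by
    rw [injective_iff_map_eq_zero]
    intro y hy
    obtain ⟨c, rfl⟩ := Ideal.Quotient.mk_surjective y
    rw [hι, resIC_eq_zero_iff] at hy
    exact Ideal.Quotient.eq_zero_iff_mem.2 hy
  have hιsurj : Function.Surjective ι := by
    intro y
    obtain ⟨⟨b, hb⟩, rfl⟩ := IsLocalRing.residue_surjective y
    obtain ⟨s, c, hs, -, hsc⟩ := exists_resIC_mul_eq A B hAB hb
    have hs0 : resIC A B hAB' s ≠ 0 := fun h0 => hs ((resIC_eq_zero_iff A B hAB' s).1 h0)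
    refine ⟨Ideal.Quotient.mk _ c * (Ideal.Quotient.mk _ s)⁻¹, ?_⟩
    rw [map_mul, map_inv₀, hι, hι, ← hsc, mul_comm (resIC A B hAB' s), mul_assoc,
      mul_inv_cancel₀ hs0, mul_one]
  let e : (integralClosure A L ⧸ centre A B hAB') ≃+* IsLocalRing.ResidueField B :=
    RingEquiv.ofBijective ι ⟨hιinj, hιsurj⟩
  have he : ∀ c : integralClosure A L, e (Ideal.Quotient.mk _ c) = resIC A B hAB' c := hι
  -- the automorphism of `C / centre` defined by `ψ`
  let ψ' : (integralClosure A L ⧸ centre A B hAB') ≃ₐ[A ⧸ IsLocalRing.maximalIdeal A]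
      (integralClosure A L ⧸ centre A B hAB') :=
    AlgEquiv.ofRingEquiv (f := (e.trans ψ).trans e.symm) (by
      intro x
      obtain ⟨a, rfl⟩ := Ideal.Quotient.mk_surjective x
      rw [Ideal.Quotient.algebraMap_mk_of_liesOver]
      show e.symm (ψ (e (Ideal.Quotient.mk _ (algebraMap A (integralClosure A L) a)))) = _
      rw [RingEquiv.symm_apply_eq, he]
      exact hψ (a : K) (hAB' _ a.2))
  have hψ' : ∀ c : integralClosure A L,
      e (ψ' (Ideal.Quotient.mk _ c)) = ψ (resIC A B hAB' c) := by
    intro c
    show e (e.symm (ψ (e (Ideal.Quotient.mk _ c)))) = _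
    rw [RingEquiv.apply_symm_apply, he]
  obtain ⟨⟨σ, hσ⟩, hσψ⟩ := Ideal.Quotient.stabilizerHom_surjective_of_profinite
    (G := L ≃ₐ[K] L) (IsLocalRing.maximalIdeal A) (centre A B hAB') ψ'
  have hσP : σ • centre A B hAB' = centre A B hAB' := hσ
  have hstab : ∀ x : L, σ x ∈ B ↔ x ∈ B :=
    map_mem_iff_of_centre_eq A B B hAB hAB σ hσP.symm
  -- the residue action on the integral closure
  have hres : ∀ c : integralClosure A L, resIC A B hAB' (σ • c) = ψ (resIC A B hAB' c) := by
    intro c
    rw [← hψ', ← hσψ, Ideal.Quotient.stabilizerHom_apply, he]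
    rfl
  refine ⟨σ, hstab, fun b hb hσb => ?_⟩
  obtain ⟨s, c, hs, hcs, hsc⟩ := exists_resIC_mul_eq A B hAB hb
  have hσs : σ • s ∉ centre A B hAB' := by
    intro h
    apply hs
    rw [← hσP] at h
    exact Ideal.smul_mem_pointwise_smul_iff.mp h
  have hσs0 : resIC A B hAB' (σ • s) ≠ 0 := fun h0 =>
    hσs ((resIC_eq_zero_iff A B hAB' _).1 h0)
  have h1 : resIC A B hAB' (σ • s) * IsLocalRing.residue B ⟨σ b, hσb⟩ =
      resIC A B hAB' (σ • c) := by
    rw [resIC_apply, resIC_apply, ← map_mul]
    congr 1
    apply Subtype.ext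
    show σ (s : L) * σ b = σ (c : L)
    rw [hcs, map_mul]
  have h2 : resIC A B hAB' (σ • s) * ψ (IsLocalRing.residue B ⟨b, hb⟩) =
      resIC A B hAB' (σ • c) := by
    rw [hres, hres, ← hsc, map_mul]
  exact mul_left_cancel₀ hσs0 (h1.trans h2.symm)

end Action

end Fermat.Agent.S27P.Val91
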