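import Mathlib

/-!
# Gauss uniqueness for valuation rings of a purely transcendental extension

`M = K(x_i)`, `W` a valuation subring of `M`.  If the `x_i` lie in `W` and their residues are
algebraically independent over the residue field of `W ∩ K` (stated without residue fields, as
`ResIndep`), then `W` is determined by `W ∩ K`: for a polynomial `P ≠ 0` with coefficient `c` of
maximal valuation, `P(x) / c` is a unit of `W`.

Mathlib only; arbitrary rank; universe-polymorphic.
-/

set_option autoImplicit false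

namespace Fermat.Agent.S27P.Val.Gauss

variable {K M : Type*} [Field K] [Field M] [Algebra K M]

/-! ### The abstract core -/

/-- If every element of `M` is a quotient of elements of `S`, every nonzero element of `S` is a
constant of `K` times a common unit of `W` and `W'`, and the trace of `W` on `K` is contained in
that of `W'`, then `W ≤ W'`. -/
theorem le_of_common_units (W W' : ValuationSubring M)
    (htr : ∀ a : K, algebraMap K M a ∈ W → algebraMap K M a ∈ W')
    (S : Set M) (hS : ∀ f : M, ∃ p ∈ S, ∃ q ∈ S, q ≠ 0 ∧ f = p / q)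
    (hunit : ∀ p ∈ S, p ≠ 0 → ∃ c : K, c ≠ 0 ∧
      p / algebraMap K M c ∈ W ∧ (p / algebraMap K M c)⁻¹ ∈ W ∧
      p / algebraMap K M c ∈ W' ∧ (p / algebraMap K M c)⁻¹ ∈ W') : W ≤ W' := by
  intro f hf
  obtain ⟨p, hp, q, hq, hq0, rfl⟩ := hS f
  by_cases hp0 : p = 0
  · rw [hp0, zero_div]
    exact W'.zero_mem
  obtain ⟨c, hc0, hu, hui, hu', -⟩ := hunit p hp hp0
  obtain ⟨d, hd0, hv, -, -, hvi'⟩ := hunit q hq hq0
  have hc : algebraMap K M c ≠ 0 := (map_ne_zero _).2 hc0
  have hd : algebraMap K M d ≠ 0 := (map_ne_zero _).2 hd0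
  have h1 : algebraMap K M (c / d) = p / q * (q / algebraMap K M d) * (p / algebraMap K M c)⁻¹ := by
    rw [map_div₀]
    field_simp
  have h2 : algebraMap K M (c / d) ∈ W' := by
    apply htr
    rw [h1]
    exact W.mul_mem _ _ (W.mul_mem _ _ hf hv) hui
  have h3 : p / q = algebraMap K M (c / d) * (p / algebraMap K M c) * (q / algebraMap K M d)⁻¹ := by
    rw [map_div₀]
    field_simp
  rw [h3]
  exact W'.mul_mem _ _ (W'.mul_mem _ _ h2 hu') hvi'

theorem eq_of_common_units (W W' : ValuationSubring M)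
    (htr : ∀ a : K, algebraMap K M a ∈ W ↔ algebraMap K M a ∈ W')
    (S : Set M) (hS : ∀ f : M, ∃ p ∈ S, ∃ q ∈ S, q ≠ 0 ∧ f = p / q)
    (hunit : ∀ p ∈ S, p ≠ 0 → ∃ c : K, c ≠ 0 ∧
      p / algebraMap K M c ∈ W ∧ (p / algebraMap K M c)⁻¹ ∈ W ∧
      p / algebraMap K M c ∈ W' ∧ (p / algebraMap K M c)⁻¹ ∈ W') : W = W' :=
  le_antisymm (le_of_common_units W W' (fun a => (htr a).1) S hS hunit)
    (le_of_common_units W' W (fun a => (htr a).2) S hS fun p hp hp0 => by
      obtain ⟨c, hc0, h1, h2, h3, h4⟩ := hunit p hp hp0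
      exact ⟨c, hc0, h3, h4, h1, h2⟩)

/-- An element which is not a non-unit of `W` is nonzero with inverse in `W`. -/
theorem inv_mem_of_not_mem_nonunits (W : ValuationSubring M) {u : M}
    (h : u ∉ W.nonunits) : u⁻¹ ∈ W ∧ u ≠ 0 := by
  constructor
  · by_contra hcon
    exact h (W.mem_nonunits_iff_or.2 (Or.inr hcon))
  · intro hcon
    exact h (W.mem_nonunits_iff_or.2 (Or.inl hcon))

theorem one_not_mem_nonunits (W : ValuationSubring M) : (1 : M) ∉ W.nonunits := by
  intro h
  rcases W.mem_nonunits_iff_or.1 h with h | h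
  · exact one_ne_zero h
  · exact h (by rw [inv_one]; exact W.one_mem)

/-! ### Several variables -/

section Mv

variable {ι : Type*}

variable (K) in
/-- The residues of the `x i` are algebraically independent over the residue field of the trace
of `W` on `K`, stated without residue fields: a polynomial with coefficients in `W` whose value
at `x` is a non-unit of `W` has all its coefficients non-units. -/
def ResIndep (W : ValuationSubring M) (x : ι → M) : Prop :=
  ∀ P : MvPolynomial ι K, (∀ m, algebraMap K M (P.coeff m) ∈ W) →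
    MvPolynomial.aeval x P ∈ W.nonunits → ∀ m, algebraMap K M (P.coeff m) ∈ W.nonunits

/-- A polynomial with coefficients in `W` takes a value in `W` at a point of `W`. -/
theorem aeval_mem (W : ValuationSubring M) (x : ι → M) (hx : ∀ i, x i ∈ W)
    (P : MvPolynomial ι K) (hP : ∀ m, algebraMap K M (P.coeff m) ∈ W) :
    MvPolynomial.aeval x P ∈ W := by
  rw [MvPolynomial.aeval_def, MvPolynomial.eval₂_eq]
  exact sum_mem fun d _ => W.mul_mem _ _ (hP d) (prod_mem fun i _ => pow_mem (hx i) _)

/-- A nonzero polynomial has a nonzero coefficient of maximal valuation. -/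
theorem exists_max_coeff (W : ValuationSubring M) (P : MvPolynomial ι K) (hP : P ≠ 0) :
    ∃ m₀, P.coeff m₀ ≠ 0 ∧ ∀ m, algebraMap K M (P.coeff m / P.coeff m₀) ∈ W := by
  classical
  have hne : P.support.Nonempty := MvPolynomial.support_nonempty.2 hP
  obtain ⟨m₀, hm₀, hmax⟩ := Finset.exists_max_image P.support
    (fun m => W.valuation (algebraMap K M (P.coeff m))) hne
  have h0 : P.coeff m₀ ≠ 0 := MvPolynomial.mem_support_iff.1 hm₀
  refine ⟨m₀, h0, fun m => ?_⟩
  by_cases hm : m ∈ P.support
  · rw [← ValuationSubring.valuation_le_one_iff, map_div₀, map_div₀]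
    have hv0 : W.valuation (algebraMap K M (P.coeff m₀)) ≠ 0 :=
      (Valuation.ne_zero_iff _).2 ((map_ne_zero _).2 h0)
    exact (div_le_one₀ (zero_lt_iff.2 hv0)).2 (hmax m hm)
  · rw [MvPolynomial.notMem_support_iff.1 hm, zero_div, map_zero]
    exact W.zero_mem

/-- **The Gauss formula**: if `c` is a coefficient of maximal valuation of `P`, then `P(x) / c`
is a unit of `W`. -/
theorem unit_of_max_coeff (W : ValuationSubring M) (x : ι → M) (hx : ∀ i, x i ∈ W)
    (hW : ResIndep K W x) (P : MvPolynomial ι K) (m₀ : ι →₀ ℕ) (h0 : P.coeff m₀ ≠ 0)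
    (hmax : ∀ m, algebraMap K M (P.coeff m / P.coeff m₀) ∈ W) :
    MvPolynomial.aeval x P / algebraMap K M (P.coeff m₀) ∈ W ∧
      (MvPolynomial.aeval x P / algebraMap K M (P.coeff m₀))⁻¹ ∈ W ∧
      MvPolynomial.aeval x P ≠ 0 := by
  set c := P.coeff m₀ with hc
  have hcoeff : ∀ m, (c⁻¹ • P).coeff m = P.coeff m / c := fun m => by
    rw [MvPolynomial.coeff_smul, smul_eq_mul, div_eq_inv_mul]
  have hval : MvPolynomial.aeval x (c⁻¹ • P) = MvPolynomial.aeval x P / algebraMap K M c := by
    rw [map_smul, Algebra.smul_def, map_inv₀, div_eq_inv_mul]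
  have hP1 : ∀ m, algebraMap K M ((c⁻¹ • P).coeff m) ∈ W := fun m => by
    rw [hcoeff]
    exact hmax m
  have hmem : MvPolynomial.aeval x (c⁻¹ • P) ∈ W := aeval_mem W x hx _ hP1
  have hnon : MvPolynomial.aeval x (c⁻¹ • P) ∉ W.nonunits := by
    intro hcon
    have h1 := hW _ hP1 hcon m₀
    rw [hcoeff, div_self h0, map_one] at h1
    exact one_not_mem_nonunits W h1
  obtain ⟨h1, h2⟩ := inv_mem_of_not_mem_nonunits W hnon
  rw [hval] at hmem h1 h2
  exact ⟨hmem, h1, fun h => h2 (by rw [h, zero_div])⟩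

/-- In particular the `x i` are algebraically independent over `K`. -/
theorem aeval_ne_zero (W : ValuationSubring M) (x : ι → M) (hx : ∀ i, x i ∈ W)
    (hW : ResIndep K W x) (P : MvPolynomial ι K) (hP : P ≠ 0) : MvPolynomial.aeval x P ≠ 0 := by
  obtain ⟨m₀, h0, hmax⟩ := exists_max_coeff W P hP
  exact (unit_of_max_coeff W x hx hW P m₀ h0 hmax).2.2

theorem algebraicIndependent_of_resIndep (W : ValuationSubring M) (x : ι → M)
    (hx : ∀ i, x i ∈ W) (hW : ResIndep K W x) : AlgebraicIndependent K x := by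
  rw [algebraicIndependent_iff]
  intro P hP
  by_contra hP0
  exact aeval_ne_zero W x hx hW P hP0 hP

/-- **Gauss uniqueness.**  Two valuation subrings of `M = K(x_i)` with the same trace on `K`,
both containing the `x i` with algebraically independent residues, are equal. -/
theorem eq_of_resIndep (x : ι → M) (hgen : IntermediateField.adjoin K (Set.range x) = ⊤)
    (W W' : ValuationSubring M)
    (htr : ∀ a : K, algebraMap K M a ∈ W ↔ algebraMap K M a ∈ W')
    (hx : ∀ i, x i ∈ W) (hx' : ∀ i, x i ∈ W') (hW : ResIndep K W x) (hW' : ResIndep K W' x) :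
    W = W' := by
  refine eq_of_common_units (K := K) W W' htr
    (Set.range (MvPolynomial.aeval (R := K) x)) (fun f => ?_) ?_
  · have hf : f ∈ IntermediateField.adjoin K (Set.range x) := by
      rw [hgen]; exact IntermediateField.mem_top
    obtain ⟨r, s, rfl⟩ := (IntermediateField.mem_adjoin_range_iff K x f).1 hf
    by_cases hs : MvPolynomial.aeval x s = 0
    · refine ⟨0, ⟨0, map_zero _⟩, 1, ⟨1, map_one _⟩, one_ne_zero, ?_⟩
      rw [hs, div_zero, zero_div]
    · exact ⟨_, ⟨r, rfl⟩, _, ⟨s, rfl⟩, hs, rfl⟩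
  · rintro _ ⟨P, rfl⟩ hP0
    have hP : P ≠ 0 := by
      rintro rfl
      exact hP0 (map_zero _)
    obtain ⟨m₀, h0, hmax⟩ := exists_max_coeff W P hP
    obtain ⟨h1, h2, -⟩ := unit_of_max_coeff W x hx hW P m₀ h0 hmax
    obtain ⟨h3, h4, -⟩ := unit_of_max_coeff W' x hx' hW' P m₀ h0 fun m => (htr _).1 (hmax m)
    exact ⟨_, h0, h1, h2, h3, h4⟩

/-- `0` is a non-unit. -/
theorem zero_mem_nonunits (W : ValuationSubring M) : (0 : M) ∈ W.nonunits :=
  W.mem_nonunits_iff_or.2 (Or.inl rfl)

/-- **Producer of `ResIndep`** from a reduction map: `red : W → k` kills the non-units, is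
compatible with a reduction `red₀ : W ∩ K → k₀` whose kernel consists of non-units, and the
reductions of the `x i` are algebraically independent over `k₀`. -/
theorem resIndep_of_algebraicIndependent {k₀ k : Type*} [Field k₀] [Field k] [Algebra k₀ k]
    (W : ValuationSubring M) (red : W →+* k)
    (hred : ∀ w : W, (w : M) ∈ W.nonunits → red w = 0)
    (red₀ : W.comap (algebraMap K M) →+* k₀)
    (hred₀ : ∀ a : W.comap (algebraMap K M), red₀ a = 0 → algebraMap K M (a : K) ∈ W.nonunits)
    (hcomp : ∀ a : W.comap (algebraMap K M),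
      red ⟨algebraMap K M (a : K), a.2⟩ = algebraMap k₀ k (red₀ a))
    (x : ι → M) (hx : ∀ i, x i ∈ W)
    (hind : AlgebraicIndependent k₀ fun i => red ⟨x i, hx i⟩) : ResIndep K W x := by
  classical
  intro P hP hnon m
  -- the coefficients as elements of the trace
  set c : (ι →₀ ℕ) → W.comap (algebraMap K M) := fun d => ⟨P.coeff d, hP d⟩ with hc
  -- the value as an element of `W`
  set w : W := ∑ d ∈ P.support, (⟨algebraMap K M (P.coeff d), hP d⟩ : W) *
      ∏ i ∈ d.support, (⟨x i, hx i⟩ : W) ^ d i with hw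
  have hwval : (w : M) = MvPolynomial.aeval x P := by
    rw [MvPolynomial.aeval_def, MvPolynomial.eval₂_eq, hw]
    simp only [AddSubmonoidClass.coe_finsetSum, MulMemClass.coe_mul,
      SubmonoidClass.coe_finsetProd, SubmonoidClass.coe_pow]
  -- the reduced polynomial
  set Pb : MvPolynomial ι k₀ := ∑ d ∈ P.support, MvPolynomial.monomial d (red₀ (c d)) with hPb
  have hredw : red w = MvPolynomial.aeval (fun i => red ⟨x i, hx i⟩) Pb := by
    rw [hw, hPb, map_sum, map_sum]
    refine Finset.sum_congr rfl fun d _ => ?_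
    rw [map_mul, map_prod, MvPolynomial.aeval_monomial, Finsupp.prod, ← hcomp (c d)]
    refine congrArg₂ _ rfl (Finset.prod_congr rfl fun i _ => ?_)
    rw [map_pow]
  have hzero : MvPolynomial.aeval (fun i => red ⟨x i, hx i⟩) Pb = 0 := by
    rw [← hredw]
    exact hred w (by rw [hwval]; exact hnon)
  have hPb0 : Pb = 0 := (algebraicIndependent_iff.1 hind) Pb hzero
  by_cases hm : m ∈ P.support
  · have hcoeff : Pb.coeff m = red₀ (c m) := by
      rw [hPb, MvPolynomial.coeff_sum]
      simp only [MvPolynomial.coeff_monomial]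
      rw [Finset.sum_ite_eq' P.support m, if_pos hm]
    have h0 : red₀ (c m) = 0 := by rw [← hcoeff, hPb0, MvPolynomial.coeff_zero]
    exact hred₀ (c m) h0
  · rw [MvPolynomial.notMem_support_iff.1 hm, map_zero]
    exact zero_mem_nonunits W

end Mv

/-! ### One variable -/

section One

open Polynomial

variable (K) in
/-- One-variable form of `ResIndep`: the residue of `x` is transcendental over the residue
field of the trace of `W` on `K`. -/
def ResTrans (W : ValuationSubring M) (x : M) : Prop :=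
  ∀ P : K[X], (∀ n, algebraMap K M (P.coeff n) ∈ W) →
    Polynomial.aeval x P ∈ W.nonunits → ∀ n, algebraMap K M (P.coeff n) ∈ W.nonunits

theorem aeval_mem_one (W : ValuationSubring M) (x : M) (hx : x ∈ W)
    (P : K[X]) (hP : ∀ n, algebraMap K M (P.coeff n) ∈ W) : Polynomial.aeval x P ∈ W := by
  rw [Polynomial.aeval_eq_sum_range]
  refine sum_mem fun n _ => ?_
  rw [Algebra.smul_def]
  exact W.mul_mem _ _ (hP n) (pow_mem hx n)

theorem exists_max_coeff_one (W : ValuationSubring M) (P : K[X]) (hP : P ≠ 0) :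
    ∃ n₀, P.coeff n₀ ≠ 0 ∧ ∀ n, algebraMap K M (P.coeff n / P.coeff n₀) ∈ W := by
  classical
  have hne : P.support.Nonempty := Polynomial.support_nonempty.2 hP
  obtain ⟨n₀, hn₀, hmax⟩ := Finset.exists_max_image P.support
    (fun n => W.valuation (algebraMap K M (P.coeff n))) hne
  have h0 : P.coeff n₀ ≠ 0 := Polynomial.mem_support_iff.1 hn₀
  refine ⟨n₀, h0, fun n => ?_⟩
  by_cases hn : n ∈ P.support
  · rw [← ValuationSubring.valuation_le_one_iff, map_div₀, map_div₀]
    have hv0 : W.valuation (algebraMap K M (P.coeff n₀)) ≠ 0 :=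
      (Valuation.ne_zero_iff _).2 ((_root_.map_ne_zero _).2 h0)
    exact (div_le_one₀ (zero_lt_iff.2 hv0)).2 (hmax n hn)
  · rw [Polynomial.notMem_support_iff.1 hn, zero_div, map_zero]
    exact W.zero_mem

/-- The Gauss formula in one variable. -/
theorem unit_of_max_coeff_one (W : ValuationSubring M) (x : M) (hx : x ∈ W)
    (hW : ResTrans K W x) (P : K[X]) (n₀ : ℕ) (h0 : P.coeff n₀ ≠ 0)
    (hmax : ∀ n, algebraMap K M (P.coeff n / P.coeff n₀) ∈ W) :
    Polynomial.aeval x P / algebraMap K M (P.coeff n₀) ∈ W ∧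
      (Polynomial.aeval x P / algebraMap K M (P.coeff n₀))⁻¹ ∈ W ∧
      Polynomial.aeval x P ≠ 0 := by
  set c := P.coeff n₀ with hc
  have hcoeff : ∀ n, (c⁻¹ • P).coeff n = P.coeff n / c := fun n => by
    rw [Polynomial.coeff_smul, smul_eq_mul, div_eq_inv_mul]
  have hval : Polynomial.aeval x (c⁻¹ • P) = Polynomial.aeval x P / algebraMap K M c := by
    rw [map_smul, Algebra.smul_def, map_inv₀, div_eq_inv_mul]
  have hP1 : ∀ n, algebraMap K M ((c⁻¹ • P).coeff n) ∈ W := fun n => by
    rw [hcoeff]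
    exact hmax n
  have hmem : Polynomial.aeval x (c⁻¹ • P) ∈ W := aeval_mem_one W x hx _ hP1
  have hnon : Polynomial.aeval x (c⁻¹ • P) ∉ W.nonunits := by
    intro hcon
    have h1 := hW _ hP1 hcon n₀
    rw [hcoeff, div_self h0, map_one] at h1
    exact one_not_mem_nonunits W h1
  obtain ⟨h1, h2⟩ := inv_mem_of_not_mem_nonunits W hnon
  rw [hval] at hmem h1 h2
  exact ⟨hmem, h1, fun h => h2 (by rw [h, zero_div])⟩

theorem transcendental_of_resTrans (W : ValuationSubring M) (x : M) (hx : x ∈ W)
    (hW : ResTrans K W x) : Transcendental K x := by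
  rw [transcendental_iff]
  intro P hP
  by_contra hP0
  obtain ⟨n₀, h0, hmax⟩ := exists_max_coeff_one W P hP0
  exact (unit_of_max_coeff_one W x hx hW P n₀ h0 hmax).2.2 hP

/-- **Gauss uniqueness, one variable.**  Two valuation subrings of `M = K(x)` with the same
trace on `K`, both containing `x` with transcendental residue, are equal. -/
theorem eq_of_resTrans (x : M) (hgen : IntermediateField.adjoin K {x} = ⊤)
    (W W' : ValuationSubring M)
    (htr : ∀ a : K, algebraMap K M a ∈ W ↔ algebraMap K M a ∈ W')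
    (hx : x ∈ W) (hx' : x ∈ W') (hW : ResTrans K W x) (hW' : ResTrans K W' x) : W = W' := by
  refine eq_of_common_units (K := K) W W' htr
    (Set.range (Polynomial.aeval (R := K) x)) (fun f => ?_) ?_
  · have hf : f ∈ IntermediateField.adjoin K {x} := by
      rw [hgen]; exact IntermediateField.mem_top
    obtain ⟨r, s, rfl⟩ := (IntermediateField.mem_adjoin_simple_iff K f).1 hf
    by_cases hs : Polynomial.aeval x s = 0
    · refine ⟨0, ⟨0, map_zero _⟩, 1, ⟨1, map_one _⟩, one_ne_zero, ?_⟩
      rw [hs, div_zero, zero_div]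
    · exact ⟨_, ⟨r, rfl⟩, _, ⟨s, rfl⟩, hs, rfl⟩
  · rintro _ ⟨P, rfl⟩ hP0
    have hP : P ≠ 0 := by
      rintro rfl
      exact hP0 (map_zero _)
    obtain ⟨n₀, h0, hmax⟩ := exists_max_coeff_one W P hP
    obtain ⟨h1, h2, -⟩ := unit_of_max_coeff_one W x hx hW P n₀ h0 hmax
    obtain ⟨h3, h4, -⟩ := unit_of_max_coeff_one W' x hx' hW' P n₀ h0 fun n => (htr _).1 (hmax n)
    exact ⟨_, h0, h1, h2, h3, h4⟩

/-- **Producer of `ResTrans`** from a reduction map (one variable). -/
theorem resTrans_of_transcendental {k₀ k : Type*} [Field k₀] [Field k] [Algebra k₀ k]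
    (W : ValuationSubring M) (red : W →+* k)
    (hred : ∀ w : W, (w : M) ∈ W.nonunits → red w = 0)
    (red₀ : W.comap (algebraMap K M) →+* k₀)
    (hred₀ : ∀ a : W.comap (algebraMap K M), red₀ a = 0 → algebraMap K M (a : K) ∈ W.nonunits)
    (hcomp : ∀ a : W.comap (algebraMap K M),
      red ⟨algebraMap K M (a : K), a.2⟩ = algebraMap k₀ k (red₀ a))
    (x : M) (hx : x ∈ W) (hind : Transcendental k₀ (red ⟨x, hx⟩)) : ResTrans K W x := by
  classical
  intro P hP hnon m
  set c : ℕ → W.comap (algebraMap K M) := fun d => ⟨P.coeff d, hP d⟩ with hc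
  set w : W := ∑ d ∈ P.support, (⟨algebraMap K M (P.coeff d), hP d⟩ : W) *
      (⟨x, hx⟩ : W) ^ d with hw
  have hwval : (w : M) = Polynomial.aeval x P := by
    rw [Polynomial.aeval_def, Polynomial.eval₂_eq_sum, Polynomial.sum_def, hw]
    simp only [AddSubmonoidClass.coe_finsetSum, MulMemClass.coe_mul, SubmonoidClass.coe_pow]
  set Pb : k₀[X] := ∑ d ∈ P.support, Polynomial.monomial d (red₀ (c d)) with hPb
  have hredw : red w = Polynomial.aeval (red ⟨x, hx⟩) Pb := by
    rw [hw, hPb, map_sum, map_sum]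
    refine Finset.sum_congr rfl fun d _ => ?_
    rw [map_mul, map_pow, Polynomial.aeval_monomial, ← hcomp (c d)]
  have hzero : Polynomial.aeval (red ⟨x, hx⟩) Pb = 0 := by
    rw [← hredw]
    exact hred w (by rw [hwval]; exact hnon)
  have hPb0 : Pb = 0 := (transcendental_iff.1 hind) Pb hzero
  by_cases hm : m ∈ P.support
  · have hcoeff : Pb.coeff m = red₀ (c m) := by
      rw [hPb, Polynomial.finsetSum_coeff]
      simp only [Polynomial.coeff_monomial]
      rw [Finset.sum_ite_eq' P.support m, if_pos hm]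
    have h0 : red₀ (c m) = 0 := by rw [← hcoeff, hPb0, Polynomial.coeff_zero]
    exact hred₀ (c m) h0
  · rw [Polynomial.notMem_support_iff.1 hm, map_zero]
    exact zero_mem_nonunits W

end One

end Fermat.Agent.S27P.Val.Gauss
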