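import Mathlib
import Fermat.Agent.S27P.Val.Gauss

/-!
# Gauss's lemma for a residually independent family

`W` a valuation subring of `L ⊇ K`, `e : I → L` a family of elements of `W` whose residues are
linearly independent over the residue field of `W ∩ K` (`ResIndepFam`, stated without residue
fields).  Then a `K`-combination `∑ c i • e i` has the valuation of its largest coefficient; it
lies in `W` iff all coefficients do; and if `L` is the field of fractions of the `K`-span of `e`,
then `W` is determined by its trace on `K`.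

This is the family form (literal of the (GEN) ruling #1) of `Val/Gauss.lean`.
Mathlib only; arbitrary rank; universe-polymorphic.
-/

set_option autoImplicit false

namespace Fermat.Agent.S27P.Val.GaussFam

open Fermat.Agent.S27P.Val.Gauss

variable {K L : Type*} [Field K] [Field L] [Algebra K L]

/-- The residues of the `e i` are linearly independent over the residue field of the trace of
`W` on `K`, stated without residue fields. -/
def ResIndepFam (W : ValuationSubring L) {I : Type*} (e : I → L) : Prop :=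
  ∀ c : I →₀ K, (∀ i, algebraMap K L (c i) ∈ W) →
    (c.sum fun i a => a • e i) ∈ W.nonunits → ∀ i, algebraMap K L (c i) ∈ W.nonunits

variable {I : Type*}

/-- A combination with coefficients in `W` of elements of `W` lies in `W`. -/
theorem sum_mem_of_coeff_mem (e : I → L) (W : ValuationSubring L) (he : ∀ i, e i ∈ W)
    (c : I →₀ K) (hc : ∀ i, algebraMap K L (c i) ∈ W) : (c.sum fun i a => a • e i) ∈ W := by
  rw [Finsupp.sum]
  refine sum_mem fun i _ => ?_
  rw [Algebra.smul_def]
  exact W.mul_mem _ _ (hc i) (he i)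

/-- A nonzero coefficient family has a coefficient of maximal valuation. -/
theorem exists_max_coeff (W : ValuationSubring L) (c : I →₀ K) (hc : c ≠ 0) :
    ∃ i₀, c i₀ ≠ 0 ∧ ∀ i, algebraMap K L (c i / c i₀) ∈ W := by
  classical
  have hne : c.support.Nonempty := Finsupp.support_nonempty_iff.2 hc
  obtain ⟨i₀, hi₀, hmax⟩ := Finset.exists_max_image c.support
    (fun i => W.valuation (algebraMap K L (c i))) hne
  have h0 : c i₀ ≠ 0 := Finsupp.mem_support_iff.1 hi₀
  refine ⟨i₀, h0, fun i => ?_⟩
  by_cases hi : i ∈ c.support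
  · rw [← ValuationSubring.valuation_le_one_iff, map_div₀, map_div₀]
    have hv0 : W.valuation (algebraMap K L (c i₀)) ≠ 0 :=
      (Valuation.ne_zero_iff _).2 ((map_ne_zero _).2 h0)
    exact (div_le_one₀ (zero_lt_iff.2 hv0)).2 (hmax i hi)
  · rw [Finsupp.notMem_support_iff.1 hi, zero_div, map_zero]
    exact W.zero_mem

/-- Dividing a combination by a constant. -/
theorem sum_inv_smul (e : I → L) (c : I →₀ K) (r : K) :
    ((r⁻¹ • c).sum fun i a => a • e i) = (c.sum fun i a => a • e i) / algebraMap K L r := by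
  rw [Finsupp.sum_smul_index' (fun i => zero_smul K (e i)), Finsupp.sum, Finsupp.sum,
    Finset.sum_div]
  refine Finset.sum_congr rfl fun i _ => ?_
  rw [smul_eq_mul, Algebra.smul_def, Algebra.smul_def, map_mul, map_inv₀]
  ring

/-- **Gauss's lemma, family form**: if `c i₀` is a coefficient of maximal valuation, then
`(∑ c i • e i) / c i₀` is a unit of `W`. -/
theorem unit_of_max_coeff (e : I → L) (W : ValuationSubring L) (he : ∀ i, e i ∈ W)
    (hW : ResIndepFam (K := K) W e) (c : I →₀ K) (i₀ : I) (h0 : c i₀ ≠ 0)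
    (hmax : ∀ i, algebraMap K L (c i / c i₀) ∈ W) :
    (c.sum fun i a => a • e i) / algebraMap K L (c i₀) ∈ W ∧
      ((c.sum fun i a => a • e i) / algebraMap K L (c i₀))⁻¹ ∈ W ∧
      (c.sum fun i a => a • e i) ≠ 0 := by
  have hcoeff : ∀ i, ((c i₀)⁻¹ • c) i = c i / c i₀ := fun i => by
    rw [Finsupp.smul_apply, smul_eq_mul, div_eq_inv_mul]
  have hc1 : ∀ i, algebraMap K L (((c i₀)⁻¹ • c) i) ∈ W := fun i => by
    rw [hcoeff]
    exact hmax i
  have hmem := sum_mem_of_coeff_mem e W he _ hc1
  have hnon : (((c i₀)⁻¹ • c).sum fun i a => a • e i) ∉ W.nonunits := by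
    intro hcon
    have h1 := hW _ hc1 hcon i₀
    rw [hcoeff, div_self h0, map_one] at h1
    exact one_not_mem_nonunits W h1
  obtain ⟨h1, h2⟩ := inv_mem_of_not_mem_nonunits W hnon
  rw [sum_inv_smul] at hmem h1 h2
  exact ⟨hmem, h1, fun h => h2 (by rw [h, zero_div])⟩

/-- The valuation formula: a combination has the valuation of its largest coefficient. -/
theorem exists_valuation_eq (e : I → L) (W : ValuationSubring L) (he : ∀ i, e i ∈ W)
    (hW : ResIndepFam (K := K) W e) (c : I →₀ K) (hc : c ≠ 0) :
    ∃ i₀, c i₀ ≠ 0 ∧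
      W.valuation (c.sum fun i a => a • e i) = W.valuation (algebraMap K L (c i₀)) ∧
      ∀ i, W.valuation (algebraMap K L (c i)) ≤ W.valuation (algebraMap K L (c i₀)) := by
  obtain ⟨i₀, h0, hmax⟩ := exists_max_coeff W c hc
  obtain ⟨h1, h2, hsne⟩ := unit_of_max_coeff e W he hW c i₀ h0 hmax
  have hv0 : W.valuation (algebraMap K L (c i₀)) ≠ 0 :=
    (Valuation.ne_zero_iff _).2 ((map_ne_zero _).2 h0)
  refine ⟨i₀, h0, ?_, fun i => ?_⟩
  · have hle : W.valuation ((c.sum fun i a => a • e i) / algebraMap K L (c i₀)) ≤ 1 :=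
      (W.valuation_le_one_iff _).2 h1
    have hge : W.valuation ((c.sum fun i a => a • e i) / algebraMap K L (c i₀))⁻¹ ≤ 1 :=
      (W.valuation_le_one_iff _).2 h2
    rw [map_div₀] at hle
    rw [map_inv₀, map_div₀, inv_div] at hge
    have hs0 : W.valuation (c.sum fun i a => a • e i) ≠ 0 := (Valuation.ne_zero_iff _).2 hsne
    exact le_antisymm ((div_le_one₀ (zero_lt_iff.2 hv0)).1 hle)
      ((div_le_one₀ (zero_lt_iff.2 hs0)).1 hge)
  · have := hmax i
    rw [← ValuationSubring.valuation_le_one_iff, map_div₀, map_div₀] at this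
    exact (div_le_one₀ (zero_lt_iff.2 hv0)).1 this

/-- A combination lies in `W` iff all its coefficients do. -/
theorem mem_iff_of_resIndepFam (e : I → L) (W : ValuationSubring L) (he : ∀ i, e i ∈ W)
    (hW : ResIndepFam (K := K) W e) (c : I →₀ K) :
    (c.sum fun i a => a • e i) ∈ W ↔ ∀ i, algebraMap K L (c i) ∈ W := by
  refine ⟨fun h i => ?_, sum_mem_of_coeff_mem e W he c⟩
  by_cases hc : c = 0
  · rw [hc, Finsupp.zero_apply, map_zero]
    exact W.zero_mem
  obtain ⟨i₀, h0, hmax⟩ := exists_max_coeff W c hc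
  obtain ⟨-, h2, -⟩ := unit_of_max_coeff e W he hW c i₀ h0 hmax
  have hc0 : algebraMap K L (c i₀) ≠ 0 := (map_ne_zero _).2 h0
  have hi₀ : algebraMap K L (c i₀) ∈ W := by
    have h3 : algebraMap K L (c i₀) =
        (c.sum fun i a => a • e i) * ((c.sum fun i a => a • e i) / algebraMap K L (c i₀))⁻¹ := by
      by_cases hs : (c.sum fun i a => a • e i) = 0
      · exact absurd hs (unit_of_max_coeff e W he hW c i₀ h0 hmax).2.2
      · field_simp
    rw [h3]
    exact W.mul_mem _ _ h h2
  have h4 : algebraMap K L (c i) = algebraMap K L (c i / c i₀) * algebraMap K L (c i₀) := by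
    rw [← map_mul, div_mul_cancel₀ _ h0]
  rw [h4]
  exact W.mul_mem _ _ (hmax i) hi₀

/-- **Gauss uniqueness, family form.**  If `L` is the field of fractions of the `K`-span of `e`,
two valuation subrings of `L` with the same trace on `K`, both containing the `e i` with
independent residues, are equal. -/
theorem eq_of_resIndepFam (e : I → L)
    (hgen : ∀ y : L, ∃ c d : I →₀ K, (d.sum fun i a => a • e i) ≠ 0 ∧
      y * (d.sum fun i a => a • e i) = c.sum fun i a => a • e i)
    (W W' : ValuationSubring L) (htr : ∀ a : K, algebraMap K L a ∈ W ↔ algebraMap K L a ∈ W')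
    (he : ∀ i, e i ∈ W) (he' : ∀ i, e i ∈ W')
    (hW : ResIndepFam (K := K) W e) (hW' : ResIndepFam (K := K) W' e) : W = W' := by
  refine eq_of_common_units (K := K) W W' htr
    (Set.range fun c : I →₀ K => c.sum fun i a => a • e i) (fun y => ?_) ?_
  · obtain ⟨c, d, hd, hy⟩ := hgen y
    refine ⟨_, ⟨c, rfl⟩, _, ⟨d, rfl⟩, hd, ?_⟩
    show y = (c.sum fun i a => a • e i) / (d.sum fun i a => a • e i)
    rw [← hy, mul_div_cancel_right₀ _ hd]
  · rintro _ ⟨c, rfl⟩ hc0
    have hc : c ≠ 0 := by
      rintro rfl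
      exact hc0 (by simp)
    obtain ⟨i₀, h0, hmax⟩ := exists_max_coeff W c hc
    obtain ⟨h1, h2, -⟩ := unit_of_max_coeff e W he hW c i₀ h0 hmax
    obtain ⟨h3, h4, -⟩ := unit_of_max_coeff e W' he' hW' c i₀ h0 fun i => (htr _).1 (hmax i)
    exact ⟨_, h0, h1, h2, h3, h4⟩

/-- **Producer of `ResIndepFam`** from a reduction map: `red : W → k` kills the non-units, is
compatible with a reduction `red₀ : W ∩ K → k₀` whose kernel consists of non-units, and the
reductions of the `e i` are linearly independent over `k₀`. -/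
theorem resIndepFam_of_linearIndependent {k₀ k : Type*} [Field k₀] [Field k] [Algebra k₀ k]
    (W : ValuationSubring L) (red : W →+* k)
    (hred : ∀ w : W, (w : L) ∈ W.nonunits → red w = 0)
    (red₀ : W.comap (algebraMap K L) →+* k₀)
    (hred₀ : ∀ a : W.comap (algebraMap K L), red₀ a = 0 → algebraMap K L (a : K) ∈ W.nonunits)
    (hcomp : ∀ a : W.comap (algebraMap K L),
      red ⟨algebraMap K L (a : K), a.2⟩ = algebraMap k₀ k (red₀ a))
    (e : I → L) (he : ∀ i, e i ∈ W)
    (hind : LinearIndependent k₀ fun i => red ⟨e i, he i⟩) : ResIndepFam (K := K) W e := by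
  classical
  intro c hc hnon i
  set a : I → W.comap (algebraMap K L) := fun j => ⟨c j, hc j⟩ with ha
  have ha0 : ∀ j, c j = 0 → a j = 0 := fun j hj => Subtype.ext hj
  set cb : I →₀ k₀ := Finsupp.onFinset c.support (fun j => red₀ (a j)) (fun j hj => by
    rw [Finsupp.mem_support_iff]
    intro h
    exact hj (by rw [ha0 j h, map_zero])) with hcb
  set w : W := ∑ j ∈ c.support, (⟨algebraMap K L (c j), hc j⟩ : W) * (⟨e j, he j⟩ : W) with hw
  have hwval : (w : L) = c.sum fun j b => b • e j := by
    rw [hw, Finsupp.sum]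
    simp only [AddSubmonoidClass.coe_finsetSum, MulMemClass.coe_mul, Algebra.smul_def]
  have hredw : red w = Finsupp.linearCombination k₀ (fun j => red ⟨e j, he j⟩) cb := by
    rw [Finsupp.linearCombination_apply,
      Finsupp.sum_of_support_subset cb (s := c.support) (Finsupp.support_onFinset_subset)
        (fun j b => b • red ⟨e j, he j⟩) (fun j _ => zero_smul _ _), hw, map_sum]
    refine Finset.sum_congr rfl fun j _ => ?_
    rw [map_mul, hcb, Finsupp.onFinset_apply, Algebra.smul_def, ← hcomp (a j)]
  have hzero : Finsupp.linearCombination k₀ (fun j => red ⟨e j, he j⟩) cb = 0 := by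
    rw [← hredw]
    exact hred w (by rw [hwval]; exact hnon)
  have hcb0 : cb = 0 := (linearIndependent_iff.1 hind) cb hzero
  have h0 : red₀ (a i) = 0 := by
    have h1 : cb i = red₀ (a i) := by rw [hcb, Finsupp.onFinset_apply]
    rw [← h1, hcb0, Finsupp.zero_apply]
  exact hred₀ (a i) h0

end Fermat.Agent.S27P.Val.GaussFam
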