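import Mathlib
import Fermat.Agent.S27P.Val.Conj91
import Fermat.Agent.S27P.Val.GaussFam

/-!
# Adjusting an automorphism to a valuation ring  ((LIFT-VAL), twin copy)

`Ω ⊇ K` algebraically closed of characteristic zero, `V` a valuation subring of `Ω`,
`e : I → Ω` a family of elements of `V` whose `K`-span is a `K`-subalgebra, over whose field of
fractions `Ω` is algebraic, and whose residues are linearly independent over the residue field
of `V ∩ K` (stated without residue fields, the literal of `GaussFam.ResIndepFam` unfolded).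

If `σ₀ ∈ Aut(Ω/K)` moves every `e i` by a non-unit of `V`, there is `σ ∈ Aut(Ω/K)` which agrees
with `σ₀` on the `e i`, preserves `V`, and acts trivially on the residue field of `V`
(`exists_algEquiv_adjust`).

Proof.  By Gauss's lemma (family form) `σ₀` moves every non-zero element `y` of
`Lf = K(e i)` by something of strictly smaller valuation (`close_of_mem_adjoin`), hence
`σ₀⁻¹ V` and `V` have the same trace on `Lf`; by conjugacy of the extensions of a valuation ring
in the Galois extension `Ω/Lf` we may correct `σ₀` by an element of `Gal(Ω/Lf)` so that it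
preserves `V`; by surjectivity of the decomposition group onto the automorphisms of the residue
extension we may correct once more so that the induced residue automorphism is trivial.

Mathlib + `Val/Conj91` + `Val/GaussFam` only; arbitrary rank; universe-polymorphic.
-/

set_option autoImplicit false

namespace Fermat.Agent.S27P.Val.AdjustB

variable {K Ω : Type*} [Field K] [Field Ω] [Algebra K Ω]

section close

variable {F : Type*} [FunLike F Ω Ω] [RingHomClass F Ω Ω]

/-- "`σ₀` moves `y` by less than `y`" is stable under products. -/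
theorem close_mul (V : ValuationSubring Ω) (σ₀ : F) {y z : Ω}
    (hy : y ≠ 0 → V.valuation (σ₀ y - y) < V.valuation y)
    (hz : z ≠ 0 → V.valuation (σ₀ z - z) < V.valuation z) (hyz : y * z ≠ 0) :
    V.valuation (σ₀ (y * z) - y * z) < V.valuation (y * z) := by
  have hy0 : y ≠ 0 := left_ne_zero_of_mul hyz
  have hz0 : z ≠ 0 := right_ne_zero_of_mul hyz
  have h1 := hy hy0
  have h2 := hz hz0
  have h3 : V.valuation (σ₀ z) = V.valuation z := Valuation.map_eq_of_sub_lt _ h2
  have e : σ₀ (y * z) - y * z = (σ₀ y - y) * σ₀ z + y * (σ₀ z - z) := by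
    rw [map_mul]
    ring
  rw [e, map_mul]
  refine Valuation.map_add_lt _ ?_ ?_
  · rw [map_mul, h3]
    exact mul_lt_mul_of_pos_right h1 (zero_lt_iff.2 ((Valuation.ne_zero_iff _).2 hz0))
  · rw [map_mul]
    exact mul_lt_mul_of_pos_left h2 (zero_lt_iff.2 ((Valuation.ne_zero_iff _).2 hy0))

/-- "`σ₀` moves `y` by less than `y`" is stable under inverses. -/
theorem close_inv (V : ValuationSubring Ω) (σ₀ : F) {y : Ω}
    (hy : y ≠ 0 → V.valuation (σ₀ y - y) < V.valuation y) (hy' : y⁻¹ ≠ 0) :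
    V.valuation (σ₀ y⁻¹ - y⁻¹) < V.valuation y⁻¹ := by
  have hy0 : y ≠ 0 := fun h => hy' (by rw [h, inv_zero])
  have h1 := hy hy0
  have h3 : V.valuation (σ₀ y) = V.valuation y := Valuation.map_eq_of_sub_lt _ h1
  have hs0 : σ₀ y ≠ 0 := (map_ne_zero σ₀).2 hy0
  have e : σ₀ y⁻¹ - y⁻¹ = -((σ₀ y - y) * (σ₀ y)⁻¹ * y⁻¹) := by
    rw [map_inv₀]
    field_simp
    ring
  have hv : V.valuation y ≠ 0 := (Valuation.ne_zero_iff _).2 hy0
  have h4 : V.valuation (σ₀ y - y) * (V.valuation y)⁻¹ < 1 := by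
    rwa [← div_eq_mul_inv, div_lt_one₀ (zero_lt_iff.2 hv)]
  rw [e, Valuation.map_neg, map_mul, map_mul, map_inv₀, map_inv₀, h3]
  calc V.valuation (σ₀ y - y) * (V.valuation y)⁻¹ * (V.valuation y)⁻¹
      < 1 * (V.valuation y)⁻¹ := mul_lt_mul_of_pos_right h4 (zero_lt_iff.2 (inv_ne_zero hv))
    _ = (V.valuation y)⁻¹ := one_mul _

end close

/-- **Gauss's lemma for the displacement**: an automorphism moving the `e i` by non-units moves
every non-zero `K`-combination of them by something of strictly smaller valuation. -/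
theorem close_sum (V : ValuationSubring Ω) (σ₀ : Ω ≃ₐ[K] Ω) {I : Type*} (e : I → Ω)
    (he : ∀ i, e i ∈ V) (hσ : ∀ i, σ₀ (e i) - e i ∈ V.nonunits)
    (hind : GaussFam.ResIndepFam (K := K) V e) (c : I →₀ K)
    (hs : (c.sum fun i a => a • e i) ≠ 0) :
    V.valuation (σ₀ (c.sum fun i a => a • e i) - c.sum fun i a => a • e i) <
      V.valuation (c.sum fun i a => a • e i) := by
  have hc : c ≠ 0 := by
    rintro rfl
    exact hs (by simp)
  obtain ⟨i₀, h0, hval, hmax⟩ := GaussFam.exists_valuation_eq e V he hind c hc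
  have e1 : σ₀ (c.sum fun i a => a • e i) - (c.sum fun i a => a • e i) =
      ∑ i ∈ c.support, c i • (σ₀ (e i) - e i) := by
    rw [Finsupp.sum, map_sum, ← Finset.sum_sub_distrib]
    refine Finset.sum_congr rfl fun i _ => ?_
    rw [map_smul, smul_sub]
  rw [e1, hval]
  have hv0 : V.valuation (algebraMap K Ω (c i₀)) ≠ 0 :=
    (Valuation.ne_zero_iff _).2 ((map_ne_zero _).2 h0)
  refine Valuation.map_sum_lt _ hv0 fun i _ => ?_
  rw [Algebra.smul_def, map_mul]
  have h1 : V.valuation (σ₀ (e i) - e i) < 1 := (ValuationSubring.mem_nonunits_iff V).1 (hσ i)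
  calc V.valuation (algebraMap K Ω (c i)) * V.valuation (σ₀ (e i) - e i)
      ≤ V.valuation (algebraMap K Ω (c i₀)) * V.valuation (σ₀ (e i) - e i) :=
        mul_le_mul' (hmax i) le_rfl
    _ < V.valuation (algebraMap K Ω (c i₀)) * 1 :=
        mul_lt_mul_of_pos_left h1 (zero_lt_iff.2 hv0)
    _ = V.valuation (algebraMap K Ω (c i₀)) := mul_one _

/-- The span of a family closed under products (up to the span) is closed under products. -/
theorem mul_mem_span {I : Type*} (e : I → Ω)
    (hmul : ∀ i j, e i * e j ∈ Submodule.span K (Set.range e)) {x y : Ω}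
    (hx : x ∈ Submodule.span K (Set.range e)) (hy : y ∈ Submodule.span K (Set.range e)) :
    x * y ∈ Submodule.span K (Set.range e) := by
  have h := Submodule.mul_mem_mul hx hy
  rw [Submodule.span_mul_span] at h
  refine (Submodule.span_le.2 ?_) h
  rintro _ ⟨_, ⟨i, rfl⟩, _, ⟨j, rfl⟩, rfl⟩
  exact hmul i j

/-- Every element of `K(e i)` is a quotient of two `K`-combinations of the `e i`. -/
theorem exists_sum_div {I : Type*} (e : I → Ω)
    (h1 : (1 : Ω) ∈ Submodule.span K (Set.range e))
    (hmul : ∀ i j, e i * e j ∈ Submodule.span K (Set.range e)) {y : Ω}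
    (hy : y ∈ IntermediateField.adjoin K (Set.range e)) :
    ∃ c d : I →₀ K, y = (c.sum fun i a => a • e i) / (d.sum fun i a => a • e i) := by
  have hadj : ∀ x ∈ Algebra.adjoin K (Set.range e), x ∈ Submodule.span K (Set.range e) := by
    intro x hx
    induction hx using Algebra.adjoin_induction with
    | mem x hx => exact Submodule.subset_span hx
    | algebraMap r =>
      rw [Algebra.algebraMap_eq_smul_one]
      exact Submodule.smul_mem _ _ h1
    | add x y _ _ hx hy => exact add_mem hx hy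
    | mul x y _ _ hx hy => exact mul_mem_span e hmul hx hy
  obtain ⟨r, hr, s, hs, rfl⟩ := IntermediateField.mem_adjoin_iff_div.1 hy
  obtain ⟨c, hc⟩ := Finsupp.mem_span_range_iff_exists_finsupp.1 (hadj r hr)
  obtain ⟨d, hd⟩ := Finsupp.mem_span_range_iff_exists_finsupp.1 (hadj s hs)
  exact ⟨c, d, by rw [hc, hd]⟩

/-- **Displacement on the generated field**: `σ₀` moves every non-zero element of `K(e i)` by
something of strictly smaller valuation. -/
theorem close_of_mem_adjoin (V : ValuationSubring Ω) (σ₀ : Ω ≃ₐ[K] Ω) {I : Type*} (e : I → Ω)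
    (h1 : (1 : Ω) ∈ Submodule.span K (Set.range e))
    (hmul : ∀ i j, e i * e j ∈ Submodule.span K (Set.range e))
    (he : ∀ i, e i ∈ V) (hσ : ∀ i, σ₀ (e i) - e i ∈ V.nonunits)
    (hind : GaussFam.ResIndepFam (K := K) V e) {y : Ω}
    (hy : y ∈ IntermediateField.adjoin K (Set.range e)) (hy0 : y ≠ 0) :
    V.valuation (σ₀ y - y) < V.valuation y := by
  obtain ⟨c, d, rfl⟩ := exists_sum_div e h1 hmul hy
  rw [div_eq_mul_inv] at hy0 ⊢
  exact close_mul V σ₀ (close_sum V σ₀ e he hσ hind c)
    (close_inv V σ₀ (close_sum V σ₀ e he hσ hind d)) hy0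

/-- A ring automorphism preserving a valuation subring restricts to it. -/
def restrictEquiv (V : ValuationSubring Ω) (σ : Ω ≃+* Ω) (h : ∀ x, σ x ∈ V ↔ x ∈ V) :
    V ≃+* V where
  toFun x := ⟨σ x, (h x).2 x.2⟩
  invFun x := ⟨σ.symm x, (h _).1 (by rw [RingEquiv.apply_symm_apply]; exact x.2)⟩
  left_inv x := Subtype.ext (σ.symm_apply_apply x)
  right_inv x := Subtype.ext (σ.apply_symm_apply x)
  map_mul' x y := Subtype.ext (map_mul σ _ _)
  map_add' x y := Subtype.ext (map_add σ _ _)

theorem residue_eq_of_sub_mem (V : ValuationSubring Ω) {x y : Ω} (hx : x ∈ V) (hy : y ∈ V)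
    (h : x - y ∈ V.nonunits) :
    IsLocalRing.residue V ⟨x, hx⟩ = IsLocalRing.residue V ⟨y, hy⟩ := by
  rw [← sub_eq_zero, ← map_sub, IsLocalRing.residue_eq_zero_iff]
  exact ValuationSubring.coe_mem_nonunits_iff.1 h

theorem sub_mem_of_residue_eq (V : ValuationSubring Ω) {x y : Ω} (hx : x ∈ V) (hy : y ∈ V)
    (h : IsLocalRing.residue V ⟨x, hx⟩ = IsLocalRing.residue V ⟨y, hy⟩) :
    x - y ∈ V.nonunits := by
  rw [← sub_eq_zero, ← map_sub, IsLocalRing.residue_eq_zero_iff] at h
  exact ValuationSubring.coe_mem_nonunits_iff.2 h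

/-- The residue automorphism induced by an automorphism preserving `V`. -/
theorem mapEquiv_restrictEquiv_residue (V : ValuationSubring Ω) (σ : Ω ≃+* Ω)
    (h : ∀ x, σ x ∈ V ↔ x ∈ V) (x : Ω) (hx : x ∈ V) :
    IsLocalRing.ResidueField.mapEquiv (restrictEquiv V σ h) (IsLocalRing.residue V ⟨x, hx⟩) =
      IsLocalRing.residue V ⟨σ x, (h x).2 hx⟩ := by
  rw [IsLocalRing.ResidueField.mapEquiv_apply]
  exact IsLocalRing.ResidueField.map_residue _ _

/-- **(LIFT-VAL)**: adjusting an automorphism of `Ω/K` which moves a residually independent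
generating family by non-units of `V` to one which preserves `V` and induces the identity on
its residue field, without changing it on the family. -/
theorem exists_algEquiv_adjust [IsAlgClosed Ω] [CharZero K]
    (V : ValuationSubring Ω) (σ₀ : Ω ≃ₐ[K] Ω) {I : Type*} (e : I → Ω)
    (h1 : (1 : Ω) ∈ Submodule.span K (Set.range e))
    (hmul : ∀ i j, e i * e j ∈ Submodule.span K (Set.range e))
    (halg : ∀ y : Ω, IsAlgebraic (IntermediateField.adjoin K (Set.range e)) y)
    (he : ∀ i, e i ∈ V) (hσ : ∀ i, σ₀ (e i) - e i ∈ V.nonunits)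
    (hind : ∀ c : I →₀ K, (∀ i, algebraMap K Ω (c i) ∈ V) →
      (c.sum fun i a => a • e i) ∈ V.nonunits → ∀ i, algebraMap K Ω (c i) ∈ V.nonunits) :
    ∃ σ : Ω ≃ₐ[K] Ω, (∀ i, σ (e i) = σ₀ (e i)) ∧ (∀ a : Ω, a ∈ V ↔ σ a ∈ V) ∧
      ∀ a : Ω, a ∈ V → σ a - a ∈ V.nonunits := by
  classical
  have : Algebra.IsAlgebraic (IntermediateField.adjoin K (Set.range e)) Ω := ⟨halg⟩
  have : IsAlgClosure (IntermediateField.adjoin K (Set.range e)) Ω :=
    ⟨inferInstance, inferInstance⟩
  have : CharZero (IntermediateField.adjoin K (Set.range e)) :=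
    charZero_of_injective_algebraMap
      (algebraMap K (IntermediateField.adjoin K (Set.range e))).injective
  have : IsGalois (IntermediateField.adjoin K (Set.range e)) Ω := inferInstance
  have hD : ∀ y : IntermediateField.adjoin K (Set.range e), (y : Ω) ≠ 0 →
      V.valuation (σ₀ (y : Ω) - y) < V.valuation (y : Ω) := fun y hy0 =>
    close_of_mem_adjoin V σ₀ e h1 hmul he hσ hind y.2 hy0
  have hDv : ∀ y : IntermediateField.adjoin K (Set.range e),
      V.valuation (σ₀ (y : Ω)) = V.valuation (y : Ω) := by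
    intro y
    by_cases hy0 : (y : Ω) = 0
    · rw [hy0, map_zero]
    · exact Valuation.map_eq_of_sub_lt _ (hD y hy0)
  have hDn : ∀ y : IntermediateField.adjoin K (Set.range e), (y : Ω) ∈ V →
      σ₀ (y : Ω) - y ∈ V.nonunits := by
    intro y hy
    rw [ValuationSubring.mem_nonunits_iff]
    by_cases hy0 : (y : Ω) = 0
    · rw [hy0, map_zero, sub_zero, map_zero]
      exact zero_lt_one
    · exact lt_of_lt_of_le (hD y hy0) ((ValuationSubring.valuation_le_one_iff _ _).2 hy)
  -- conjugacy: correct `σ₀` so that it preserves `V`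
  obtain ⟨τ, hτ⟩ := Fermat.Agent.S27P.Val91.exists_algEquiv_map_eq
    (V.comap (algebraMap (IntermediateField.adjoin K (Set.range e)) Ω)) V
    (V.comap (σ₀ : Ω →+* Ω)) (fun a => Iff.rfl) (fun a => by
      show σ₀ (a : Ω) ∈ V ↔ (a : Ω) ∈ V
      rw [← ValuationSubring.valuation_le_one_iff, ← ValuationSubring.valuation_le_one_iff,
        hDv])
  have hτ' : ∀ x, σ₀ (τ x) ∈ V ↔ x ∈ V := hτ
  have hτc : ∀ y : IntermediateField.adjoin K (Set.range e), τ (y : Ω) = y := fun y =>
    τ.commutes y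
  -- the residue automorphism induced by `σ₀ ∘ τ`
  set σ₁ : Ω ≃+* Ω := (τ : Ω ≃+* Ω).trans (σ₀ : Ω ≃+* Ω) with hσ₁
  have hσ₁a : ∀ x, σ₁ x = σ₀ (τ x) := fun x => rfl
  have hσ₁V : ∀ x, σ₁ x ∈ V ↔ x ∈ V := hτ'
  set θ := IsLocalRing.ResidueField.mapEquiv (restrictEquiv V σ₁ hσ₁V) with hθ
  have hθr : ∀ (x : Ω) (hx : x ∈ V),
      θ (IsLocalRing.residue V ⟨x, hx⟩) = IsLocalRing.residue V ⟨σ₁ x, (hσ₁V x).2 hx⟩ :=
    mapEquiv_restrictEquiv_residue V σ₁ hσ₁V
  -- decomposition group: correct once more so that the residue automorphism is trivial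
  obtain ⟨ρ, hρV, hρr⟩ := Fermat.Agent.S27P.Val91.exists_algEquiv_residue_eq
    (V.comap (algebraMap (IntermediateField.adjoin K (Set.range e)) Ω)) V (fun a => Iff.rfl)
    θ.symm (fun a ha => by
      rw [RingEquiv.symm_apply_eq, hθr]
      refine (residue_eq_of_sub_mem V _ _ ?_).symm
      rw [hσ₁a, τ.commutes a]
      exact hDn a ha)
  have hρc : ∀ y : IntermediateField.adjoin K (Set.range e), ρ (y : Ω) = y := fun y =>
    ρ.commutes y
  refine ⟨(ρ.restrictScalars K).trans ((τ.restrictScalars K).trans σ₀), fun i => ?_,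
    fun a => ?_, fun a ha => ?_⟩
  · show σ₀ (τ (ρ (e i))) = σ₀ (e i)
    have hmem : e i ∈ IntermediateField.adjoin K (Set.range e) :=
      IntermediateField.subset_adjoin K _ ⟨i, rfl⟩
    rw [hρc ⟨e i, hmem⟩, hτc ⟨e i, hmem⟩]
  · show a ∈ V ↔ σ₀ (τ (ρ a)) ∈ V
    rw [hτ', hρV]
  · show σ₀ (τ (ρ a)) - a ∈ V.nonunits
    have hρa : ρ a ∈ V := (hρV a).2 ha
    refine sub_mem_of_residue_eq V ((hτ' _).2 hρa) ha ?_
    have h2 := hθr (ρ a) hρa
    rw [hρr a ha hρa, RingEquiv.apply_symm_apply] at h2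
    exact h2.symm

end Fermat.Agent.S27P.Val.AdjustB
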