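import Mathlib
import Fermat.Agent.S27P.Val.AdjustB

/-!
# (LIFT-VAL), strengthened conclusion

Same statement as `AdjustB.exists_algEquiv_adjust`, with the extra clause that the adjusted
automorphism agrees with `σ₀` on the whole field `K(e i)` (not only on the `e i`).
-/

set_option autoImplicit false

namespace Fermat.Agent.S27P.Val.AdjustB

variable {K Ω : Type*} [Field K] [Field Ω] [Algebra K Ω]

/-- Two `K`-automorphisms agreeing on a set agree on the field it generates. -/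
theorem eq_on_adjoin (σ σ₀ : Ω ≃ₐ[K] Ω) (S : Set Ω) (h : ∀ s ∈ S, σ s = σ₀ s) {y : Ω}
    (hy : y ∈ IntermediateField.adjoin K S) : σ y = σ₀ y := by
  induction hy using IntermediateField.adjoin_induction with
  | mem x hx => exact h x hx
  | algebraMap x => rw [AlgEquiv.commutes, AlgEquiv.commutes]
  | add x y _ _ hx hy => rw [map_add, map_add, hx, hy]
  | inv x _ hx => rw [map_inv₀, map_inv₀, hx]
  | mul x y _ _ hx hy => rw [map_mul, map_mul, hx, hy]

/-- **(LIFT-VAL), with agreement on `K(e)`.** -/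
theorem exists_algEquiv_adjust_adjoin [IsAlgClosed Ω] [CharZero K]
    (V : ValuationSubring Ω) (σ₀ : Ω ≃ₐ[K] Ω) {I : Type*} (e : I → Ω)
    (h1 : (1 : Ω) ∈ Submodule.span K (Set.range e))
    (hmul : ∀ i j, e i * e j ∈ Submodule.span K (Set.range e))
    (halg : ∀ y : Ω, IsAlgebraic (IntermediateField.adjoin K (Set.range e)) y)
    (he : ∀ i, e i ∈ V) (hσ : ∀ i, σ₀ (e i) - e i ∈ V.nonunits)
    (hind : ∀ c : I →₀ K, (∀ i, algebraMap K Ω (c i) ∈ V) →
      (c.sum fun i a => a • e i) ∈ V.nonunits → ∀ i, algebraMap K Ω (c i) ∈ V.nonunits) :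
    ∃ σ : Ω ≃ₐ[K] Ω, (∀ i, σ (e i) = σ₀ (e i)) ∧
      (∀ y ∈ IntermediateField.adjoin K (Set.range e), σ y = σ₀ y) ∧
      (∀ a : Ω, a ∈ V ↔ σ a ∈ V) ∧ ∀ a : Ω, a ∈ V → σ a - a ∈ V.nonunits := by
  obtain ⟨σ, h1', h2, h3⟩ := exists_algEquiv_adjust V σ₀ e h1 hmul halg he hσ hind
  refine ⟨σ, h1', fun y hy => eq_on_adjoin σ σ₀ _ ?_ hy, h2, h3⟩
  rintro _ ⟨i, rfl⟩
  exact h1' i

end Fermat.Agent.S27P.Val.AdjustB
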