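/-
S27 / (VAL), brick (V0) (helper33) — valuation subrings of an algebraic extension and the integral
closure.  Mathlib only, arbitrary rank.

`L / K` an algebraic field extension, `B` a valuation subring of `L`,
`A := B.comap (algebraMap K L)` its restriction to `K`.

* `isIntegral_of_relation` : the `u / u⁻¹`-lemma.  If `∑_{i ≤ n} a_i x^i = 0` with `a_i ∈ A`, then
  for every `j` the element `b_j := ∑_{j ≤ i ≤ n} a_i x^(i - j)` and `b_j * x` are integral over `A`
  (both lie in `A[x] ∩ A[x⁻¹]`).
* `exists_integral_mul_eq` : **every `x ∈ B` is a quotient `b / c` of elements integral over `A`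
  with `c` a unit of `B`** — so `B` is the localisation of the integral closure of `A` at the
  centre of `B`.
* `eq_of_nonunits_integral` : two valuation subrings of `L` with the same restriction `A` to `K`
  and the same centre on the integral closure of `A` are equal.
* `le_of_nonunits_integral` : the one-sided form.
-/
import Mathlib

set_option autoImplicit false

namespace Fermat.Agent.S27P.Val

open Polynomial

variable {K L : Type*} [Field K] [Field L] [Algebra K L]

/-- The restriction of a valuation subring of `L` to `K`. -/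
abbrev res (K : Type*) {L : Type*} [Field K] [Field L] [Algebra K L] (B : ValuationSubring L) :
    ValuationSubring K :=
  B.comap (algebraMap K L)

theorem mem_res {B : ValuationSubring L} {a : K} : a ∈ res K B ↔ algebraMap K L a ∈ B :=
  ValuationSubring.mem_comap

/-- A non-unit of the restriction is a non-unit of `B`. -/
theorem valuation_algebraMap_lt_one {B : ValuationSubring L} {a : K}
    (ha : a ∈ (res K B).nonunits) : B.valuation (algebraMap K L a) < 1 := by
  rw [ValuationSubring.mem_nonunits_iff] at ha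
  by_contra hcon
  rw [not_lt] at hcon
  by_cases ha0 : a = 0
  · rw [ha0, map_zero, map_zero] at hcon
    exact absurd hcon (not_le.2 zero_lt_one)
  -- `a⁻¹` has valuation `≤ 1` in `B`, hence lies in the restriction
  have h1 : B.valuation (algebraMap K L a⁻¹) ≤ 1 := by
    rw [map_inv₀, map_inv₀]
    exact inv_le_one_of_one_le₀ hcon
  have h2 : a⁻¹ ∈ res K B := mem_res.2 ((B.valuation_le_one_iff _).1 h1)
  have h3 : (res K B).valuation a⁻¹ ≤ 1 := ((res K B).valuation_le_one_iff _).2 h2
  rw [map_inv₀] at h3
  have h4 : (res K B).valuation a ≠ 0 := (Valuation.ne_zero_iff _).2 ha0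
  have h5 : 1 ≤ (res K B).valuation a := (inv_le_one₀ (zero_lt_iff.2 h4)).1 h3
  exact absurd ha (not_lt.2 h5)

theorem mem_nonunits_res_iff {B : ValuationSubring L} {a : K} :
    a ∈ (res K B).nonunits ↔ algebraMap K L a ∈ B.nonunits := by
  refine ⟨fun ha => (B.mem_nonunits_iff).2 (valuation_algebraMap_lt_one ha), fun ha => ?_⟩
  rw [ValuationSubring.mem_nonunits_iff] at ha ⊢
  by_contra hcon
  rw [not_lt] at hcon
  by_cases ha0 : a = 0
  · rw [ha0, map_zero] at hcon
    exact absurd hcon (not_le.2 zero_lt_one)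
  have h4 : (res K B).valuation a ≠ 0 := (Valuation.ne_zero_iff _).2 ha0
  have h1 : (res K B).valuation a⁻¹ ≤ 1 := by
    rw [map_inv₀]
    exact inv_le_one_of_one_le₀ hcon
  have h2 : a⁻¹ ∈ res K B := ((res K B).valuation_le_one_iff _).1 h1
  have h3 : B.valuation (algebraMap K L a⁻¹) ≤ 1 := (B.valuation_le_one_iff _).2 (mem_res.1 h2)
  rw [map_inv₀, map_inv₀] at h3
  have h5 : B.valuation (algebraMap K L a) ≠ 0 :=
    (Valuation.ne_zero_iff _).2 (by simpa using ha0)
  have h6 : 1 ≤ B.valuation (algebraMap K L a) := (inv_le_one₀ (zero_lt_iff.2 h5)).1 h3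
  exact absurd ha (not_lt.2 h6)

/-! ### The `u / u⁻¹`-lemma -/

section Relation

variable (B : ValuationSubring L) (a : ℕ → K) (n j : ℕ) (x : L)

/-- The element `b_j = ∑_{j ≤ i ≤ n} a_i x^(i - j)`. -/
def tail : L := ∑ i ∈ Finset.Ico j (n + 1), algebraMap K L (a i) * x ^ (i - j)

theorem tail_mul_pow : tail a n j x * x ^ j = ∑ i ∈ Finset.Ico j (n + 1), algebraMap K L (a i) * x ^ i := by
  unfold tail
  rw [Finset.sum_mul]
  refine Finset.sum_congr rfl fun i hi => ?_
  rw [Finset.mem_Ico] at hi
  rw [mul_assoc, ← pow_add, Nat.sub_add_cancel hi.1]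

theorem tail_mul_pow_eq_neg (hj : j ≤ n + 1)
    (hrel : ∑ i ∈ Finset.range (n + 1), algebraMap K L (a i) * x ^ i = 0) :
    tail a n j x * x ^ j = -∑ i ∈ Finset.range j, algebraMap K L (a i) * x ^ i := by
  rw [tail_mul_pow, eq_neg_iff_add_eq_zero, add_comm, Finset.sum_range_add_sum_Ico _ hj, hrel]

variable {B a n j x}

/-- The `A`-module spanned by `1, x, …, x^n`. -/
def powSpan (B : ValuationSubring L) (n : ℕ) (x : L) : Submodule (res K B) L :=
  Submodule.span (res K B) (Set.range fun k : Fin (n + 1) => x ^ (k : ℕ))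

theorem term_mem_powSpan (ha : ∀ i, a i ∈ res K B) (i : ℕ) {e : ℕ} (he : e ≤ n) :
    algebraMap K L (a i) * x ^ e ∈ powSpan (K := K) B n x := by
  have h1 : x ^ e ∈ powSpan (K := K) B n x :=
    Submodule.subset_span ⟨⟨e, Nat.lt_succ_of_le he⟩, rfl⟩
  have h2 := Submodule.smul_mem (powSpan (K := K) B n x) (⟨a i, ha i⟩ : res K B) h1
  have e1 : (⟨a i, ha i⟩ : res K B) • x ^ e = algebraMap K L (a i) * x ^ e := by
    rw [Algebra.smul_def]
    rfl
  rw [e1] at h2
  exact h2

theorem tail_mul_pow_mem (ha : ∀ i, a i ∈ res K B) (hj : j ≤ n + 1)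
    (hrel : ∑ i ∈ Finset.range (n + 1), algebraMap K L (a i) * x ^ i = 0) {e : ℕ}
    (he : e ≤ n + 1) : tail a n j x * x ^ e ∈ powSpan (K := K) B n x := by
  rcases le_or_gt e j with hej | hej
  · -- direct expansion
    unfold tail
    rw [Finset.sum_mul]
    refine Submodule.sum_mem _ fun i hi => ?_
    rw [Finset.mem_Ico] at hi
    rw [mul_assoc, ← pow_add]
    exact term_mem_powSpan ha i (by omega)
  · -- through the relation
    have h1 : tail a n j x * x ^ e = (tail a n j x * x ^ j) * x ^ (e - j) := by
      rw [mul_assoc, ← pow_add, Nat.add_sub_cancel' hej.le]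
    rw [h1, tail_mul_pow_eq_neg a n j x hj hrel, neg_mul, Finset.sum_mul]
    refine Submodule.neg_mem _ (Submodule.sum_mem _ fun i hi => ?_)
    rw [Finset.mem_range] at hi
    rw [mul_assoc, ← pow_add]
    exact term_mem_powSpan ha i (by omega)

theorem powSpan_ne_bot : powSpan (K := K) B n x ≠ ⊥ := by
  intro h
  have h1 : x ^ ((⟨0, Nat.succ_pos n⟩ : Fin (n + 1)) : ℕ) ∈ powSpan (K := K) B n x :=
    Submodule.subset_span ⟨⟨0, Nat.succ_pos n⟩, rfl⟩
  rw [h, Submodule.mem_bot] at h1
  simp at h1

theorem powSpan_fg : (powSpan (K := K) B n x).FG :=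
  Submodule.fg_span (Set.finite_range _)

/-- A multiplier which sends the generators `x^k`, `k ≤ n`, into `powSpan` is integral. -/
theorem isIntegral_of_mul_pow_mem {y : L}
    (hy : ∀ k, k ≤ n → y * x ^ k ∈ powSpan (K := K) B n x) : IsIntegral (res K B) y := by
  refine isIntegral_of_smul_mem_submodule (powSpan (K := K) B n x) powSpan_ne_bot powSpan_fg y ?_
  intro z hz
  unfold powSpan at hz
  induction hz using Submodule.span_induction with
  | mem z hz =>
    obtain ⟨k, rfl⟩ := hz
    exact hy k (Nat.lt_succ_iff.1 k.2)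
  | zero => rw [smul_zero]; exact Submodule.zero_mem _
  | add z w _ _ hz hw => rw [smul_add]; exact Submodule.add_mem _ hz hw
  | smul r z _ hz =>
    rw [smul_comm]
    exact Submodule.smul_mem _ r hz

/-- **The `u / u⁻¹`-lemma**: for a relation `∑_{i ≤ n} a_i x^i = 0` with coefficients in `A`, the
tails `b_j = ∑_{j ≤ i ≤ n} a_i x^(i - j)` and the products `b_j * x` are integral over `A`. -/
theorem isIntegral_of_relation (ha : ∀ i, a i ∈ res K B) (hj : j ≤ n + 1)
    (hrel : ∑ i ∈ Finset.range (n + 1), algebraMap K L (a i) * x ^ i = 0) :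
    IsIntegral (res K B) (tail a n j x) ∧ IsIntegral (res K B) (tail a n j x * x) := by
  constructor
  · exact isIntegral_of_mul_pow_mem (B := B) (n := n) (x := x) fun k hk =>
      tail_mul_pow_mem ha hj hrel (Nat.le_succ_of_le hk)
  · refine isIntegral_of_mul_pow_mem (B := B) (n := n) (x := x) fun k hk => ?_
    have h1 : tail a n j x * x * x ^ k = tail a n j x * x ^ (k + 1) := by
      rw [mul_assoc, pow_succ']
    rw [h1]
    exact tail_mul_pow_mem ha hj hrel (Nat.succ_le_succ hk)

end Relation

/-! ### Every element of `B` is a quotient of integral elements -/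

/-- **(V0)** `L / K` algebraic, `B` a valuation subring of `L`, `A` its restriction to `K`: every
`x ∈ B` is `b / c` with `b`, `c` integral over `A` and `c` a unit of `B`. -/
theorem exists_integral_mul_eq [Algebra.IsAlgebraic K L] (B : ValuationSubring L) {x : L}
    (hx : x ∈ B) :
    ∃ b c : L, IsIntegral (res K B) b ∧ IsIntegral (res K B) c ∧ B.valuation c = 1 ∧
      x * c = b := by
  classical
  obtain ⟨p, hp0, hpx⟩ := Algebra.IsAlgebraic.isAlgebraic (R := K) x
  set v := B.valuation with hv
  -- a coefficient of maximal valuation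
  have hsne : p.support.Nonempty := Polynomial.support_nonempty.2 hp0
  obtain ⟨i₀, hi₀, hmax⟩ := Finset.exists_max_image p.support
    (fun i => v (algebraMap K L (p.coeff i))) hsne
  have hc0 : p.coeff i₀ ≠ 0 := Polynomial.mem_support_iff.1 hi₀
  have hvc0 : v (algebraMap K L (p.coeff i₀)) ≠ 0 :=
    (Valuation.ne_zero_iff _).2 (by simpa using hc0)
  set n := p.natDegree with hn
  set a : ℕ → K := fun i => p.coeff i / p.coeff i₀ with ha_def
  have hva : ∀ i, v (algebraMap K L (a i)) ≤ 1 := by
    intro i
    rw [ha_def]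
    simp only [map_div₀]
    by_cases hi : i ∈ p.support
    · exact div_le_one_of_le₀ (hmax i hi) zero_le
    · rw [Polynomial.notMem_support_iff.1 hi, map_zero, map_zero, zero_div]
      exact zero_le
  have ha : ∀ i, a i ∈ res K B := fun i => mem_res.2 ((B.valuation_le_one_iff _).1 (hva i))
  have hi₀n : i₀ ≤ n := Polynomial.le_natDegree_of_mem_supp i₀ hi₀
  have hai₀ : a i₀ = 1 := div_self hc0
  -- the relation
  have hrel : ∑ i ∈ Finset.range (n + 1), algebraMap K L (a i) * x ^ i = 0 := by
    have h1 : Polynomial.aeval x p = ∑ i ∈ Finset.range (n + 1), p.coeff i • x ^ i :=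
      Polynomial.aeval_eq_sum_range x
    have h2 : ∑ i ∈ Finset.range (n + 1), algebraMap K L (a i) * x ^ i =
        (algebraMap K L (p.coeff i₀))⁻¹ * ∑ i ∈ Finset.range (n + 1), p.coeff i • x ^ i := by
      rw [Finset.mul_sum]
      refine Finset.sum_congr rfl fun i _ => ?_
      rw [ha_def]
      simp only [map_div₀, Algebra.smul_def]
      ring
    rw [h2, ← h1, hpx, mul_zero]
  -- the last index with a unit coefficient
  set S : Finset ℕ := (Finset.range (n + 1)).filter fun i => v (algebraMap K L (a i)) = 1 with hS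
  have hSne : S.Nonempty :=
    ⟨i₀, by rw [hS, Finset.mem_filter, Finset.mem_range, hai₀, map_one, map_one]
            exact ⟨Nat.lt_succ_of_le hi₀n, rfl⟩⟩
  obtain ⟨j, hjS, hjmax⟩ := Finset.exists_max_image S id hSne
  rw [hS, Finset.mem_filter, Finset.mem_range] at hjS
  obtain ⟨hjn, hvj⟩ := hjS
  have hlt : ∀ i, j < i → i < n + 1 → v (algebraMap K L (a i)) < 1 := by
    intro i hji hin
    refine lt_of_le_of_ne (hva i) fun h1 => ?_
    have h2 : i ∈ S := by
      rw [hS, Finset.mem_filter, Finset.mem_range]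
      exact ⟨hin, h1⟩
    exact absurd (hjmax i h2) (not_le.2 hji)
  have hvx : v x ≤ 1 := (B.valuation_le_one_iff x).2 hx
  obtain ⟨hint1, hint2⟩ := isIntegral_of_relation (B := B) ha (Nat.le_of_lt hjn) hrel
  refine ⟨tail a n j x * x, tail a n j x, hint2, hint1, ?_, by rw [mul_comm]⟩
  -- the valuation of the tail is `1`
  have hsplit : tail a n j x = algebraMap K L (a j) +
      ∑ i ∈ Finset.Ico (j + 1) (n + 1), algebraMap K L (a i) * x ^ (i - j) := by
    unfold tail
    rw [Finset.sum_eq_sum_Ico_succ_bot hjn, Nat.sub_self, pow_zero, mul_one]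
  have hrest : v (∑ i ∈ Finset.Ico (j + 1) (n + 1), algebraMap K L (a i) * x ^ (i - j)) < 1 := by
    refine Valuation.map_sum_lt v one_ne_zero fun i hi => ?_
    rw [Finset.mem_Ico] at hi
    rw [map_mul, map_pow]
    calc v (algebraMap K L (a i)) * v x ^ (i - j) ≤ v (algebraMap K L (a i)) * 1 :=
          mul_le_mul' le_rfl (pow_le_one₀ zero_le hvx)
      _ = v (algebraMap K L (a i)) := mul_one _
      _ < 1 := hlt i hi.1 hi.2
  rw [hsplit, ← hvj]
  refine Valuation.map_add_eq_of_lt_left v ?_
  rw [hvj]
  exact hrest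

/-- The inclusion of the restriction into `B`. -/
def resHom (K : Type*) {L : Type*} [Field K] [Field L] [Algebra K L] (B : ValuationSubring L) :
    res K B →+* B where
  toFun a := ⟨algebraMap K L a, mem_res.1 a.2⟩
  map_one' := Subtype.ext (map_one _)
  map_mul' _ _ := Subtype.ext (map_mul _ _ _)
  map_zero' := Subtype.ext (map_zero _)
  map_add' _ _ := Subtype.ext (map_add _ _ _)

/-- Elements integral over the restriction lie in `B`. -/
theorem mem_of_isIntegral (B : ValuationSubring L) {y : L} (hy : IsIntegral (res K B) y) :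
    y ∈ B := by
  obtain ⟨p, hp, hpy⟩ := hy
  have h1 : IsIntegral B y := by
    refine ⟨p.map (resHom K B), hp.map _, ?_⟩
    rw [Polynomial.eval₂_map]
    exact hpy
  obtain ⟨z, hz⟩ := IsIntegrallyClosed.isIntegral_iff.1 h1
  rw [← hz]
  exact z.2

/-- **One-sided comparison**: two valuation subrings `B`, `B'` of an algebraic extension with the
same restriction to `K`; if every integral element which is a non-unit of `B'` is a non-unit of
`B`, then `B ≤ B'`. -/
theorem le_of_nonunits_integral [Algebra.IsAlgebraic K L] {B B' : ValuationSubring L}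
    (hres : res K B = res K B')
    (h : ∀ y : L, IsIntegral (res K B) y → y ∈ B'.nonunits → y ∈ B.nonunits) : B ≤ B' := by
  intro x hx
  obtain ⟨b, c, hb, hc, hvc, hxc⟩ := exists_integral_mul_eq (K := K) B hx
  have hb' : b ∈ B' := mem_of_isIntegral B' (hres ▸ hb)
  have hc' : c ∈ B' := mem_of_isIntegral B' (hres ▸ hc)
  have hc0 : c ≠ 0 := by
    intro h0
    rw [h0, map_zero] at hvc
    exact zero_ne_one hvc
  have hvc' : B'.valuation c = 1 := by
    refine le_antisymm ((B'.valuation_le_one_iff c).2 hc') ?_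
    by_contra h2
    rw [not_le] at h2
    have h3 : c ∈ B'.nonunits := (B'.mem_nonunits_iff).2 h2
    have h4 := h c hc h3
    rw [ValuationSubring.mem_nonunits_iff, hvc] at h4
    exact lt_irrefl _ h4
  have hcinv : c⁻¹ ∈ B' := by
    rw [← B'.valuation_le_one_iff, map_inv₀, hvc', inv_one]
  have hx' : x = b * c⁻¹ := by
    rw [← hxc, mul_assoc, mul_inv_cancel₀ hc0, mul_one]
  rw [hx']
  exact B'.mul_mem _ _ hb' hcinv

/-- **Two valuation subrings of an algebraic extension with the same restriction and the same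
centre on the integral closure are equal.** -/
theorem eq_of_nonunits_integral [Algebra.IsAlgebraic K L] {B B' : ValuationSubring L}
    (hres : res K B = res K B')
    (h : ∀ y : L, IsIntegral (res K B) y → (y ∈ B.nonunits ↔ y ∈ B'.nonunits)) : B = B' :=
  le_antisymm (le_of_nonunits_integral hres fun y hy hy' => (h y hy).2 hy')
    (le_of_nonunits_integral hres.symm fun y hy hy' => (h y (hres ▸ hy)).1 hy')

end Fermat.Agent.S27P.Val
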