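/-
S27 / (LIFT-VAL): adjusting an automorphism along a residually independent family  [helper26].
Ruling (GEN) #1 (report #4098): the ONLY valuation statement consumed by (LIFT).

Main export (the literal of the ruling, `ResIndepFam` = `Val/GaussFam.lean`):

  `Fermat.Agent.S27P.Val.Adjust.exists_algEquiv_adjust`

`Ω ⊇ K` algebraically closed, char 0, `V` a valuation subring of `Ω`, `σ₀ ∈ Aut(Ω / K)`,
`e : I → Ω` a family of elements of `V` whose `K`-span is a subring, over whose fraction field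
`Ω` is algebraic, residually independent for `V`, and moved by `σ₀` only inside the maximal
ideal of `V`.  Then there is `σ ∈ Aut(Ω / K)` agreeing with `σ₀` on the `e i`, stabilising `V`
and inducing the IDENTITY on the residue field of `V`.

The file is self-contained over Mathlib + `Val/GaussFam.lean`; the first three sections are the
general theory (`Ω / E` Galois, `A` a valuation subring of `Ω`, any rank):

* `exists_unit_mul_isIntegral` : `A` is the localisation of the integral closure of `A ∩ E` at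
  the centre of `A`;
* `exists_algEquiv_map_eq`  : two valuation subrings of `Ω` with the same restriction to `E` are
  conjugate under `Gal(Ω / E)`;
* `exists_algEquiv_residue` : the decomposition group of `A` maps ONTO the automorphisms of the
  residue field of `A` which fix the residues of `A ∩ E`;
* `exists_ringEquiv_of_residue_eq`, `exists_algEquiv_of_residue_eq` : the lifting lemma in
  "two embeddings" form: `j₁ j₂ : E → Ω` with `Ω` algebraic over both images, `j₁ e ∈ A ↔ j₂ e ∈ A`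
  and equal residues  ⟹  `σ ∈ Aut Ω` with `σ ∘ j₁ = j₂`, `σ A = A`, trivial on the residue field.
-/
import Mathlib
import Fermat.Agent.S27P.Val.GaussFam

set_option autoImplicit false
set_option linter.style.haveILetI false

noncomputable section

namespace Fermat.Agent.S27P.Val.Adjust

open Polynomial
open scoped Pointwise

universe u v

/-! ### The key lemma (Kaplansky-style induction on the degree) -/

section Key

variable {R : Type*} [CommRing R] {L : Type*} [Field L] [Algebra R L]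
  {Γ₀ : Type*} [LinearOrderedCommGroupWithZero Γ₀]

theorem exists_unit_mul_isIntegral_aux (v : Valuation L Γ₀)
    (hv : ∀ b : L, IsIntegral R b → v b ≤ 1) (x : L) (hx : v x ≤ 1) :
    ∀ (n : ℕ) (f : (integralClosure R L)[X]), f.natDegree ≤ n → aeval x f = 0 →
      (∃ i, v (f.coeff i : L) = 1) →
      ∃ s : L, IsIntegral R s ∧ v s = 1 ∧ IsIntegral R (s * x) := by
  intro n
  induction n with
  | zero =>
    intro f hf h0 ⟨i, hi⟩
    exfalso
    rw [Nat.le_zero] at hf
    rw [eq_C_of_natDegree_eq_zero hf, aeval_C] at h0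
    have h00 : f.coeff 0 = 0 := by
      simpa using h0
    have hf0 : f = 0 := by
      rw [eq_C_of_natDegree_eq_zero hf, h00, C_0]
    rw [hf0] at hi
    simp at hi
  | succ n ih =>
    intro f hf h0 ⟨i, hi⟩
    by_cases hdeg : f.natDegree ≤ n
    · exact ih f hdeg h0 ⟨i, hi⟩
    have hdeg' : f.natDegree = n + 1 := by omega
    have hcx : IsIntegral R ((f.leadingCoeff : L) * x) := by
      have := isIntegral_trans (R := R) _ (isIntegral_leadingCoeff_smul f x h0)
      rwa [Algebra.smul_def] at this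
    by_cases hvc : v (f.leadingCoeff : L) = 1
    · exact ⟨f.leadingCoeff, f.leadingCoeff.2, hvc, hcx⟩
    · have hvc' : v (f.leadingCoeff : L) < 1 :=
        lt_of_le_of_ne (hv _ f.leadingCoeff.2) hvc
      let b : integralClosure R L := ⟨(f.leadingCoeff : L) * x, hcx⟩
      have hvb : v (b : L) < 1 := by
        show v ((f.leadingCoeff : L) * x) < 1
        rw [map_mul]
        exact mul_lt_one_of_lt_of_le hvc' hx
      apply ih (f.eraseLead + C b * X ^ n)
      · refine (natDegree_add_le _ _).trans (max_le ?_ ?_)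
        · have := eraseLead_natDegree_le f
          omega
        · exact natDegree_C_mul_X_pow_le b n
      · have h1 : aeval x f.eraseLead + (f.leadingCoeff : L) * x ^ (n + 1) = 0 := by
          conv_rhs => rw [← h0, ← eraseLead_add_C_mul_X_pow f]
          rw [map_add, hdeg']
          simp
        rw [map_add]
        simp only [map_mul, aeval_C, map_pow, aeval_X]
        rw [← h1]
        show _ + (f.leadingCoeff : L) * x * x ^ n = _
        ring
      · have hin : i ≠ n + 1 := by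
          rintro rfl
          rw [← hdeg'] at hi
          exact hvc hi
        have hile : i ≤ n + 1 := by
          by_contra hlt
          have : f.coeff i = 0 := coeff_eq_zero_of_natDegree_lt (by omega)
          rw [this] at hi
          simp at hi
        refine ⟨i, ?_⟩
        rw [coeff_add, eraseLead_coeff, if_neg (by rw [hdeg']; exact hin), coeff_C_mul,
          coeff_X_pow]
        by_cases hin' : i = n
        · rw [if_pos hin', mul_one]
          show v ((f.coeff i : L) + (b : L)) = 1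
          rw [Valuation.map_add_eq_of_lt_left, hi]
          rw [hi]; exact hvb
        · rw [if_neg hin', mul_zero, add_zero]
          exact hi

end Key

/-! ### The base ring `A ∩ E` and the localisation lemma -/

section Base

variable (E : Type u) {Ω : Type v} [Field E] [Field Ω] [Algebra E Ω]

/-- The subring of `Ω` of the elements of `A` which come from `E`. -/
def baseRing (A : ValuationSubring Ω) : Subring Ω :=
  A.toSubring ⊓ (algebraMap E Ω).range

variable {E}

theorem mem_baseRing_iff (A : ValuationSubring Ω) (x : Ω) :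
    x ∈ baseRing E A ↔ x ∈ A ∧ ∃ e : E, algebraMap E Ω e = x := by
  rw [baseRing, Subring.mem_inf]
  exact Iff.rfl

theorem algebraMap_mem_baseRing (A : ValuationSubring Ω) {e : E} (he : algebraMap E Ω e ∈ A) :
    algebraMap E Ω e ∈ baseRing E A :=
  (mem_baseRing_iff A _).mpr ⟨he, e, rfl⟩

theorem baseRing_le (A : ValuationSubring Ω) : baseRing E A ≤ A.toSubring := inf_le_left

theorem baseRing_eq_of_forall (A A' : ValuationSubring Ω)
    (h : ∀ e : E, algebraMap E Ω e ∈ A ↔ algebraMap E Ω e ∈ A') :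
    baseRing E A = baseRing E A' := by
  ext x
  rw [mem_baseRing_iff, mem_baseRing_iff]
  constructor
  · rintro ⟨hx, e, rfl⟩
    exact ⟨(h e).mp hx, e, rfl⟩
  · rintro ⟨hx, e, rfl⟩
    exact ⟨(h e).mpr hx, e, rfl⟩

/-- A valuation subring containing the subring `S` contains every element integral over `S`. -/
theorem mem_of_isIntegral_of_le (A : ValuationSubring Ω) {S : Subring Ω} (hS : S ≤ A.toSubring)
    {b : Ω} (hb : IsIntegral S b) : b ∈ A := by
  obtain ⟨p, hp, hpb⟩ := hb
  have hb' : IsIntegral A b := by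
    refine ⟨p.map (Subring.inclusion hS), hp.map _, ?_⟩
    rw [eval₂_map]
    exact hpb
  obtain ⟨y, hy⟩ := (IsIntegrallyClosed.isIntegral_iff (R := A) (K := Ω)).mp hb'
  rw [← hy]
  exact y.2

/-- Elements integral over `A ∩ E` lie in `A`. -/
theorem mem_of_isIntegral (A : ValuationSubring Ω) {b : Ω} (hb : IsIntegral (baseRing E A) b) :
    b ∈ A :=
  mem_of_isIntegral_of_le A (baseRing_le (E := E) A) hb

theorem valuation_le_one_of_isIntegral (A : ValuationSubring Ω) {b : Ω}
    (hb : IsIntegral (baseRing E A) b) : A.valuation b ≤ 1 :=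
  (A.valuation_le_one_iff b).mpr (mem_of_isIntegral A hb)

/-- **`A` is the localisation of the integral closure of `A ∩ E` at the centre of `A`.** -/
theorem exists_unit_mul_isIntegral [Algebra.IsAlgebraic E Ω] (A : ValuationSubring Ω) {x : Ω}
    (hx : x ∈ A) :
    ∃ s : Ω, IsIntegral (baseRing E A) s ∧ A.valuation s = 1 ∧
      IsIntegral (baseRing E A) (s * x) := by
  obtain ⟨p, hp0, hpx⟩ := Algebra.IsAlgebraic.isAlgebraic (R := E) x
  -- the coefficient of maximal valuation
  have hsupp : p.support.Nonempty := by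
    rw [Finset.nonempty_iff_ne_empty, Ne, Polynomial.support_eq_empty]
    exact hp0
  obtain ⟨i₀, hi₀, hmax⟩ := Finset.exists_max_image p.support
    (fun i => A.valuation (algebraMap E Ω (p.coeff i))) hsupp
  have hc0 : p.coeff i₀ ≠ 0 := Polynomial.mem_support_iff.mp hi₀
  have hc0' : algebraMap E Ω (p.coeff i₀) ≠ 0 := by
    rwa [Ne, map_eq_zero]
  have hvc0 : A.valuation (algebraMap E Ω (p.coeff i₀)) ≠ 0 := by
    rwa [Ne, Valuation.zero_iff]
  -- the rescaled polynomial
  set P : Polynomial Ω := C (algebraMap E Ω (p.coeff i₀))⁻¹ * p.map (algebraMap E Ω) with hP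
  have hPcoeff : ∀ i, P.coeff i = algebraMap E Ω ((p.coeff i₀)⁻¹ * p.coeff i) := fun i => by
    rw [hP, coeff_C_mul, coeff_map, map_mul, map_inv₀]
  have hPmem : ∀ i, P.coeff i ∈ baseRing E A := fun i => by
    rw [hPcoeff]
    refine algebraMap_mem_baseRing A ?_
    rw [← A.valuation_le_one_iff, map_mul, map_inv₀, map_mul, map_inv₀]
    by_cases hi : i ∈ p.support
    · have := hmax i hi
      rw [inv_mul_le_iff₀ (lt_of_le_of_ne zero_le (Ne.symm hvc0)), mul_one]
      exact this
    · rw [Polynomial.notMem_support_iff.mp hi, map_zero, map_zero, mul_zero]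
      exact zero_le
  have hPsub : (↑P.coeffs : Set Ω) ⊆ ↑(baseRing E A) := by
    intro y hy
    rw [Finset.mem_coe, Polynomial.mem_coeffs_iff] at hy
    obtain ⟨n, -, rfl⟩ := hy
    exact hPmem n
  set q : (baseRing E A)[X] := P.toSubring (baseRing E A) hPsub with hq
  have hqmap : q.map (baseRing E A).subtype = P := Polynomial.map_toSubring _ _ _
  have hPx : eval x P = 0 := by
    rw [hP, eval_mul, eval_C, eval_map, ← aeval_def, hpx, mul_zero]
  refine exists_unit_mul_isIntegral_aux (R := baseRing E A) A.valuation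
    (fun b hb => valuation_le_one_of_isIntegral A hb) x ((A.valuation_le_one_iff x).mpr hx) _
    (q.map (algebraMap (baseRing E A) (integralClosure (baseRing E A) Ω))) le_rfl ?_ ⟨i₀, ?_⟩
  · rw [aeval_map_algebraMap, aeval_def, eval₂_eq_eval_map]
    have : q.map (algebraMap (baseRing E A) Ω) = P := hqmap
    rw [this]
    exact hPx
  · rw [coeff_map]
    have h1 : ((algebraMap (baseRing E A) (integralClosure (baseRing E A) Ω) (q.coeff i₀) :
        integralClosure (baseRing E A) Ω) : Ω) = P.coeff i₀ := by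
      have h2 : ((q.coeff i₀ : baseRing E A) : Ω) = P.coeff i₀ := by
        rw [hq]
        exact Polynomial.coeff_toSubring _ _ _
      rw [← h2]
      rfl
    rw [h1, hPcoeff, inv_mul_cancel₀ hc0, map_one, map_one]

end Base

/-! ### The Galois action on the integral closure of `A ∩ E` -/

section Galois

variable {E : Type u} {Ω : Type v} [Field E] [Field Ω] [Algebra E Ω]

/-- Automorphisms over `E` fix `A ∩ E` pointwise, hence preserve integrality over it. -/
theorem isIntegral_map (A : ValuationSubring Ω) (g : Ω ≃ₐ[E] Ω) {b : Ω}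
    (hb : IsIntegral (baseRing E A) b) : IsIntegral (baseRing E A) (g b) := by
  obtain ⟨p, hp, hpb⟩ := hb
  refine ⟨p, hp, ?_⟩
  have hcomp : ((g : Ω ≃+* Ω) : Ω →+* Ω).comp (algebraMap (baseRing E A) Ω) =
      algebraMap (baseRing E A) Ω := by
    ext r
    obtain ⟨e, he⟩ := ((mem_baseRing_iff A _).mp r.2).2
    show g (r : Ω) = (r : Ω)
    rw [← he, g.commutes]
  have h1 := Polynomial.hom_eval₂ p (algebraMap (baseRing E A) Ω) ((g : Ω ≃+* Ω) : Ω →+* Ω) b
  rw [hcomp, hpb, map_zero] at h1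
  exact h1.symm

/-- The action of `Gal(Ω / E)` on the integral closure of `A ∩ E` in `Ω`. -/
@[instance_reducible]
def galAction (A : ValuationSubring Ω) :
    MulSemiringAction (Ω ≃ₐ[E] Ω) (integralClosure (baseRing E A) Ω) where
  smul g b := ⟨g b.1, isIntegral_map A g b.2⟩
  one_smul _ := Subtype.ext rfl
  mul_smul _ _ _ := Subtype.ext rfl
  smul_zero g := Subtype.ext (map_zero g)
  smul_add g a b := Subtype.ext (map_add g a.1 b.1)
  smul_one g := Subtype.ext (map_one g)
  smul_mul g a b := Subtype.ext (map_mul g a.1 b.1)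

attribute [local instance] galAction

theorem galAction_coe (A : ValuationSubring Ω) (g : Ω ≃ₐ[E] Ω)
    (b : integralClosure (baseRing E A) Ω) :
    ((g • b : integralClosure (baseRing E A) Ω) : Ω) = g (b : Ω) := rfl

theorem galAction_smulCommClass (A : ValuationSubring Ω) :
    SMulCommClass (Ω ≃ₐ[E] Ω) (baseRing E A) (integralClosure (baseRing E A) Ω) :=
  ⟨fun g r b => Subtype.ext (by
    obtain ⟨e, he⟩ := ((mem_baseRing_iff A _).mp r.2).2
    show g ((r : Ω) * (b : Ω)) = (r : Ω) * g (b : Ω)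
    rw [map_mul, ← he, g.commutes])⟩

attribute [local instance] galAction_smulCommClass

theorem galAction_isInvariant [IsGalois E Ω] (A : ValuationSubring Ω) :
    Algebra.IsInvariant (baseRing E A) (integralClosure (baseRing E A) Ω) (Ω ≃ₐ[E] Ω) := by
  refine ⟨fun b hb => ?_⟩
  have h1 : (b : Ω) ∈ Set.range (algebraMap E Ω) := by
    rw [InfiniteGalois.mem_range_algebraMap_iff_fixed]
    intro g
    exact congrArg Subtype.val (hb g)
  obtain ⟨e, he⟩ := h1
  have h2 : (b : Ω) ∈ baseRing E A :=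
    (mem_baseRing_iff A _).mpr ⟨mem_of_isIntegral A b.2, e, he⟩
  exact ⟨⟨(b : Ω), h2⟩, Subtype.ext rfl⟩

attribute [local instance] galAction_isInvariant

/-- The discrete topology on the integral closure. -/
@[instance_reducible]
def closureTopology (A : ValuationSubring Ω) :
    TopologicalSpace (integralClosure (baseRing E A) Ω) := ⊥

attribute [local instance] closureTopology

theorem closureDiscrete (A : ValuationSubring Ω) :
    DiscreteTopology (integralClosure (baseRing E A) Ω) := ⟨rfl⟩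

attribute [local instance] closureDiscrete

theorem galAction_continuousSMul [Algebra.IsIntegral E Ω] (A : ValuationSubring Ω) :
    ContinuousSMul (Ω ≃ₐ[E] Ω) (integralClosure (baseRing E A) Ω) := by
  rw [continuousSMul_iff_stabilizer_isOpen]
  intro b
  have := stabilizer_isOpen_of_isIntegral (K := E) (L := Ω) (b : Ω)
  convert this using 1
  ext g
  simp [MulAction.mem_stabilizer_iff, Subtype.ext_iff, galAction_coe]

attribute [local instance] galAction_continuousSMul

/-! ### Centres -/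

/-- The centre, on the integral closure of `A ∩ E`, of a valuation subring `V ⊇ A ∩ E`. -/
def centre (A V : ValuationSubring Ω) (hV : baseRing E A ≤ V.toSubring) :
    Ideal (integralClosure (baseRing E A) Ω) where
  carrier := {b | V.valuation (b : Ω) < 1}
  add_mem' := by
    intro a b ha hb
    exact lt_of_le_of_lt (V.valuation.map_add _ _) (max_lt ha hb)
  zero_mem' := by
    show V.valuation ((0 : integralClosure (baseRing E A) Ω) : Ω) < 1
    simp
  smul_mem' := by
    intro c b hb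
    show V.valuation ((c * b : integralClosure (baseRing E A) Ω) : Ω) < 1
    have hc : V.valuation (c : Ω) ≤ 1 :=
      (V.valuation_le_one_iff _).mpr (mem_of_isIntegral_of_le V hV c.2)
    have : ((c * b : integralClosure (baseRing E A) Ω) : Ω) = (c : Ω) * (b : Ω) := rfl
    rw [this, map_mul, mul_comm]
    exact mul_lt_one_of_lt_of_le hb hc

theorem mem_centre (A V : ValuationSubring Ω) (hV : baseRing E A ≤ V.toSubring)
    (b : integralClosure (baseRing E A) Ω) :
    b ∈ centre A V hV ↔ V.valuation (b : Ω) < 1 := Iff.rfl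

theorem centre_isPrime (A V : ValuationSubring Ω) (hV : baseRing E A ≤ V.toSubring) :
    (centre A V hV).IsPrime := by
  have hle : ∀ b : integralClosure (baseRing E A) Ω, V.valuation (b : Ω) ≤ 1 := fun b =>
    (V.valuation_le_one_iff _).mpr (mem_of_isIntegral_of_le V hV b.2)
  refine ⟨?_, ?_⟩
  · intro h
    have h1 : (1 : integralClosure (baseRing E A) Ω) ∈ centre A V hV := h ▸ Submodule.mem_top
    rw [mem_centre] at h1
    simp at h1
  · intro a b hab
    rw [mem_centre] at hab ⊢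
    rw [mem_centre]
    have hmul : ((a * b : integralClosure (baseRing E A) Ω) : Ω) = (a : Ω) * (b : Ω) := rfl
    rw [hmul, map_mul] at hab
    by_contra hcon
    push Not at hcon
    have ha : V.valuation (a : Ω) = 1 := le_antisymm (hle a) hcon.1
    have hb : V.valuation (b : Ω) = 1 := le_antisymm (hle b) hcon.2
    rw [ha, hb, one_mul] at hab
    exact lt_irrefl _ hab

theorem mem_centre_under (A V : ValuationSubring Ω) (hV : baseRing E A ≤ V.toSubring)
    (r : baseRing E A) :
    r ∈ (centre A V hV).under (baseRing E A) ↔ V.valuation (r : Ω) < 1 := by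
  rw [Ideal.under_def, Ideal.mem_comap, mem_centre]
  rfl

/-- The two valuations have the same non-units among the elements of `E`. -/
theorem valuation_lt_one_iff_of_forall (A A' : ValuationSubring Ω)
    (h : ∀ e : E, algebraMap E Ω e ∈ A ↔ algebraMap E Ω e ∈ A') (e : E) :
    A.valuation (algebraMap E Ω e) < 1 ↔ A'.valuation (algebraMap E Ω e) < 1 := by
  have key : ∀ V : ValuationSubring Ω, V.valuation (algebraMap E Ω e) < 1 ↔
      (e = 0 ∨ algebraMap E Ω e⁻¹ ∉ V) := by
    intro V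
    rcases eq_or_ne e 0 with rfl | he
    · simp
    · have hx : algebraMap E Ω e ≠ 0 := by rwa [Ne, map_eq_zero]
      have hv : V.valuation (algebraMap E Ω e) ≠ 0 := by rwa [Ne, Valuation.zero_iff]
      rw [← V.valuation_le_one_iff, map_inv₀, map_inv₀, not_le,
        one_lt_inv₀ (lt_of_le_of_ne zero_le (Ne.symm hv))]
      simp [he]
  rw [key A, key A', h e⁻¹]

theorem baseRing_le_of_forall (A A' : ValuationSubring Ω)
    (h : ∀ e : E, algebraMap E Ω e ∈ A ↔ algebraMap E Ω e ∈ A') :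
    baseRing E A ≤ A'.toSubring := by
  intro x hx
  obtain ⟨hxA, e, rfl⟩ := (mem_baseRing_iff A x).mp hx
  exact (h e).mp hxA

theorem centre_under_eq (A A' : ValuationSubring Ω)
    (h : ∀ e : E, algebraMap E Ω e ∈ A ↔ algebraMap E Ω e ∈ A') :
    (centre A A (baseRing_le (E := E) A)).under (baseRing E A) =
      (centre A A' (baseRing_le_of_forall A A' h)).under (baseRing E A) := by
  ext r
  rw [mem_centre_under, mem_centre_under]
  obtain ⟨e, he⟩ := ((mem_baseRing_iff A _).mp r.2).2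
  rw [← he]
  exact valuation_lt_one_iff_of_forall A A' h e

/-- If `g` maps the units of `A` among the integral elements to units of `A'`, then `g` maps
`A` into `A'`. -/
theorem map_mem_of_forall_integral [Algebra.IsAlgebraic E Ω] (A A' : ValuationSubring Ω)
    (g : Ω ≃ₐ[E] Ω) (hle' : baseRing E A ≤ A'.toSubring)
    (hg : ∀ s : Ω, IsIntegral (baseRing E A) s → A.valuation s = 1 → A'.valuation (g s) = 1)
    {x : Ω} (hx : x ∈ A) : g x ∈ A' := by
  obtain ⟨s, hs, hvs, hsx⟩ := exists_unit_mul_isIntegral (E := E) A hx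
  have h1 : g (s * x) ∈ A' := mem_of_isIntegral_of_le A' hle' (isIntegral_map A g hsx)
  have h2 := hg s hs hvs
  rw [← A'.valuation_le_one_iff]
  have h3 : A'.valuation (g x) = A'.valuation (g (s * x)) := by
    rw [map_mul, map_mul, h2, one_mul]
  rw [h3]
  exact (A'.valuation_le_one_iff _).mpr h1

/-- **(V1) Conjugacy.**  Two valuation subrings of `Ω` with the same restriction to `E` are
conjugate under `Gal(Ω / E)`. -/
theorem exists_algEquiv_map_eq [IsGalois E Ω] (A A' : ValuationSubring Ω)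
    (h : ∀ e : E, algebraMap E Ω e ∈ A ↔ algebraMap E Ω e ∈ A') :
    ∃ τ : Ω ≃ₐ[E] Ω, ∀ x : Ω, x ∈ A ↔ τ x ∈ A' := by
  have hle' := baseRing_le_of_forall A A' h
  have hP := centre_isPrime A A (baseRing_le (E := E) A)
  have hP' := centre_isPrime A A' hle'
  obtain ⟨g, hg⟩ := Algebra.IsInvariant.exists_smul_of_under_eq_of_profinite
    (A := baseRing E A) (G := Ω ≃ₐ[E] Ω) (centre A A (baseRing_le (E := E) A)) (centre A A' hle')
    (centre_under_eq A A' h)
  have hmem : ∀ s : integralClosure (baseRing E A) Ω,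
      s ∈ centre A A' hle' ↔ g⁻¹ • s ∈ centre A A (baseRing_le (E := E) A) := fun s => by
    rw [hg]
    exact Ideal.mem_pointwise_smul_iff_inv_smul_mem
  have heq : baseRing E A' = baseRing E A := (baseRing_eq_of_forall A A' h).symm
  have hle : baseRing E A' ≤ A.toSubring := heq ▸ baseRing_le (E := E) A
  have hint : ∀ s : Ω, IsIntegral (baseRing E A') s → IsIntegral (baseRing E A) s := by
    rw [heq]
    exact fun s hs => hs
  have key2 : ∀ x : Ω, x ∈ A → g x ∈ A' := by
    intro x hx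
    refine map_mem_of_forall_integral A A' g hle' (fun s hs hvs => ?_) hx
    have hgs : IsIntegral (baseRing E A) (g s) := isIntegral_map A g hs
    refine le_antisymm ((A'.valuation_le_one_iff _).mpr (mem_of_isIntegral_of_le A' hle' hgs)) ?_
    by_contra hlt
    rw [not_le] at hlt
    have h1 : (⟨g s, hgs⟩ : integralClosure (baseRing E A) Ω) ∈ centre A A' hle' := hlt
    have h2 := (hmem _).mp h1
    rw [mem_centre, galAction_coe] at h2
    have h3 : (g⁻¹ : Ω ≃ₐ[E] Ω) (g s) = s := g.symm_apply_apply s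
    rw [h3, hvs] at h2
    exact lt_irrefl _ h2
  have key1 : ∀ x : Ω, x ∈ A' → (g⁻¹ : Ω ≃ₐ[E] Ω) x ∈ A := by
    intro x hx
    refine map_mem_of_forall_integral A' A g⁻¹ hle (fun s hs hvs => ?_) hx
    have hs' : IsIntegral (baseRing E A) s := hint s hs
    have hgs : IsIntegral (baseRing E A) ((g⁻¹ : Ω ≃ₐ[E] Ω) s) := isIntegral_map A g⁻¹ hs'
    refine le_antisymm ((A.valuation_le_one_iff _).mpr (mem_of_isIntegral (E := E) A hgs)) ?_
    by_contra hlt
    rw [not_le] at hlt
    have h1 : g⁻¹ • (⟨s, hs'⟩ : integralClosure (baseRing E A) Ω) ∈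
        centre A A (baseRing_le (E := E) A) := hlt
    have h2 := (hmem _).mpr h1
    rw [mem_centre] at h2
    have h3 : A'.valuation s < 1 := h2
    rw [hvs] at h3
    exact lt_irrefl _ h3
  refine ⟨g, fun x => ⟨key2 x, fun hx => ?_⟩⟩
  have h1 := key1 _ hx
  have h2 : (g⁻¹ : Ω ≃ₐ[E] Ω) (g x) = x := g.symm_apply_apply x
  rwa [h2] at h1

/-! ### The residue field of `A` as a quotient of the integral closure -/

/-- The inclusion of the integral closure of `A ∩ E` into `A`. -/
def inclA (A : ValuationSubring Ω) : integralClosure (baseRing E A) Ω →+* A where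
  toFun b := ⟨(b : Ω), mem_of_isIntegral (E := E) A b.2⟩
  map_one' := rfl
  map_mul' _ _ := rfl
  map_zero' := rfl
  map_add' _ _ := rfl

theorem inclA_coe (A : ValuationSubring Ω) (b : integralClosure (baseRing E A) Ω) :
    ((inclA A b : A) : Ω) = (b : Ω) := rfl

theorem residue_inclA_eq_zero_iff (A : ValuationSubring Ω)
    (b : integralClosure (baseRing E A) Ω) :
    IsLocalRing.residue A (inclA A b) = 0 ↔ b ∈ centre A A (baseRing_le (E := E) A) := by
  rw [IsLocalRing.residue_eq_zero_iff, mem_centre, A.valuation_lt_one_iff]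
  rfl

/-- The contraction of the centre to `A ∩ E` is a maximal ideal. -/
theorem centre_under_isMaximal (A : ValuationSubring Ω) :
    ((centre A A (baseRing_le (E := E) A)).under (baseRing E A)).IsMaximal := by
  rw [Ideal.isMaximal_iff]
  refine ⟨?_, fun J x _ hxP hxJ => ?_⟩
  · rw [mem_centre_under]
    simp
  · rw [mem_centre_under, not_lt] at hxP
    obtain ⟨hxA, e, he⟩ := (mem_baseRing_iff A _).mp x.2
    have hv1 : A.valuation (x : Ω) = 1 :=
      le_antisymm ((A.valuation_le_one_iff _).mpr hxA) hxP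
    have hinv : (x : Ω)⁻¹ ∈ baseRing E A := by
      rw [mem_baseRing_iff]
      refine ⟨?_, e⁻¹, by rw [map_inv₀, he]⟩
      rw [← A.valuation_le_one_iff, map_inv₀, hv1, inv_one]
    have hx0 : (x : Ω) ≠ 0 := by
      intro h0
      rw [h0, map_zero] at hv1
      exact zero_ne_one hv1
    have h1 : (⟨(x : Ω)⁻¹, hinv⟩ : baseRing E A) * x = 1 := Subtype.ext (inv_mul_cancel₀ hx0)
    rw [← h1]
    exact J.mul_mem_left _ hxJ

/-- The centre of `A` is a maximal ideal of the integral closure of `A ∩ E`. -/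
theorem centre_isMaximal (A : ValuationSubring Ω) :
    (centre A A (baseRing_le (E := E) A)).IsMaximal := by
  have := centre_isPrime A A (baseRing_le (E := E) A)
  exact Ideal.isMaximal_of_isIntegral_of_isMaximal_comap (R := baseRing E A) _
    (centre_under_isMaximal A)

/-- The residue map of `A` on the integral closure of `A ∩ E`, modulo the centre. -/
def resHom (A : ValuationSubring Ω) :
    (integralClosure (baseRing E A) Ω ⧸ centre A A (baseRing_le (E := E) A)) →+*
      IsLocalRing.ResidueField A :=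
  Ideal.Quotient.lift _ ((IsLocalRing.residue A).comp (inclA A))
    (fun b hb => (residue_inclA_eq_zero_iff A b).mpr hb)

theorem resHom_mk (A : ValuationSubring Ω) (b : integralClosure (baseRing E A) Ω) :
    resHom A (Ideal.Quotient.mk _ b) = IsLocalRing.residue A (inclA A b) := rfl

theorem resHom_injective (A : ValuationSubring Ω) : Function.Injective (resHom (E := E) A) := by
  rw [injective_iff_map_eq_zero]
  intro y hy
  obtain ⟨b, rfl⟩ := Ideal.Quotient.mk_surjective y
  rw [resHom_mk] at hy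
  exact Ideal.Quotient.eq_zero_iff_mem.mpr ((residue_inclA_eq_zero_iff A b).mp hy)

theorem resHom_surjective [Algebra.IsAlgebraic E Ω] (A : ValuationSubring Ω) :
    Function.Surjective (resHom (E := E) A) := by
  intro y
  obtain ⟨a, rfl⟩ := IsLocalRing.residue_surjective y
  obtain ⟨s, hs, hvs, hsa⟩ := exists_unit_mul_isIntegral (E := E) A a.2
  have := centre_isMaximal (E := E) A
  have hsQ : Ideal.Quotient.mk (centre A A (baseRing_le (E := E) A))
      (⟨s, hs⟩ : integralClosure (baseRing E A) Ω) ≠ 0 := by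
    rw [Ne, Ideal.Quotient.eq_zero_iff_mem, mem_centre]
    show ¬ A.valuation s < 1
    rw [hvs]
    exact lt_irrefl _
  obtain ⟨t, ht⟩ := Ideal.Quotient.exists_inv hsQ
  refine ⟨Ideal.Quotient.mk _ ⟨s * a, hsa⟩ * t, ?_⟩
  have h1 : resHom A (Ideal.Quotient.mk _ (⟨s, hs⟩ : integralClosure (baseRing E A) Ω)) *
      resHom A t = 1 := by
    rw [← map_mul, ht, map_one]
  have h2 : resHom A (Ideal.Quotient.mk _ (⟨s * a, hsa⟩ : integralClosure (baseRing E A) Ω)) =
      resHom A (Ideal.Quotient.mk _ (⟨s, hs⟩ : integralClosure (baseRing E A) Ω)) *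
        IsLocalRing.residue A a := by
    rw [resHom_mk, resHom_mk, ← map_mul]
    congr 1
  rw [map_mul, h2, mul_right_comm, h1, one_mul]

/-- **(V2) The decomposition group maps onto the residue automorphisms.**  Every automorphism of
the residue field of `A` which fixes the residues of the elements of `A ∩ E` is induced by an
element of `Gal(Ω / E)` preserving `A`. -/
theorem exists_algEquiv_residue [IsGalois E Ω] (A : ValuationSubring Ω)
    (θ : IsLocalRing.ResidueField A ≃+* IsLocalRing.ResidueField A)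
    (hθ : ∀ a : A, (a : Ω) ∈ Set.range (algebraMap E Ω) →
      θ (IsLocalRing.residue A a) = IsLocalRing.residue A a) :
    ∃ τ : Ω ≃ₐ[E] Ω, ∃ hτ : ∀ x : Ω, x ∈ A → τ x ∈ A, (∀ x : Ω, τ x ∈ A → x ∈ A) ∧
      ∀ a : A, IsLocalRing.residue A ⟨τ a, hτ a a.2⟩ = θ (IsLocalRing.residue A a) := by
  have hQprime := centre_isPrime A A (baseRing_le (E := E) A)
  have hQmax := centre_isMaximal (E := E) A
  set Q := centre A A (baseRing_le (E := E) A) with hQdef
  set P := Q.under (baseRing E A) with hPdef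
  let e : (integralClosure (baseRing E A) Ω ⧸ Q) ≃+* IsLocalRing.ResidueField A :=
    RingEquiv.ofBijective (resHom A) ⟨resHom_injective A, resHom_surjective A⟩
  have he : ∀ y, e y = resHom A y := fun y => rfl
  let θr : (integralClosure (baseRing E A) Ω ⧸ Q) ≃+* (integralClosure (baseRing E A) Ω ⧸ Q) :=
    e.trans (θ.trans e.symm)
  have hθr : ∀ y, resHom A (θr y) = θ (resHom A y) := fun y => by
    show e (e.symm (θ (e y))) = θ (e y)
    rw [RingEquiv.apply_symm_apply]
  let θ' : (integralClosure (baseRing E A) Ω ⧸ Q) ≃ₐ[baseRing E A ⧸ P]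
      (integralClosure (baseRing E A) Ω ⧸ Q) :=
    AlgEquiv.ofRingEquiv (f := θr) (fun x => by
      obtain ⟨r, rfl⟩ := Ideal.Quotient.mk_surjective x
      rw [Ideal.Quotient.algebraMap_mk_of_liesOver]
      apply resHom_injective A
      rw [hθr, resHom_mk]
      exact hθ _ ((mem_baseRing_iff A _).mp r.2).2)
  have hθ' : ∀ y, θ' y = θr y := fun y => rfl
  obtain ⟨⟨τ, hτ⟩, hτ'⟩ :=
    Ideal.Quotient.stabilizerHom_surjective_of_profinite (G := Ω ≃ₐ[E] Ω) P Q θ'
  have hτQ : ∀ b : integralClosure (baseRing E A) Ω, τ • b ∈ Q ↔ b ∈ Q := fun b => by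
    rw [MulAction.mem_stabilizer_iff] at hτ
    conv_lhs => rw [← hτ]
    exact Ideal.smul_mem_pointwise_smul_iff
  have hτinvQ : ∀ b : integralClosure (baseRing E A) Ω, τ⁻¹ • b ∈ Q ↔ b ∈ Q := fun b => by
    rw [← hτQ (τ⁻¹ • b), smul_inv_smul]
  -- `τ` and `τ⁻¹` preserve `A`
  have hunit : ∀ g : Ω ≃ₐ[E] Ω, (∀ b : integralClosure (baseRing E A) Ω, g • b ∈ Q ↔ b ∈ Q) →
      ∀ s : Ω, IsIntegral (baseRing E A) s → A.valuation s = 1 → A.valuation (g s) = 1 := by
    intro g hg s hs hvs
    have hgs : IsIntegral (baseRing E A) (g s) := isIntegral_map A g hs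
    refine le_antisymm ((A.valuation_le_one_iff _).mpr (mem_of_isIntegral (E := E) A hgs)) ?_
    by_contra hlt
    rw [not_le] at hlt
    have h1 : g • (⟨s, hs⟩ : integralClosure (baseRing E A) Ω) ∈ Q := hlt
    have h2 : A.valuation s < 1 := (hg _).mp h1
    rw [hvs] at h2
    exact lt_irrefl _ h2
  have hτA : ∀ x : Ω, x ∈ A → τ x ∈ A := fun x hx =>
    map_mem_of_forall_integral A A τ (baseRing_le (E := E) A) (hunit τ hτQ) hx
  have hτinvA : ∀ x : Ω, x ∈ A → (τ⁻¹ : Ω ≃ₐ[E] Ω) x ∈ A := fun x hx =>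
    map_mem_of_forall_integral A A τ⁻¹ (baseRing_le (E := E) A) (hunit τ⁻¹ hτinvQ) hx
  refine ⟨τ, hτA, fun x hx => ?_, fun a => ?_⟩
  · have h1 := hτinvA _ hx
    have h2 : (τ⁻¹ : Ω ≃ₐ[E] Ω) (τ x) = x := τ.symm_apply_apply x
    rwa [h2] at h1
  · -- on the integral closure
    have hres : ∀ b : integralClosure (baseRing E A) Ω,
        IsLocalRing.residue A (inclA A (τ • b)) = θ (IsLocalRing.residue A (inclA A b)) := by
      intro b
      have h1 := DFunLike.congr_fun hτ' (Ideal.Quotient.mk Q b)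
      rw [Ideal.Quotient.stabilizerHom_apply] at h1
      have h2 := congrArg (resHom A) h1
      rw [hθ', hθr, resHom_mk] at h2
      exact h2
    obtain ⟨s, hs, hvs, hsa⟩ := exists_unit_mul_isIntegral (E := E) A a.2
    have h1 := hres ⟨s, hs⟩
    have h2 := hres ⟨s * a, hsa⟩
    have hsA : s ∈ A := mem_of_isIntegral (E := E) A hs
    have e1 : inclA A (⟨s * a, hsa⟩ : integralClosure (baseRing E A) Ω) =
        (⟨s, hsA⟩ : A) * a := Subtype.ext rfl
    have e2 : inclA A (τ • (⟨s * a, hsa⟩ : integralClosure (baseRing E A) Ω)) =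
        (⟨τ s, hτA s hsA⟩ : A) * ⟨τ a, hτA a a.2⟩ := Subtype.ext (map_mul τ s a)
    have e3 : inclA A (⟨s, hs⟩ : integralClosure (baseRing E A) Ω) = (⟨s, hsA⟩ : A) :=
      Subtype.ext rfl
    have e4 : inclA A (τ • (⟨s, hs⟩ : integralClosure (baseRing E A) Ω)) =
        (⟨τ s, hτA s hsA⟩ : A) := Subtype.ext rfl
    rw [e1, e2, map_mul, map_mul, map_mul] at h2
    rw [e3, e4] at h1
    rw [h1] at h2
    have hne : θ (IsLocalRing.residue A (⟨s, hsA⟩ : A)) ≠ 0 := by
      rw [Ne, map_eq_zero_iff θ θ.injective, IsLocalRing.residue_eq_zero_iff,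
        A.valuation_lt_one_iff]
      show ¬ A.valuation s < 1
      rw [hvs]
      exact lt_irrefl _
    exact mul_left_cancel₀ hne h2

end Galois

/-! ### The lifting lemma for (LIFT) -/

section Lift

/-- Two algebraically closed fields, algebraic over the images of a field `E`, are isomorphic
over `E`. -/
theorem exists_ringEquiv_comm {E : Type u} {L : Type v} {M : Type*} [Field E] [Field L] [Field M]
    [IsAlgClosed L] [IsAlgClosed M] (j₁ : E →+* L) (j₂ : E →+* M)
    (halg₁ : ∀ x : L, ∃ p : E[X], p ≠ 0 ∧ p.eval₂ j₁ x = 0)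
    (halg₂ : ∀ x : M, ∃ p : E[X], p ≠ 0 ∧ p.eval₂ j₂ x = 0) :
    ∃ σ : L ≃+* M, ∀ e : E, σ (j₁ e) = j₂ e := by
  letI : Algebra E L := j₁.toAlgebra
  letI : Algebra E M := j₂.toAlgebra
  haveI : IsAlgClosure E L := ⟨inferInstance, ⟨fun x => halg₁ x⟩⟩
  haveI : IsAlgClosure E M := ⟨inferInstance, ⟨fun x => halg₂ x⟩⟩
  exact ⟨(IsAlgClosure.equiv E L M).toRingEquiv, fun e => (IsAlgClosure.equiv E L M).commutes e⟩

variable {Ω : Type v} [Field Ω]

/-- The restriction to `A` of a ring automorphism of `Ω` preserving `A`. -/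
def restrictEquiv (A : ValuationSubring Ω) (σ : Ω ≃+* Ω) (h1 : ∀ x : Ω, x ∈ A → σ x ∈ A)
    (h2 : ∀ x : Ω, σ x ∈ A → x ∈ A) : A ≃+* A where
  toFun a := ⟨σ (a : Ω), h1 a a.2⟩
  invFun a := ⟨σ.symm (a : Ω), h2 _ (by rw [σ.apply_symm_apply]; exact a.2)⟩
  left_inv a := Subtype.ext (σ.symm_apply_apply (a : Ω))
  right_inv a := Subtype.ext (σ.apply_symm_apply (a : Ω))
  map_mul' a b := Subtype.ext (map_mul σ (a : Ω) (b : Ω))
  map_add' a b := Subtype.ext (map_add σ (a : Ω) (b : Ω))

theorem mapEquiv_restrictEquiv_residue (A : ValuationSubring Ω) (σ : Ω ≃+* Ω)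
    (h1 : ∀ x : Ω, x ∈ A → σ x ∈ A) (h2 : ∀ x : Ω, σ x ∈ A → x ∈ A) (a : A) :
    IsLocalRing.ResidueField.mapEquiv (restrictEquiv A σ h1 h2) (IsLocalRing.residue A a) =
      IsLocalRing.residue A ⟨σ (a : Ω), h1 a a.2⟩ := rfl

variable {E : Type u} [Field E]

/-- **The lifting lemma.**  `Ω` algebraically closed of characteristic zero, algebraic over the
images of two embeddings `j₁ j₂ : E → Ω`; `A` a valuation subring of `Ω` such that `j₁ e ∈ A ↔
j₂ e ∈ A` and `j₁ e`, `j₂ e` have the same residue.  Then there is an automorphism `σ` of `Ω`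
with `σ ∘ j₁ = j₂`, `σ A = A`, inducing the identity on the residue field of `A`. -/
theorem exists_ringEquiv_of_residue_eq [IsAlgClosed Ω] [CharZero Ω] (j₁ j₂ : E →+* Ω)
    (halg₁ : ∀ x : Ω, ∃ p : E[X], p ≠ 0 ∧ p.eval₂ j₁ x = 0)
    (halg₂ : ∀ x : Ω, ∃ p : E[X], p ≠ 0 ∧ p.eval₂ j₂ x = 0)
    (A : ValuationSubring Ω) (hA : ∀ e : E, j₁ e ∈ A ↔ j₂ e ∈ A)
    (hres : ∀ (e : E) (h₁ : j₁ e ∈ A) (h₂ : j₂ e ∈ A),
      IsLocalRing.residue A ⟨j₂ e, h₂⟩ = IsLocalRing.residue A ⟨j₁ e, h₁⟩) :
    ∃ σ : Ω ≃+* Ω, (∀ e : E, σ (j₁ e) = j₂ e) ∧ ∃ hσ : ∀ x : Ω, x ∈ A → σ x ∈ A,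
      (∀ x : Ω, σ x ∈ A → x ∈ A) ∧
        ∀ a : A, IsLocalRing.residue A ⟨σ a, hσ a a.2⟩ = IsLocalRing.residue A a := by
  obtain ⟨σ₁, hσ₁⟩ := exists_ringEquiv_comm j₁ j₂ halg₁ halg₂
  have hσ₁symm : ∀ e : E, σ₁.symm (j₂ e) = j₁ e := fun e => by
    rw [RingEquiv.symm_apply_eq, hσ₁]
  -- the `E`-algebra structure given by `j₂`
  letI : Algebra E Ω := j₂.toAlgebra
  have halgmap : ∀ e : E, algebraMap E Ω e = j₂ e := fun e => rfl
  haveI : CharZero E := j₂.charZero
  haveI : IsAlgClosure E Ω := ⟨inferInstance, ⟨fun x => halg₂ x⟩⟩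
  haveI : IsGalois E Ω := ⟨⟩
  -- step 1: make `σ₁` preserve `A`
  let A₁ : ValuationSubring Ω := A.comap (σ₁.symm : Ω →+* Ω)
  have hA₁ : ∀ x : Ω, x ∈ A₁ ↔ σ₁.symm x ∈ A := fun x => Iff.rfl
  obtain ⟨τ, hτ⟩ := exists_algEquiv_map_eq (E := E) A₁ A (fun e => by
    rw [hA₁, halgmap, hσ₁symm]
    exact hA e)
  let σ' : Ω ≃+* Ω := σ₁.trans τ.toRingEquiv
  have hσ'app : ∀ x : Ω, σ' x = τ (σ₁ x) := fun x => rfl
  have hσ'j : ∀ e : E, σ' (j₁ e) = j₂ e := fun e => by
    rw [hσ'app, hσ₁, ← halgmap, τ.commutes]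
  have hσ'A : ∀ x : Ω, x ∈ A ↔ σ' x ∈ A := fun x => by
    rw [hσ'app, ← hτ, hA₁, RingEquiv.symm_apply_apply]
  -- step 2: the induced automorphism of the residue field
  let θ : IsLocalRing.ResidueField A ≃+* IsLocalRing.ResidueField A :=
    IsLocalRing.ResidueField.mapEquiv
      (restrictEquiv A σ' (fun x hx => (hσ'A x).mp hx) (fun x hx => (hσ'A x).mpr hx))
  have hθ : ∀ a : A, θ (IsLocalRing.residue A a) =
      IsLocalRing.residue A ⟨σ' a, (hσ'A a).mp a.2⟩ := fun a => rfl
  obtain ⟨ρ, hρA, hρA', hρres⟩ := exists_algEquiv_residue (E := E) A θ.symm (fun a ha => by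
    obtain ⟨e, he⟩ := ha
    rw [halgmap] at he
    have h₂ : j₂ e ∈ A := he ▸ a.2
    have h₁ : j₁ e ∈ A := (hA e).mpr h₂
    have ha' : a = ⟨j₂ e, h₂⟩ := Subtype.ext he.symm
    rw [RingEquiv.symm_apply_eq, ha']
    have h3 := hθ ⟨j₁ e, h₁⟩
    have h4 : (⟨σ' (j₁ e), (hσ'A (j₁ e)).mp h₁⟩ : A) = ⟨j₂ e, h₂⟩ := Subtype.ext (hσ'j e)
    rw [h4] at h3
    rw [hres e h₁ h₂, h3]
    exact (hres e h₁ h₂).symm)
  -- step 3: correct by `ρ`
  refine ⟨σ'.trans ρ.toRingEquiv, fun e => ?_, fun x hx => hρA _ ((hσ'A x).mp hx),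
    fun x hx => (hσ'A x).mpr (hρA' _ hx), fun a => ?_⟩
  · show ρ (σ' (j₁ e)) = j₂ e
    rw [hσ'j, ← halgmap, ρ.commutes]
  · have h1 := hρres ⟨σ' a, (hσ'A a).mp a.2⟩
    rw [← hθ, RingEquiv.symm_apply_apply] at h1
    exact h1

/-- The lifting lemma, `K`-algebra form. -/
theorem exists_algEquiv_of_residue_eq {K : Type*} [Field K] [Algebra K E] [Algebra K Ω]
    [IsAlgClosed Ω] [CharZero Ω] (j₁ j₂ : E →ₐ[K] Ω)
    (halg₁ : ∀ x : Ω, ∃ p : E[X], p ≠ 0 ∧ p.eval₂ (j₁ : E →+* Ω) x = 0)
    (halg₂ : ∀ x : Ω, ∃ p : E[X], p ≠ 0 ∧ p.eval₂ (j₂ : E →+* Ω) x = 0)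
    (A : ValuationSubring Ω) (hA : ∀ e : E, j₁ e ∈ A ↔ j₂ e ∈ A)
    (hres : ∀ (e : E) (h₁ : j₁ e ∈ A) (h₂ : j₂ e ∈ A),
      IsLocalRing.residue A ⟨j₂ e, h₂⟩ = IsLocalRing.residue A ⟨j₁ e, h₁⟩) :
    ∃ σ : Ω ≃ₐ[K] Ω, (∀ e : E, σ (j₁ e) = j₂ e) ∧ ∃ hσ : ∀ x : Ω, x ∈ A → σ x ∈ A,
      (∀ x : Ω, σ x ∈ A → x ∈ A) ∧
        ∀ a : A, IsLocalRing.residue A ⟨σ a, hσ a a.2⟩ = IsLocalRing.residue A a := by
  obtain ⟨σ, hσj, hσA, hσA', hσres⟩ := exists_ringEquiv_of_residue_eq (j₁ : E →+* Ω)
    (j₂ : E →+* Ω) halg₁ halg₂ A hA hres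
  refine ⟨AlgEquiv.ofRingEquiv (f := σ) (fun c => ?_), hσj, hσA, hσA', hσres⟩
  have h1 := hσj (algebraMap K E c)
  have e1 : (j₁ : E →+* Ω) (algebraMap K E c) = algebraMap K Ω c := j₁.commutes c
  have e2 : (j₂ : E →+* Ω) (algebraMap K E c) = algebraMap K Ω c := j₂.commutes c
  rw [e1, e2] at h1
  exact h1

end Lift

/-! ### (LIFT-VAL): adjusting an automorphism along a residually independent family -/

section AdjustFam

open Fermat.Agent.S27P.Val.GaussFam

variable {K : Type*} {Ω : Type*} [Field K] [Field Ω] [Algebra K Ω] {I : Type*}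

theorem mul_mem_nonunits_of_mem (V : ValuationSubring Ω) {a b : Ω} (ha : a ∈ V)
    (hb : b ∈ V.nonunits) : a * b ∈ V.nonunits := by
  rw [ValuationSubring.mem_nonunits_iff] at hb ⊢
  rw [map_mul]
  have ha' : V.valuation a ≤ 1 := (V.valuation_le_one_iff a).2 ha
  calc V.valuation a * V.valuation b ≤ 1 * V.valuation b := mul_le_mul' ha' le_rfl
    _ = V.valuation b := one_mul _
    _ < 1 := hb

theorem add_mem_nonunits (V : ValuationSubring Ω) {a b : Ω} (ha : a ∈ V.nonunits)
    (hb : b ∈ V.nonunits) : a + b ∈ V.nonunits := by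
  rw [ValuationSubring.mem_nonunits_iff] at ha hb ⊢
  exact Valuation.map_add_lt _ ha hb

theorem neg_mem_nonunits (V : ValuationSubring Ω) {a : Ω} (ha : a ∈ V.nonunits) :
    -a ∈ V.nonunits := by
  rw [ValuationSubring.mem_nonunits_iff] at ha ⊢
  rwa [Valuation.map_neg]

theorem sub_mem_nonunits (V : ValuationSubring Ω) {a b : Ω} (ha : a ∈ V.nonunits)
    (hb : b ∈ V.nonunits) : a - b ∈ V.nonunits := by
  rw [sub_eq_add_neg]
  exact add_mem_nonunits V ha (neg_mem_nonunits V hb)

theorem mem_of_mem_nonunits (V : ValuationSubring Ω) {a : Ω} (ha : a ∈ V.nonunits) : a ∈ V := by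
  rw [ValuationSubring.mem_nonunits_iff] at ha
  exact (V.valuation_le_one_iff a).1 ha.le

theorem residue_eq_iff_sub_mem_nonunits (V : ValuationSubring Ω) (x y : V) :
    IsLocalRing.residue V x = IsLocalRing.residue V y ↔ (x : Ω) - (y : Ω) ∈ V.nonunits := by
  rw [ValuationSubring.mem_nonunits_iff]
  have h : IsLocalRing.residue V x = IsLocalRing.residue V y ↔
      x - y ∈ IsLocalRing.maximalIdeal V := Ideal.Quotient.eq
  rw [h, V.valuation_lt_one_iff]
  rfl

/-- The `K`-span of `e` is closed under multiplication. -/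
theorem span_mul_mem (e : I → Ω)
    (hmul : ∀ i j, e i * e j ∈ Submodule.span K (Set.range e)) {a b : Ω}
    (ha : a ∈ Submodule.span K (Set.range e)) (hb : b ∈ Submodule.span K (Set.range e)) :
    a * b ∈ Submodule.span K (Set.range e) := by
  induction ha using Submodule.span_induction with
  | mem x hx =>
    obtain ⟨i, rfl⟩ := hx
    induction hb using Submodule.span_induction with
    | mem y hy =>
      obtain ⟨j, rfl⟩ := hy
      exact hmul i j
    | zero => rw [mul_zero]; exact Submodule.zero_mem _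
    | add y z _ _ hy hz => rw [mul_add]; exact Submodule.add_mem _ hy hz
    | smul c y _ hy => rw [mul_smul_comm]; exact Submodule.smul_mem _ c hy
  | zero => rw [zero_mul]; exact Submodule.zero_mem _
  | add x y _ _ hx hy => rw [add_mul]; exact Submodule.add_mem _ hx hy
  | smul c x _ hx => rw [smul_mul_assoc]; exact Submodule.smul_mem _ c hx

/-- Every element of `K(e)` is a quotient of two elements of the `K`-span of `e`. -/
theorem exists_span_frac (e : I → Ω)
    (h1 : (1 : Ω) ∈ Submodule.span K (Set.range e))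
    (hmul : ∀ i j, e i * e j ∈ Submodule.span K (Set.range e))
    {y : Ω} (hy : y ∈ IntermediateField.adjoin K (Set.range e)) :
    ∃ a ∈ Submodule.span K (Set.range e), ∃ b ∈ Submodule.span K (Set.range e),
      b ≠ 0 ∧ y * b = a := by
  induction hy using IntermediateField.adjoin_induction with
  | mem x hx => exact ⟨x, Submodule.subset_span hx, 1, h1, one_ne_zero, mul_one x⟩
  | algebraMap c =>
    refine ⟨algebraMap K Ω c, ?_, 1, h1, one_ne_zero, mul_one _⟩
    rw [Algebra.algebraMap_eq_smul_one]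
    exact Submodule.smul_mem _ c h1
  | add x y _ _ hx hy =>
    obtain ⟨a, ha, b, hb, hb0, hxb⟩ := hx
    obtain ⟨a', ha', b', hb', hb0', hyb⟩ := hy
    refine ⟨a * b' + a' * b, Submodule.add_mem _ (span_mul_mem e hmul ha hb')
      (span_mul_mem e hmul ha' hb), b * b', span_mul_mem e hmul hb hb', mul_ne_zero hb0 hb0', ?_⟩
    rw [← hxb, ← hyb]
    ring
  | inv x _ hx =>
    obtain ⟨a, ha, b, hb, hb0, hxb⟩ := hx
    by_cases hx0 : x = 0
    · refine ⟨0, Submodule.zero_mem _, 1, h1, one_ne_zero, ?_⟩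
      rw [hx0, inv_zero, zero_mul]
    · have ha0 : a ≠ 0 := by
        rw [← hxb]
        exact mul_ne_zero hx0 hb0
      refine ⟨b, hb, a, ha, ha0, ?_⟩
      rw [← hxb, ← mul_assoc, inv_mul_cancel₀ hx0, one_mul]
  | mul x y _ _ hx hy =>
    obtain ⟨a, ha, b, hb, hb0, hxb⟩ := hx
    obtain ⟨a', ha', b', hb', hb0', hyb⟩ := hy
    refine ⟨a * a', span_mul_mem e hmul ha ha', b * b', span_mul_mem e hmul hb hb',
      mul_ne_zero hb0 hb0', ?_⟩
    rw [← hxb, ← hyb]
    ring

/-- A `K`-automorphism applied to a combination. -/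
theorem map_sum_smul (σ₀ : Ω ≃ₐ[K] Ω) (e : I → Ω) (c : I →₀ K) :
    σ₀ (c.sum fun i a => a • e i) = c.sum fun i a => a • σ₀ (e i) := by
  rw [Finsupp.sum, map_sum, Finsupp.sum]
  refine Finset.sum_congr rfl fun i _ => ?_
  rw [map_smul]

/-- Two families congruent modulo the maximal ideal: combinations with coefficients in `V` are
congruent. -/
theorem sum_sub_mem_nonunits (V : ValuationSubring Ω) (e e' : I → Ω)
    (hσ : ∀ i, e' i - e i ∈ V.nonunits) (c : I →₀ K)
    (hc : ∀ i, algebraMap K Ω (c i) ∈ V) :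
    (c.sum fun i a => a • e' i) - (c.sum fun i a => a • e i) ∈ V.nonunits := by
  have h : (c.sum fun i a => a • e' i) - (c.sum fun i a => a • e i) =
      ∑ i ∈ c.support, algebraMap K Ω (c i) * (e' i - e i) := by
    rw [Finsupp.sum, Finsupp.sum, ← Finset.sum_sub_distrib]
    refine Finset.sum_congr rfl fun i _ => ?_
    rw [Algebra.smul_def, Algebra.smul_def, mul_sub]
  rw [h, ValuationSubring.mem_nonunits_iff]
  refine Valuation.map_sum_lt _ one_ne_zero fun i _ => ?_
  rw [← ValuationSubring.mem_nonunits_iff]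
  exact mul_mem_nonunits_of_mem V (hc i) (hσ i)

/-- The computation behind (LIFT-VAL): on a fraction `y = C / D` of two `K`-combinations of a
residually independent family `e` moved by `σ₀` only inside the maximal ideal, `σ₀` preserves
membership in `V` (both ways) and the residue. -/
theorem adjust_aux (V : ValuationSubring Ω) (σ₀ : Ω ≃ₐ[K] Ω) (e : I → Ω)
    (he : ∀ i, e i ∈ V) (hσ : ∀ i, σ₀ (e i) - e i ∈ V.nonunits)
    (hind : ResIndepFam (K := K) V e) (c d : I →₀ K) (y : Ω)
    (hd : (d.sum fun i a => a • e i) ≠ 0)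
    (hy : y * (d.sum fun i a => a • e i) = c.sum fun i a => a • e i) :
    (y ∈ V → σ₀ y ∈ V ∧ σ₀ y - y ∈ V.nonunits) ∧ (σ₀ y ∈ V → y ∈ V) := by
  classical
  -- `σ₀ ∘ e` lies in `V` and is residually independent
  have he' : ∀ i, σ₀ (e i) ∈ V := fun i => by
    have h : σ₀ (e i) = (σ₀ (e i) - e i) + e i := by ring
    rw [h]
    exact V.add_mem _ _ (mem_of_mem_nonunits V (hσ i)) (he i)
  have hind' : ResIndepFam (K := K) V (fun i => σ₀ (e i)) := by
    intro c' hc' hnon i
    refine hind c' hc' ?_ i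
    have h := sum_sub_mem_nonunits V e (fun i => σ₀ (e i)) hσ c' hc'
    have h2 : (c'.sum fun i a => a • e i) = (c'.sum fun i a => a • σ₀ (e i)) -
        ((c'.sum fun i a => a • σ₀ (e i)) - (c'.sum fun i a => a • e i)) := by ring
    rw [h2]
    exact sub_mem_nonunits V hnon h
  -- normalise the denominator
  have hd0 : d ≠ 0 := by
    rintro rfl
    exact hd (by simp)
  obtain ⟨i₀, h0, hmax⟩ := exists_max_coeff V d hd0
  obtain ⟨hD1, hD2, -⟩ := unit_of_max_coeff e V he hind d i₀ h0 hmax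
  have hr0 : algebraMap K Ω (d i₀) ≠ 0 := by
    rw [Ne, map_eq_zero_iff _ (algebraMap K Ω).injective]
    exact h0
  obtain ⟨D, hDdef⟩ : ∃ D : Ω, D = (((d i₀)⁻¹ • d).sum fun i a => a • e i) := ⟨_, rfl⟩
  obtain ⟨C, hCdef⟩ : ∃ C : Ω, C = (((d i₀)⁻¹ • c).sum fun i a => a • e i) := ⟨_, rfl⟩
  have hDeq : D = (d.sum fun i a => a • e i) / algebraMap K Ω (d i₀) := by
    rw [hDdef, sum_inv_smul]
  have hCeq : C = (c.sum fun i a => a • e i) / algebraMap K Ω (d i₀) := by
    rw [hCdef, sum_inv_smul]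
  have hyD : y * D = C := by rw [hDeq, hCeq, ← hy, mul_div_assoc]
  have hDV : D ∈ V := hDeq ▸ hD1
  have hDinv : D⁻¹ ∈ V := hDeq ▸ hD2
  have hD0 : D ≠ 0 := by
    rw [hDeq]
    exact div_ne_zero hd hr0
  have hd'V : ∀ i, algebraMap K Ω (((d i₀)⁻¹ • d) i) ∈ V := fun i => by
    have h : ((d i₀)⁻¹ • d) i = d i / d i₀ := by
      rw [Finsupp.smul_apply, smul_eq_mul, div_eq_inv_mul]
    rw [h]
    exact hmax i
  -- `σ₀ D` is again a unit of `V`
  have hσD : σ₀ D - D ∈ V.nonunits := by
    rw [hDdef, map_sum_smul]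
    exact sum_sub_mem_nonunits V e (fun i => σ₀ (e i)) hσ _ hd'V
  have hσDV : σ₀ D ∈ V := by
    have h : σ₀ D = (σ₀ D - D) + D := by ring
    rw [h]
    exact V.add_mem _ _ (mem_of_mem_nonunits V hσD) hDV
  have hσD0 : σ₀ D ≠ 0 := by
    rw [Ne, map_eq_zero_iff σ₀ σ₀.injective]
    exact hD0
  have hσDinv : (σ₀ D)⁻¹ ∈ V := by
    by_contra hcon
    have h1 : σ₀ D ∈ V.nonunits := V.mem_nonunits_iff_or.2 (Or.inr hcon)
    have h2 : D ∈ V.nonunits := by
      have h : D = σ₀ D - (σ₀ D - D) := by ring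
      rw [h]
      exact sub_mem_nonunits V h1 hσD
    rcases V.mem_nonunits_iff_or.1 h2 with h | h
    · exact hD0 h
    · exact h hDinv
  have hσyD : σ₀ y * σ₀ D = σ₀ C := by rw [← map_mul, hyD]
  constructor
  · intro hyV
    have hCV : C ∈ V := hyD ▸ V.mul_mem _ _ hyV hDV
    have hc'V : ∀ i, algebraMap K Ω (((d i₀)⁻¹ • c) i) ∈ V :=
      (mem_iff_of_resIndepFam e V he hind _).1 (hCdef ▸ hCV)
    have hσC : σ₀ C - C ∈ V.nonunits := by
      rw [hCdef, map_sum_smul]
      exact sum_sub_mem_nonunits V e (fun i => σ₀ (e i)) hσ _ hc'V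
    have hσCV : σ₀ C ∈ V := by
      have h : σ₀ C = (σ₀ C - C) + C := by ring
      rw [h]
      exact V.add_mem _ _ (mem_of_mem_nonunits V hσC) hCV
    have hσy : σ₀ y = σ₀ C * (σ₀ D)⁻¹ := by rw [← hσyD, mul_inv_cancel_right₀ hσD0]
    refine ⟨hσy ▸ V.mul_mem _ _ hσCV hσDinv, ?_⟩
    have hkey : σ₀ y - y = (σ₀ D)⁻¹ * ((σ₀ C - C) - y * (σ₀ D - D)) := by
      rw [← hσyD, ← hyD]
      field_simp
      ring
    rw [hkey]
    exact mul_mem_nonunits_of_mem V hσDinv
      (sub_mem_nonunits V hσC (mul_mem_nonunits_of_mem V hyV hσD))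
  · intro hσyV
    have hσCV : σ₀ C ∈ V := hσyD ▸ V.mul_mem _ _ hσyV hσDV
    rw [hCdef, map_sum_smul] at hσCV
    have hc'V : ∀ i, algebraMap K Ω (((d i₀)⁻¹ • c) i) ∈ V :=
      (mem_iff_of_resIndepFam (fun i => σ₀ (e i)) V he' hind' _).1 hσCV
    have hCV : C ∈ V := by
      rw [hCdef]
      exact sum_mem_of_coeff_mem e V he _ hc'V
    have h : y = C * D⁻¹ := by rw [← hyD, mul_inv_cancel_right₀ hD0]
    rw [h]
    exact V.mul_mem _ _ hCV hDinv

end AdjustFam

/-- **(LIFT-VAL)**, strong form: the adjusted automorphism agrees with `σ₀` on the whole field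
`K(e)`.  `Ω ⊇ K` algebraically closed of characteristic zero, `V` a valuation subring of `Ω`,
`σ₀ ∈ Aut(Ω / K)`, `e` a family of elements of `V` whose `K`-span is a subring over whose fraction
field `Ω` is algebraic, residually independent for `V`, with `σ₀ (e i) ≡ e i` modulo the maximal
ideal of `V`.  Then some `σ ∈ Aut(Ω / K)` agrees with `σ₀` on `K(e)`, stabilises `V` and induces
the identity on the residue field of `V`. -/
theorem exists_algEquiv_adjust_adjoin {K Ω : Type*} [Field K] [Field Ω] [Algebra K Ω]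
    [IsAlgClosed Ω] [CharZero K] (V : ValuationSubring Ω) (σ₀ : Ω ≃ₐ[K] Ω) {I : Type*} (e : I → Ω)
    (h1 : (1 : Ω) ∈ Submodule.span K (Set.range e))
    (hmul : ∀ i j, e i * e j ∈ Submodule.span K (Set.range e))
    (halg : ∀ y : Ω, IsAlgebraic (IntermediateField.adjoin K (Set.range e)) y)
    (he : ∀ i, e i ∈ V) (hσ : ∀ i, σ₀ (e i) - e i ∈ V.nonunits)
    (hind : GaussFam.ResIndepFam (K := K) V e) :
    ∃ σ : Ω ≃ₐ[K] Ω, (∀ y ∈ IntermediateField.adjoin K (Set.range e), σ y = σ₀ y) ∧
      (∀ a : Ω, a ∈ V ↔ σ a ∈ V) ∧ ∀ a : Ω, a ∈ V → σ a - a ∈ V.nonunits := by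
  haveI : CharZero Ω := charZero_of_injective_algebraMap (algebraMap K Ω).injective
  let j₁ : IntermediateField.adjoin K (Set.range e) →ₐ[K] Ω :=
    (IntermediateField.adjoin K (Set.range e)).val
  let j₂ : IntermediateField.adjoin K (Set.range e) →ₐ[K] Ω :=
    (σ₀ : Ω →ₐ[K] Ω).comp (IntermediateField.adjoin K (Set.range e)).val
  have haux : ∀ y : IntermediateField.adjoin K (Set.range e),
      ((y : Ω) ∈ V → σ₀ (y : Ω) ∈ V ∧ σ₀ (y : Ω) - y ∈ V.nonunits) ∧
        (σ₀ (y : Ω) ∈ V → (y : Ω) ∈ V) := by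
    intro y
    obtain ⟨a, ha, b, hb, hb0, hyb⟩ := exists_span_frac e h1 hmul y.2
    obtain ⟨c, rfl⟩ := Finsupp.mem_span_range_iff_exists_finsupp.1 ha
    obtain ⟨d, rfl⟩ := Finsupp.mem_span_range_iff_exists_finsupp.1 hb
    exact adjust_aux V σ₀ e he hσ hind c d y hb0 hyb
  have halg₁ : ∀ x : Ω, ∃ p : Polynomial (IntermediateField.adjoin K (Set.range e)),
      p ≠ 0 ∧ p.eval₂ (j₁ : IntermediateField.adjoin K (Set.range e) →+* Ω) x = 0 := by
    intro x
    obtain ⟨p, hp0, hp⟩ := halg x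
    exact ⟨p, hp0, hp⟩
  have halg₂ : ∀ x : Ω, ∃ p : Polynomial (IntermediateField.adjoin K (Set.range e)),
      p ≠ 0 ∧ p.eval₂ (j₂ : IntermediateField.adjoin K (Set.range e) →+* Ω) x = 0 := by
    intro x
    obtain ⟨p, hp0, hp⟩ := halg (σ₀.symm x)
    refine ⟨p, hp0, ?_⟩
    have h2 := congrArg (σ₀ : Ω →+* Ω) hp
    rw [Polynomial.aeval_def, Polynomial.hom_eval₂, map_zero] at h2
    have h3 : (σ₀ : Ω →+* Ω) (σ₀.symm x) = x := σ₀.apply_symm_apply x
    rw [h3] at h2
    exact h2
  obtain ⟨σ, hσj, hσV, hσV', hσres⟩ := exists_algEquiv_of_residue_eq j₁ j₂ halg₁ halg₂ V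
    (fun y => ⟨fun h => ((haux y).1 h).1, (haux y).2⟩)
    (fun y h₁ h₂ => (residue_eq_iff_sub_mem_nonunits V _ _).2 ((haux y).1 h₁).2)
  refine ⟨σ, fun y hy => ?_, fun a => ⟨hσV a, hσV' a⟩, fun a ha => ?_⟩
  · exact hσj ⟨y, hy⟩
  · exact (residue_eq_iff_sub_mem_nonunits V ⟨σ a, hσV a ha⟩ ⟨a, ha⟩).1 (hσres ⟨a, ha⟩)

/-- **(LIFT-VAL)** (ruling (GEN) #1, literal).  `Ω ⊇ K` algebraically closed of characteristic
zero, `V` a valuation subring of `Ω`, `σ₀ ∈ Aut(Ω / K)`, `e` a family of elements of `V` whose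
`K`-span is a subring over whose fraction field `Ω` is algebraic, residually independent for `V`,
with `σ₀ (e i) ≡ e i` modulo the maximal ideal of `V`.  Then some `σ ∈ Aut(Ω / K)` agrees with
`σ₀` on the `e i`, stabilises `V` and induces the identity on the residue field of `V`. -/
theorem exists_algEquiv_adjust {K Ω : Type*} [Field K] [Field Ω] [Algebra K Ω] [IsAlgClosed Ω]
    [CharZero K] (V : ValuationSubring Ω) (σ₀ : Ω ≃ₐ[K] Ω) {I : Type*} (e : I → Ω)
    (h1 : (1 : Ω) ∈ Submodule.span K (Set.range e))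
    (hmul : ∀ i j, e i * e j ∈ Submodule.span K (Set.range e))
    (halg : ∀ y : Ω, IsAlgebraic (IntermediateField.adjoin K (Set.range e)) y)
    (he : ∀ i, e i ∈ V) (hσ : ∀ i, σ₀ (e i) - e i ∈ V.nonunits)
    (hind : GaussFam.ResIndepFam (K := K) V e) :
    ∃ σ : Ω ≃ₐ[K] Ω, (∀ i, σ (e i) = σ₀ (e i)) ∧ (∀ a : Ω, a ∈ V ↔ σ a ∈ V) ∧
      ∀ a : Ω, a ∈ V → σ a - a ∈ V.nonunits := by
  obtain ⟨σ, h, hV, hres⟩ := exists_algEquiv_adjust_adjoin V σ₀ e h1 hmul halg he hσ hind
  exact ⟨σ, fun i => h _ (IntermediateField.subset_adjoin K _ ⟨i, rfl⟩), hV, hres⟩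

end Fermat.Agent.S27P.Val.Adjust
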