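import Mathlib

/-!
# S27P (G8), (V1)+(V2): conjugacy of the extensions of a valuation ring, and the decomposition
group maps onto the residue automorphisms

Let `L/K` be an algebraic Galois extension of fields (finite or not) and `A`, `B` valuation
subrings of `L` (of any rank, any residue characteristic).

* `Fermat.Agent.S27P.Val.exists_smul_eq_of_comap_eq` : if `A ∩ K = B ∩ K` then `σ • A = B` for
  some `σ ∈ Gal(L/K)`.
* `Fermat.Agent.S27P.Val.exists_residue_lift` : every automorphism of the residue field of `A`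
  fixing the residues of `A ∩ K` is induced by some `σ ∈ Gal(L/K)` with `σ • A = A`.

The proofs go through the integral closure `C` of `A ∩ K` in `L`, on which the profinite group
`Gal(L/K)` acts continuously with invariants `A ∩ K`; the bridge between valuation rings and
primes of `C` is the rank-free lemma `Conj.exists_unit_mul_isIntegral_of_mem`: every `x ∈ A` is
a quotient `a / s` of elements of `C` with `s` a unit of `A`.  All auxiliary declarations live
in the namespace `Fermat.Agent.S27P.Val.Conj`.
-/

set_option autoImplicit false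

namespace Fermat.Agent.S27P.Val.Conj

open Polynomial
open scoped Pointwise

section Key

variable {R L : Type*} [CommRing R] [Field L] [Algebra R L]
  {Γ₀ : Type*} [LinearOrderedCommGroupWithZero Γ₀]

/-- Elements integral over a ring on which a valuation is `≤ 1` have valuation `≤ 1`. -/
theorem val_le_one_of_isIntegral (v : Valuation L Γ₀) (hR : ∀ r : R, v (algebraMap R L r) ≤ 1)
    {b : L} (hb : IsIntegral R b) : v b ≤ 1 := by
  obtain ⟨p, hp, hpb⟩ := hb
  by_contra hlt
  rw [not_le] at hlt
  have hb0 : v b ≠ 0 := (lt_trans zero_lt_one hlt).ne'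
  rw [Polynomial.eval₂_eq_sum_range, Finset.sum_range_succ, hp.coeff_natDegree, map_one,
    one_mul] at hpb
  have h1 : b ^ p.natDegree =
      - ∑ i ∈ Finset.range p.natDegree, algebraMap R L (p.coeff i) * b ^ i :=
    eq_neg_of_add_eq_zero_right hpb
  have h2 : v (b ^ p.natDegree) < v b ^ p.natDegree := by
    rw [h1, Valuation.map_neg]
    apply Valuation.map_sum_lt v (pow_ne_zero _ hb0)
    intro i hi
    rw [Finset.mem_range] at hi
    rw [map_mul, map_pow]
    calc v (algebraMap R L (p.coeff i)) * v b ^ i ≤ 1 * v b ^ i :=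
          mul_le_mul_left (hR _) _
      _ = v b ^ i := one_mul _
      _ < v b ^ p.natDegree := pow_lt_pow_right₀ hlt hi
  rw [map_pow] at h2
  exact lt_irrefl _ h2

/-- Key lemma (Kaplansky style induction on the degree). -/
theorem exists_unit_mul_isIntegral_aux (v : Valuation L Γ₀)
    (hR : ∀ r : R, v (algebraMap R L r) ≤ 1) (x : L) (hx : v x ≤ 1) :
    ∀ (n : ℕ) (f : (integralClosure R L)[X]), f.natDegree ≤ n → aeval x f = 0 →
      (∃ i, v (f.coeff i : L) = 1) →
      ∃ s : L, IsIntegral R s ∧ v s = 1 ∧ IsIntegral R (s * x) := by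
  intro n
  induction n with
  | zero =>
    intro f hf h0 ⟨i, hi⟩
    exfalso
    rw [Nat.le_zero] at hf
    rw [eq_C_of_natDegree_eq_zero hf, aeval_C] at h0
    have h00 : f.coeff 0 = 0 := by
      simpa using h0
    have hf0 : f = 0 := by
      rw [eq_C_of_natDegree_eq_zero hf, h00, C_0]
    rw [hf0] at hi
    simp at hi
  | succ n ih =>
    intro f hf h0 ⟨i, hi⟩
    by_cases hdeg : f.natDegree ≤ n
    · exact ih f hdeg h0 ⟨i, hi⟩
    have hdeg' : f.natDegree = n + 1 := by omega
    have hcx : IsIntegral R ((f.leadingCoeff : L) * x) := by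
      have := isIntegral_trans (R := R) _ (isIntegral_leadingCoeff_smul f x h0)
      rwa [Algebra.smul_def] at this
    by_cases hvc : v (f.leadingCoeff : L) = 1
    · exact ⟨f.leadingCoeff, f.leadingCoeff.2, hvc, hcx⟩
    · have hvc' : v (f.leadingCoeff : L) < 1 :=
        lt_of_le_of_ne (val_le_one_of_isIntegral v hR f.leadingCoeff.2) hvc
      let b : integralClosure R L := ⟨(f.leadingCoeff : L) * x, hcx⟩
      have hvb : v (b : L) < 1 := by
        show v ((f.leadingCoeff : L) * x) < 1
        rw [map_mul]
        exact mul_lt_one_of_lt_of_le hvc' hx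
      apply ih (f.eraseLead + C b * X ^ n)
      · refine (natDegree_add_le _ _).trans (max_le ?_ ?_)
        · have := eraseLead_natDegree_le f
          omega
        · exact natDegree_C_mul_X_pow_le b n
      · have h1 : aeval x f.eraseLead + (f.leadingCoeff : L) * x ^ (n + 1) = 0 := by
          conv_rhs => rw [← h0, ← eraseLead_add_C_mul_X_pow f]
          rw [map_add, hdeg']
          simp
        rw [map_add]
        simp only [map_mul, aeval_C, map_pow, aeval_X]
        rw [← h1]
        show _ + (f.leadingCoeff : L) * x * x ^ n = _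
        ring
      · have hin : i ≠ n + 1 := by
          rintro rfl
          rw [← hdeg'] at hi
          exact hvc hi
        have hile : i ≤ n + 1 := by
          by_contra hlt
          have : f.coeff i = 0 := coeff_eq_zero_of_natDegree_lt (by omega)
          rw [this] at hi
          simp at hi
        refine ⟨i, ?_⟩
        rw [coeff_add, eraseLead_coeff, if_neg (by rw [hdeg']; exact hin), coeff_C_mul,
          coeff_X_pow]
        by_cases hin' : i = n
        · rw [if_pos hin', mul_one]
          show v ((f.coeff i : L) + (b : L)) = 1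
          rw [Valuation.map_add_eq_of_lt_left, hi]
          rw [hi]; exact hvb
        · rw [if_neg hin', mul_zero, add_zero]
          exact hi

/-- If `x` with `v x ≤ 1` is a root of a polynomial with integral coefficients one of which has
valuation `1`, then `x = a / s` with `a`, `s` integral and `v s = 1`. -/
theorem exists_unit_mul_isIntegral (v : Valuation L Γ₀)
    (hR : ∀ r : R, v (algebraMap R L r) ≤ 1) {x : L} (hx : v x ≤ 1) (q : L[X])
    (hq : q.eval x = 0) (hcoeff : ∀ i, IsIntegral R (q.coeff i)) (j : ℕ)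
    (hj : v (q.coeff j) = 1) :
    ∃ s : L, IsIntegral R s ∧ v s = 1 ∧ IsIntegral R (s * x) := by
  have hlift : q ∈ Polynomial.lifts (algebraMap (integralClosure R L) L) := by
    rw [Polynomial.lifts_iff_coeff_lifts]
    intro n
    exact ⟨⟨q.coeff n, hcoeff n⟩, rfl⟩
  obtain ⟨g, hg⟩ := hlift
  have hg' : g.map (algebraMap (integralClosure R L) L) = q := hg
  refine exists_unit_mul_isIntegral_aux v hR x hx g.natDegree g le_rfl ?_ ⟨j, ?_⟩
  · rw [Polynomial.aeval_def, ← Polynomial.eval_map, hg', hq]
  · have h1 : ((g.coeff j : integralClosure R L) : L) = q.coeff j := by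
      rw [← hg', Polynomial.coeff_map]
      rfl
    rw [h1, hj]

/-- The prime ideal of the integral closure cut out by a valuation. -/
noncomputable def primeBelow (v : Valuation L Γ₀) (hR : ∀ r : R, v (algebraMap R L r) ≤ 1) :
    Ideal (integralClosure R L) where
  carrier := {b | v (b : L) < 1}
  add_mem' := by
    intro a b ha hb
    exact lt_of_le_of_lt (v.map_add _ _) (max_lt ha hb)
  zero_mem' := by
    show v ((0 : integralClosure R L) : L) < 1
    simp
  smul_mem' := by
    intro c b hb
    show v ((c * b : integralClosure R L) : L) < 1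
    have hc : v (c : L) ≤ 1 := val_le_one_of_isIntegral v hR c.2
    have : ((c * b : integralClosure R L) : L) = (c : L) * (b : L) := rfl
    rw [this, map_mul, mul_comm]
    exact mul_lt_one_of_lt_of_le hb hc

theorem mem_primeBelow (v : Valuation L Γ₀) (hR : ∀ r : R, v (algebraMap R L r) ≤ 1)
    (b : integralClosure R L) : b ∈ primeBelow v hR ↔ v (b : L) < 1 := Iff.rfl

theorem primeBelow_isPrime (v : Valuation L Γ₀) (hR : ∀ r : R, v (algebraMap R L r) ≤ 1) :
    (primeBelow v hR).IsPrime := by
  refine ⟨?_, ?_⟩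
  · intro h
    have h1 : (1 : integralClosure R L) ∈ primeBelow v hR := h ▸ Submodule.mem_top
    rw [mem_primeBelow] at h1
    simp at h1
  · intro a b hab
    rw [mem_primeBelow] at hab ⊢
    rw [mem_primeBelow]
    have hmul : ((a * b : integralClosure R L) : L) = (a : L) * (b : L) := rfl
    rw [hmul, map_mul] at hab
    by_contra hcon
    push Not at hcon
    have ha : v (a : L) = 1 := le_antisymm (val_le_one_of_isIntegral v hR a.2) hcon.1
    have hb : v (b : L) = 1 := le_antisymm (val_le_one_of_isIntegral v hR b.2) hcon.2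
    rw [ha, hb, one_mul] at hab
    exact lt_irrefl _ hab

end Key

section Base

variable {K L : Type*} [Field K] [Field L] [Algebra K L]

/-- The valuation ring `A ∩ K`, as a subring of `K`. -/
abbrev baseRing (K : Type*) {L : Type*} [Field K] [Field L] [Algebra K L]
    (A : ValuationSubring L) : Subring K :=
  (A.comap (algebraMap K L)).toSubring

theorem mem_baseRing (A : ValuationSubring L) (c : K) :
    c ∈ baseRing K A ↔ algebraMap K L c ∈ A := Iff.rfl

variable (S : Subring K) (A : ValuationSubring L)

theorem val_base_le_one (hSA : ∀ c : K, c ∈ S ↔ algebraMap K L c ∈ A) (r : S) :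
    A.valuation (algebraMap S L r) ≤ 1 :=
  (A.valuation_le_one_iff _).2 ((hSA r.1).1 r.2)

theorem val_lt_one_iff_of_base (hSA : ∀ c : K, c ∈ S ↔ algebraMap K L c ∈ A) (c : K) :
    A.valuation (algebraMap K L c) < 1 ↔ (c = 0 ∨ c⁻¹ ∉ S) := by
  by_cases hc : c = 0
  · simp [hc]
  · have hc' : algebraMap K L c ≠ 0 := by simpa using hc
    have hv : A.valuation (algebraMap K L c) ≠ 0 := (Valuation.ne_zero_iff _).2 hc'
    rw [hSA, map_inv₀, ← A.valuation_le_one_iff, map_inv₀, not_le,
      one_lt_inv₀ (zero_lt_iff.2 hv)]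
    simp [hc]

/-- `S = A ∩ K` is integrally closed in `K`. -/
theorem mem_base_of_isIntegral (hSA : ∀ c : K, c ∈ S ↔ algebraMap K L c ∈ A) (c : K)
    (hc : IsIntegral S c) : c ∈ S := by
  rw [hSA, ← A.valuation_le_one_iff]
  exact val_le_one_of_isIntegral A.valuation (val_base_le_one S A hSA)
    (hc.map (IsScalarTower.toAlgHom S K L))

/-- Every element of the valuation ring `A` of the algebraic extension `L/K` is a quotient
`a / s` of elements integral over `A ∩ K`, with `s` a unit of `A`. -/
theorem exists_unit_mul_isIntegral_of_mem [Algebra.IsAlgebraic K L]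
    (hSA : ∀ c : K, c ∈ S ↔ algebraMap K L c ∈ A) {x : L} (hx : x ∈ A) :
    ∃ s : L, IsIntegral S s ∧ A.valuation s = 1 ∧ IsIntegral S (s * x) := by
  classical
  obtain ⟨p, hp0, hpx⟩ := Algebra.IsAlgebraic.isAlgebraic (R := K) x
  set P : L[X] := p.map (algebraMap K L) with hP
  have hP0 : P ≠ 0 := (Polynomial.map_ne_zero_iff (algebraMap K L).injective).2 hp0
  have hPx : P.eval x = 0 := by
    rw [hP, Polynomial.eval_map]
    exact hpx
  obtain ⟨j, hjmem, hjmax⟩ := Finset.exists_max_image P.support
    (fun i => A.valuation (P.coeff i)) (Polynomial.nonempty_support_iff.2 hP0)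
  have hc0 : P.coeff j ≠ 0 := Polynomial.mem_support_iff.1 hjmem
  have hv0 : A.valuation (P.coeff j) ≠ 0 := (Valuation.ne_zero_iff _).2 hc0
  refine exists_unit_mul_isIntegral A.valuation (val_base_le_one S A hSA)
    ((A.valuation_le_one_iff x).2 hx) (C (P.coeff j)⁻¹ * P) ?_ ?_ j ?_
  · rw [eval_mul, hPx, mul_zero]
  · intro i
    rw [coeff_C_mul]
    have h1 : (P.coeff j)⁻¹ * P.coeff i = algebraMap K L ((p.coeff j)⁻¹ * p.coeff i) := by
      rw [hP, coeff_map, coeff_map, map_mul, map_inv₀]
    have h2 : A.valuation ((P.coeff j)⁻¹ * P.coeff i) ≤ 1 := by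
      rw [map_mul, map_inv₀]
      by_cases hi : i ∈ P.support
      · have h3 : A.valuation (P.coeff i) ≤ A.valuation (P.coeff j) := hjmax i hi
        calc (A.valuation (P.coeff j))⁻¹ * A.valuation (P.coeff i)
            ≤ (A.valuation (P.coeff j))⁻¹ * A.valuation (P.coeff j) :=
              mul_le_mul_right h3 _
          _ = 1 := inv_mul_cancel₀ hv0
      · rw [Polynomial.notMem_support_iff.1 hi, map_zero, mul_zero]
        exact zero_le_one
    rw [h1] at h2 ⊢
    have hmem : (p.coeff j)⁻¹ * p.coeff i ∈ S :=
      (hSA _).2 ((A.valuation_le_one_iff _).1 h2)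
    exact isIntegral_algebraMap (R := S) (A := L) (x := ⟨_, hmem⟩)
  · rw [coeff_C_mul, inv_mul_cancel₀ hc0, map_one]

/-- The trace on `S = A ∩ K` of the maximal ideal of `A` is a maximal ideal of `S`. -/
theorem under_primeBelow_isMaximal (hSA : ∀ c : K, c ∈ S ↔ algebraMap K L c ∈ A) :
    ((primeBelow A.valuation (val_base_le_one S A hSA)).under S).IsMaximal := by
  rw [Ideal.isMaximal_iff]
  refine ⟨?_, fun J x _ hxP hxJ => ?_⟩
  · intro h1
    rw [Ideal.under_def, Ideal.mem_comap, mem_primeBelow] at h1
    have h2 : A.valuation (algebraMap K L (1 : K)) < 1 := h1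
    rw [map_one, map_one] at h2
    exact lt_irrefl _ h2
  · rw [Ideal.under_def, Ideal.mem_comap, mem_primeBelow] at hxP
    have hx1 : ¬ A.valuation (algebraMap K L x.1) < 1 := hxP
    rw [val_lt_one_iff_of_base S A hSA, not_or, not_not] at hx1
    have h3 : (1 : S) = ⟨x.1⁻¹, hx1.2⟩ * x := Subtype.ext (inv_mul_cancel₀ hx1.1).symm
    rw [h3]
    exact J.mul_mem_left _ hxJ

end Base

section Galois

variable {K L : Type*} [Field K] [Field L] [Algebra K L]

/-- The action of `Gal(L/K)` on the integral closure in `L` of a subring `S` of `K`. -/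
@[instance_reducible]
noncomputable def galAct (S : Subring K) :
    MulSemiringAction (L ≃ₐ[K] L) (integralClosure S L) where
  smul g b := ⟨g b.1, b.2.map g⟩
  one_smul _ := Subtype.ext rfl
  mul_smul _ _ _ := Subtype.ext rfl
  smul_zero g := Subtype.ext (map_zero g)
  smul_add g a b := Subtype.ext (map_add g a.1 b.1)
  smul_one g := Subtype.ext (map_one g)
  smul_mul g a b := Subtype.ext (map_mul g a.1 b.1)

attribute [local instance] galAct

theorem galAct_coe (S : Subring K) (g : L ≃ₐ[K] L) (b : integralClosure S L) :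
    ((g • b : integralClosure S L) : L) = g (b : L) := rfl

theorem galAct_smulCommClass (S : Subring K) :
    SMulCommClass (L ≃ₐ[K] L) S (integralClosure S L) :=
  ⟨fun g n b => Subtype.ext (by
    show g ((n • b : integralClosure S L) : L) = ((n • (g • b) : integralClosure S L) : L)
    show g (n • (b : L)) = n • g (b : L)
    rw [Algebra.smul_def, Algebra.smul_def, map_mul]
    congr 1
    exact g.commutes (n : K))⟩

attribute [local instance] galAct_smulCommClass

theorem galAct_isInvariant [IsGalois K L] (S : Subring K)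
    (hS : ∀ c : K, IsIntegral S c → c ∈ S) :
    Algebra.IsInvariant S (integralClosure S L) (L ≃ₐ[K] L) := by
  refine ⟨fun b hb => ?_⟩
  have h1 : (b : L) ∈ Set.range (algebraMap K L) := by
    rw [InfiniteGalois.mem_range_algebraMap_iff_fixed]
    intro g
    exact congrArg Subtype.val (hb g)
  obtain ⟨q, hq⟩ := h1
  have h2 : IsIntegral S q := by
    have := b.2
    rw [← hq] at this
    exact (isIntegral_algebraMap_iff (algebraMap K L).injective).mp this
  exact ⟨⟨q, hS q h2⟩, Subtype.ext hq⟩

/-- The discrete topology on the integral closure. -/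
@[instance_reducible]
def icTopology (S : Subring K) : TopologicalSpace (integralClosure S L) := ⊥

attribute [local instance] icTopology

theorem icDiscrete (S : Subring K) : DiscreteTopology (integralClosure S L) := ⟨rfl⟩

attribute [local instance] icDiscrete

theorem galAct_continuousSMul [Algebra.IsIntegral K L] (S : Subring K) :
    ContinuousSMul (L ≃ₐ[K] L) (integralClosure S L) := by
  rw [continuousSMul_iff_stabilizer_isOpen]
  intro b
  have := stabilizer_isOpen_of_isIntegral (K := K) (L := L) (b : L)
  convert this using 1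
  ext g
  simp [MulAction.mem_stabilizer_iff, Subtype.ext_iff]

attribute [local instance] galAct_continuousSMul

/-- An automorphism fixing the centre of `A` on the integral closure maps `A` into `A`. -/
theorem map_mem_of_smul_primeBelow_eq [Algebra.IsAlgebraic K L] (S : Subring K)
    (A B : ValuationSubring L)
    (hSA : ∀ c : K, c ∈ S ↔ algebraMap K L c ∈ A)
    (hSB : ∀ c : K, c ∈ S ↔ algebraMap K L c ∈ B) (g : L ≃ₐ[K] L)
    (hg : g • primeBelow A.valuation (val_base_le_one S A hSA) =
      primeBelow B.valuation (val_base_le_one S B hSB)) {x : L} (hx : x ∈ A) : g x ∈ B := by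
  have hRB := val_base_le_one S B hSB
  obtain ⟨s, hs, hvs, hsx⟩ := exists_unit_mul_isIntegral_of_mem S A hSA hx
  have h1 : ¬ B.valuation (g s) < 1 := fun h => by
    have h' : (g • (⟨s, hs⟩ : integralClosure S L)) ∈ primeBelow B.valuation hRB := h
    rw [← hg] at h'
    have h'' := Ideal.smul_mem_pointwise_smul_iff.1 h'
    rw [mem_primeBelow] at h''
    rw [hvs] at h''
    exact lt_irrefl _ h''
  have h2 : B.valuation (g s) = 1 :=
    le_antisymm (val_le_one_of_isIntegral B.valuation hRB (hs.map g)) (not_lt.1 h1)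
  have h3 : B.valuation (g (s * x)) ≤ 1 :=
    val_le_one_of_isIntegral B.valuation hRB (hsx.map g)
  rw [map_mul, map_mul, h2, one_mul] at h3
  exact (B.valuation_le_one_iff _).1 h3

/-- An automorphism moving the centre of `A` to the centre of `B` moves `A` to `B`. -/
theorem smul_eq_of_smul_primeBelow_eq [Algebra.IsAlgebraic K L] (S : Subring K)
    (A B : ValuationSubring L)
    (hSA : ∀ c : K, c ∈ S ↔ algebraMap K L c ∈ A)
    (hSB : ∀ c : K, c ∈ S ↔ algebraMap K L c ∈ B) (g : L ≃ₐ[K] L)
    (hg : g • primeBelow A.valuation (val_base_le_one S A hSA) =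
      primeBelow B.valuation (val_base_le_one S B hSB)) : g • A = B := by
  have hg' : g⁻¹ • primeBelow B.valuation (val_base_le_one S B hSB) =
      primeBelow A.valuation (val_base_le_one S A hSA) := by
    rw [← hg, inv_smul_smul]
  refine le_antisymm ?_ ?_
  · intro y hy
    rw [ValuationSubring.mem_pointwise_smul_iff_inv_smul_mem] at hy
    have h1 := map_mem_of_smul_primeBelow_eq S A B hSA hSB g hg hy
    have h2 : g (g⁻¹ • y) = y := g.apply_symm_apply y
    rwa [h2] at h1
  · intro y hy
    rw [ValuationSubring.mem_pointwise_smul_iff_inv_smul_mem]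
    exact map_mem_of_smul_primeBelow_eq S B A hSB hSA g⁻¹ hg' hy

/-- **Conjugacy**, with the common base ring as a parameter. -/
theorem exists_smul_eq_core [IsGalois K L] (S : Subring K) (A B : ValuationSubring L)
    (hSA : ∀ c : K, c ∈ S ↔ algebraMap K L c ∈ A)
    (hSB : ∀ c : K, c ∈ S ↔ algebraMap K L c ∈ B) :
    ∃ σ : L ≃ₐ[K] L, σ • A = B := by
  have hRA := val_base_le_one S A hSA
  have hRB := val_base_le_one S B hSB
  have := primeBelow_isPrime A.valuation hRA
  have := primeBelow_isPrime B.valuation hRB
  have := galAct_isInvariant (L := L) S (mem_base_of_isIntegral S A hSA)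
  have hunder : (primeBelow A.valuation hRA).under S = (primeBelow B.valuation hRB).under S := by
    ext r
    rw [Ideal.under_def, Ideal.mem_comap, Ideal.mem_comap, mem_primeBelow, mem_primeBelow]
    show A.valuation (algebraMap K L r.1) < 1 ↔ B.valuation (algebraMap K L r.1) < 1
    rw [val_lt_one_iff_of_base S A hSA, val_lt_one_iff_of_base S B hSB]
  obtain ⟨g, hg⟩ := Algebra.IsInvariant.exists_smul_of_under_eq_of_profinite (A := S)
    (G := L ≃ₐ[K] L) (primeBelow A.valuation hRA) (primeBelow B.valuation hRB) hunder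
  exact ⟨g, smul_eq_of_smul_primeBelow_eq S A B hSA hSB g hg.symm⟩

/-- **Decomposition group onto residue automorphisms**, with the base ring as a parameter. -/
theorem exists_residue_lift_core [IsGalois K L] (S : Subring K) (A : ValuationSubring L)
    (hSA : ∀ c : K, c ∈ S ↔ algebraMap K L c ∈ A)
    (τ : IsLocalRing.ResidueField A ≃+* IsLocalRing.ResidueField A)
    (hτ : ∀ (c : K) (hc : algebraMap K L c ∈ A),
      τ (IsLocalRing.residue A ⟨algebraMap K L c, hc⟩) =
        IsLocalRing.residue A ⟨algebraMap K L c, hc⟩) :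
    ∃ σ : L ≃ₐ[K] L, σ • A = A ∧ ∀ (a : L) (ha : a ∈ A) (ha' : σ a ∈ A),
      IsLocalRing.residue A ⟨σ a, ha'⟩ = τ (IsLocalRing.residue A ⟨a, ha⟩) := by
  have hRA := val_base_le_one S A hSA
  have hint : ∀ b : L, IsIntegral S b → b ∈ A := fun b hb =>
    (A.valuation_le_one_iff b).1 (val_le_one_of_isIntegral A.valuation hRA hb)
  have hQprime : (primeBelow A.valuation hRA).IsPrime := primeBelow_isPrime A.valuation hRA
  have hPmax : ((primeBelow A.valuation hRA).under S).IsMaximal :=
    under_primeBelow_isMaximal S A hSA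
  have hQmax : (primeBelow A.valuation hRA).IsMaximal :=
    Ideal.isMaximal_of_isIntegral_of_isMaximal_comap (primeBelow A.valuation hRA) hPmax
  have := galAct_isInvariant (L := L) S (mem_base_of_isIntegral S A hSA)
  -- the residue map on the integral closure
  let ρ : integralClosure S L →+* IsLocalRing.ResidueField A :=
    (IsLocalRing.residue A).comp
      ((integralClosure S L).val.toRingHom.codRestrict A (fun b => hint b.1 b.2))
  have hρ : ∀ b : integralClosure S L,
      ρ b = IsLocalRing.residue A ⟨b.1, hint b.1 b.2⟩ := fun b => rfl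
  have hρ0 : ∀ b : integralClosure S L, ρ b = 0 ↔ b ∈ primeBelow A.valuation hRA := fun b => by
    rw [hρ, IsLocalRing.residue_eq_zero_iff, A.valuation_lt_one_iff]
    exact Iff.rfl
  -- every residue is a quotient of residues of integral elements
  have hquot : ∀ (a : L) (ha : a ∈ A), ∃ s c : integralClosure S L,
      ρ s ≠ 0 ∧ (c : L) = (s : L) * a ∧ ρ s * IsLocalRing.residue A ⟨a, ha⟩ = ρ c := by
    intro a ha
    obtain ⟨s, hs, hvs, hsa⟩ := exists_unit_mul_isIntegral_of_mem S A hSA ha
    refine ⟨⟨s, hs⟩, ⟨s * a, hsa⟩, ?_, rfl, ?_⟩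
    · intro h0
      have := (hρ0 ⟨s, hs⟩).1 h0
      rw [mem_primeBelow] at this
      rw [hvs] at this
      exact lt_irrefl _ this
    · rw [hρ, hρ, ← map_mul]
      rfl
  let ι : integralClosure S L ⧸ primeBelow A.valuation hRA →+* IsLocalRing.ResidueField A :=
    Ideal.Quotient.lift (primeBelow A.valuation hRA) ρ (fun c hc => (hρ0 c).2 hc)
  have hι : ∀ c : integralClosure S L, ι (Ideal.Quotient.mk _ c) = ρ c :=
    fun c => Ideal.Quotient.lift_mk _ _ _
  have hιinj : Function.Injective ι := by
    intro y z hyz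
    obtain ⟨c, rfl⟩ := Ideal.Quotient.mk_surjective y
    obtain ⟨d, rfl⟩ := Ideal.Quotient.mk_surjective z
    rw [hι, hι] at hyz
    rw [Ideal.Quotient.eq, ← hρ0, map_sub, hyz, sub_self]
  have hιsurj : Function.Surjective ι := by
    intro y
    obtain ⟨⟨b, hb⟩, rfl⟩ := IsLocalRing.residue_surjective y
    obtain ⟨s, c, hs0, -, hsc⟩ := hquot b hb
    have hs1 : (Ideal.Quotient.mk (primeBelow A.valuation hRA) s) ≠ 0 := by
      intro h0
      apply hs0
      rw [← hι, h0, map_zero]
    obtain ⟨t, ht⟩ := Ideal.Quotient.exists_inv hs1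
    refine ⟨Ideal.Quotient.mk _ c * t, ?_⟩
    have h1 : ρ s * ι t = 1 := by
      rw [← hι, ← map_mul, ht, map_one]
    rw [map_mul, hι, ← hsc, mul_comm (ρ s), mul_assoc, h1, mul_one]
  let e : (integralClosure S L ⧸ primeBelow A.valuation hRA) ≃+* IsLocalRing.ResidueField A :=
    RingEquiv.ofBijective ι ⟨hιinj, hιsurj⟩
  have he : ∀ c : integralClosure S L, e (Ideal.Quotient.mk _ c) = ρ c := hι
  -- the automorphism of `C / Q` defined by `τ`
  let τ' : (integralClosure S L ⧸ primeBelow A.valuation hRA)
      ≃ₐ[S ⧸ (primeBelow A.valuation hRA).under S]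
      (integralClosure S L ⧸ primeBelow A.valuation hRA) :=
    AlgEquiv.ofRingEquiv (f := (e.trans τ).trans e.symm) (by
      intro x
      obtain ⟨a, rfl⟩ := Ideal.Quotient.mk_surjective x
      rw [Ideal.Quotient.algebraMap_mk_of_liesOver]
      show e.symm (τ (e (Ideal.Quotient.mk _ (algebraMap S (integralClosure S L) a)))) = _
      rw [RingEquiv.symm_apply_eq, he]
      exact hτ (a : K) ((hSA _).1 a.2))
  have hτ' : ∀ c : integralClosure S L, e (τ' (Ideal.Quotient.mk _ c)) = τ (ρ c) := by
    intro c
    show e (e.symm (τ (e (Ideal.Quotient.mk _ c)))) = _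
    rw [RingEquiv.apply_symm_apply, he]
  obtain ⟨⟨σ, hσ⟩, hστ⟩ := Ideal.Quotient.stabilizerHom_surjective_of_profinite
    (G := L ≃ₐ[K] L) ((primeBelow A.valuation hRA).under S) (primeBelow A.valuation hRA) τ'
  have hσQ : σ • primeBelow A.valuation hRA = primeBelow A.valuation hRA := hσ
  have hstab : σ • A = A := smul_eq_of_smul_primeBelow_eq S A A hSA hSA σ hσQ
  -- the residue action on the integral closure
  have hres : ∀ c : integralClosure S L, ρ (σ • c) = τ (ρ c) := by
    intro c
    rw [← hτ', ← hστ, Ideal.Quotient.stabilizerHom_apply, he]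
    rfl
  refine ⟨σ, hstab, fun a ha ha' => ?_⟩
  obtain ⟨s, c, hs0, hcs, hsc⟩ := hquot a ha
  have hσs0 : ρ (σ • s) ≠ 0 := by
    rw [hres]
    exact fun h0 => hs0 ((map_eq_zero_iff τ τ.injective).1 h0)
  have h1 : ρ (σ • s) * IsLocalRing.residue A ⟨σ a, ha'⟩ = ρ (σ • c) := by
    rw [hρ, hρ, ← map_mul]
    congr 1
    apply Subtype.ext
    show σ (s : L) * σ a = σ (c : L)
    rw [hcs, map_mul]
  have h2 : ρ (σ • s) * τ (IsLocalRing.residue A ⟨a, ha⟩) = ρ (σ • c) := by
    rw [hres, hres, ← hsc, map_mul]
  exact mul_left_cancel₀ hσs0 (h1.trans h2.symm)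

end Galois

end Fermat.Agent.S27P.Val.Conj

namespace Fermat.Agent.S27P.Val

open scoped Pointwise

variable {K L : Type*} [Field K] [Field L] [Algebra K L]

/-- **Conjugacy of the extensions of a valuation ring.**  Let `L/K` be an algebraic Galois
extension and `A`, `B` valuation subrings of `L` with `A ∩ K = B ∩ K`.  Then `B = σ • A` for
some `σ ∈ Gal(L/K)`. -/
theorem exists_smul_eq_of_comap_eq [IsGalois K L] (A B : ValuationSubring L)
    (h : A.comap (algebraMap K L) = B.comap (algebraMap K L)) :
    ∃ σ : L ≃ₐ[K] L, σ • A = B :=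
  Conj.exists_smul_eq_core (Conj.baseRing K A) A B (fun _ => Iff.rfl) (fun c => by
    show c ∈ A.comap (algebraMap K L) ↔ _
    rw [h]
    exact Iff.rfl)

/-- **The decomposition group maps onto the automorphisms of the residue field.**  Let `L/K` be
an algebraic Galois extension and `A` a valuation subring of `L`.  Every automorphism `τ` of
the residue field of `A` fixing the residues of the elements of `A ∩ K` is induced by some
`σ ∈ Gal(L/K)` with `σ • A = A`. -/
theorem exists_residue_lift [IsGalois K L] (A : ValuationSubring L)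
    (τ : IsLocalRing.ResidueField A ≃+* IsLocalRing.ResidueField A)
    (hτ : ∀ (c : K) (hc : algebraMap K L c ∈ A),
      τ (IsLocalRing.residue A ⟨algebraMap K L c, hc⟩) =
        IsLocalRing.residue A ⟨algebraMap K L c, hc⟩) :
    ∃ σ : L ≃ₐ[K] L, σ • A = A ∧ ∀ (a : L) (ha : a ∈ A) (ha' : σ a ∈ A),
      IsLocalRing.residue A ⟨σ a, ha'⟩ = τ (IsLocalRing.residue A ⟨a, ha⟩) :=
  Conj.exists_residue_lift_core (Conj.baseRing K A) A (fun _ => Iff.rfl) τ hτ

end Fermat.Agent.S27P.Val
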