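/-
S27 / (VAL), brick (GAUSS-EX), corollaries (helper33) — the generic specialisation in the
vocabularies of `Val/Gauss.lean` (helper49) and with residue fields.

* `traceHom A V hA : A →+* V` for a valuation subring `V` of `Ω` with trace `A` on `K`; it is a
  local homomorphism; `resFieldHom A V hA : ResidueField A →+* ResidueField V`.
* `algebraicIndependent_red_of_resIndep` : **`Gauss.ResIndep` gives algebraic independence of the
  reductions**, for any model `red : W → k`, `red₀ : W ∩ K → k₀` of the residue fields (the
  converse of `Gauss.resIndep_of_algebraicIndependent`).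
* `exists_valuationSubring_resIndep` : (GAUSS-EX) with `V.comap (algebraMap K Ω) = A` and
  `Gauss.ResIndep K V t`.
* `exists_valuationSubring_gauss_residue` : (GAUSS-EX) with the residues of the `t i` algebraically
  independent over `ResidueField A` inside `ResidueField V`.
-/
import Fermat.Agent.S27P.Val.GaussExt
import Fermat.Agent.S27P.Val.Gauss
import Fermat.Agent.S27P.Val.IntClosure

set_option autoImplicit false

namespace Fermat.Agent.S27P.Val.GaussExtCor

open Fermat.Agent.S27P.Val

variable {K Ω : Type*} [Field K] [Field Ω] [Algebra K Ω]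

/-! ### The trace homomorphism and the residue fields -/

/-- The inclusion of the trace `A` of `V` on `K` into `V`. -/
def traceHom (A : ValuationSubring K) (V : ValuationSubring Ω)
    (hA : ∀ a : K, algebraMap K Ω a ∈ V ↔ a ∈ A) : A →+* V where
  toFun a := ⟨algebraMap K Ω (a : K), (hA a).2 a.2⟩
  map_one' := Subtype.ext (map_one _)
  map_mul' _ _ := Subtype.ext (map_mul _ _ _)
  map_zero' := Subtype.ext (map_zero _)
  map_add' _ _ := Subtype.ext (map_add _ _ _)

theorem traceHom_coe (A : ValuationSubring K) (V : ValuationSubring Ω)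
    (hA : ∀ a : K, algebraMap K Ω a ∈ V ↔ a ∈ A) (a : A) :
    ((traceHom A V hA a : V) : Ω) = algebraMap K Ω (a : K) := rfl

theorem comap_eq_of_trace (A : ValuationSubring K) (V : ValuationSubring Ω)
    (hA : ∀ a : K, algebraMap K Ω a ∈ V ↔ a ∈ A) : V.comap (algebraMap K Ω) = A := by
  ext a
  rw [ValuationSubring.mem_comap]
  exact hA a

/-- Non-units of the trace are exactly the elements of `K` which are non-units of `V`. -/
theorem mem_nonunits_trace_iff (A : ValuationSubring K) (V : ValuationSubring Ω)
    (hA : ∀ a : K, algebraMap K Ω a ∈ V ↔ a ∈ A) (a : K) :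
    a ∈ A.nonunits ↔ algebraMap K Ω a ∈ V.nonunits := by
  have h := comap_eq_of_trace A V hA
  subst h
  exact mem_nonunits_res_iff

instance isLocalHom_traceHom (A : ValuationSubring K) (V : ValuationSubring Ω)
    (hA : ∀ a : K, algebraMap K Ω a ∈ V ↔ a ∈ A) : IsLocalHom (traceHom A V hA) := by
  refine ⟨fun a ha => ?_⟩
  by_contra hcon
  have h1 : a ∈ IsLocalRing.maximalIdeal A := hcon
  rw [← ValuationSubring.coe_mem_nonunits_iff, mem_nonunits_trace_iff A V hA] at h1
  have h2 : traceHom A V hA a ∈ IsLocalRing.maximalIdeal V := by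
    rw [← ValuationSubring.coe_mem_nonunits_iff]
    exact h1
  exact h2 ha

/-- The induced map on residue fields. -/
noncomputable def resFieldHom (A : ValuationSubring K) (V : ValuationSubring Ω)
    (hA : ∀ a : K, algebraMap K Ω a ∈ V ↔ a ∈ A) :
    IsLocalRing.ResidueField A →+* IsLocalRing.ResidueField V :=
  IsLocalRing.ResidueField.map (traceHom A V hA)

theorem resFieldHom_residue (A : ValuationSubring K) (V : ValuationSubring Ω)
    (hA : ∀ a : K, algebraMap K Ω a ∈ V ↔ a ∈ A) (a : A) :
    resFieldHom A V hA (IsLocalRing.residue A a) = IsLocalRing.residue V (traceHom A V hA a) :=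
  IsLocalRing.ResidueField.map_residue _ a

/-! ### `ResIndep` gives algebraic independence of the reductions -/

/-- **Algebraic independence of the reductions** from `Gauss.ResIndep`, for an arbitrary model of
the residue fields: `red : W → k` whose kernel consists of non-units, `red₀ : W ∩ K → k₀`
surjective and killing the non-units, compatible.  (The converse of
`Gauss.resIndep_of_algebraicIndependent`.) -/
theorem algebraicIndependent_red_of_resIndep {ι : Type*} {k₀ k : Type*} [Field k₀] [Field k]
    [Algebra k₀ k] (W : ValuationSubring Ω) (red : W →+* k)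
    (hred : ∀ w : W, red w = 0 → (w : Ω) ∈ W.nonunits)
    (red₀ : W.comap (algebraMap K Ω) →+* k₀) (hsurj₀ : Function.Surjective red₀)
    (hred₀ : ∀ a : W.comap (algebraMap K Ω),
      algebraMap K Ω (a : K) ∈ W.nonunits → red₀ a = 0)
    (hcomp : ∀ a : W.comap (algebraMap K Ω),
      red ⟨algebraMap K Ω (a : K), a.2⟩ = algebraMap k₀ k (red₀ a))
    (x : ι → Ω) (hx : ∀ i, x i ∈ W) (hW : Gauss.ResIndep K W x) :
    AlgebraicIndependent k₀ fun i => red ⟨x i, hx i⟩ := by
  classical
  rw [algebraicIndependent_iff]
  intro P hP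
  obtain ⟨Q, rfl⟩ := MvPolynomial.map_surjective red₀ hsurj₀ P
  -- the value of the lift, as an element of `W`
  set w : W := MvPolynomial.eval₂ (resHom K W) (fun i => (⟨x i, hx i⟩ : W)) Q with hw
  have hwval : (w : Ω) = MvPolynomial.aeval x
      (MvPolynomial.map (W.comap (algebraMap K Ω)).subtype Q) := by
    have h1 : (w : Ω) = W.subtype w := rfl
    rw [h1, hw, MvPolynomial.eval₂_comp_left, MvPolynomial.aeval_def, MvPolynomial.eval₂_map]
    rfl
  have hredw : red w = MvPolynomial.aeval (fun i => red ⟨x i, hx i⟩) (MvPolynomial.map red₀ Q) := by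
    rw [hw, MvPolynomial.eval₂_comp_left, MvPolynomial.aeval_def, MvPolynomial.eval₂_map]
    have h2 : red.comp (resHom K W) = (algebraMap k₀ k).comp red₀ := by
      ext a
      exact hcomp a
    rw [h2]
    rfl
  have hnon : (w : Ω) ∈ W.nonunits := hred w (by rw [hredw]; exact hP)
  rw [hwval] at hnon
  have hall := hW (MvPolynomial.map (W.comap (algebraMap K Ω)).subtype Q)
    (fun m => by
      rw [MvPolynomial.coeff_map]
      exact (Q.coeff m).2) hnon
  ext m
  rw [MvPolynomial.coeff_map, MvPolynomial.coeff_zero]
  refine hred₀ _ ?_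
  have h3 := hall m
  rw [MvPolynomial.coeff_map] at h3
  exact h3

/-! ### (GAUSS-EX) repackaged -/

/-- **(GAUSS-EX)** in the vocabulary of `Val/Gauss.lean`. -/
theorem exists_valuationSubring_resIndep (A : ValuationSubring K) {ι : Type*} (t : ι → Ω)
    (ht : AlgebraicIndependent K t) :
    ∃ V : ValuationSubring Ω, V.comap (algebraMap K Ω) = A ∧ (∀ i, t i ∈ V) ∧
      Gauss.ResIndep K V t := by
  obtain ⟨V, h1, h2, h3⟩ := GaussExt.exists_valuationSubring_gauss A t ht
  refine ⟨V, comap_eq_of_trace A V h1, h2, fun P hP hnon m => ?_⟩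
  exact (mem_nonunits_trace_iff A V h1 _).1 (h3 P (fun m => (h1 _).1 (hP m)) hnon m)

/-- `Gauss.ResIndep` for a valuation subring with trace `A`: the residues of the `t i` are
algebraically independent over `ResidueField A` in `ResidueField V`. -/
theorem algebraicIndependent_residue (A : ValuationSubring K) (V : ValuationSubring Ω)
    (hA : ∀ a : K, algebraMap K Ω a ∈ V ↔ a ∈ A) {ι : Type*} (t : ι → Ω) (ht : ∀ i, t i ∈ V)
    (hW : Gauss.ResIndep K V t) :
    letI := (resFieldHom A V hA).toAlgebra
    AlgebraicIndependent (IsLocalRing.ResidueField A)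
      fun i => IsLocalRing.residue V ⟨t i, ht i⟩ := by
  have h := comap_eq_of_trace A V hA
  subst h
  let _ : Algebra (IsLocalRing.ResidueField (V.comap (algebraMap K Ω)))
      (IsLocalRing.ResidueField V) := (resFieldHom _ V hA).toAlgebra
  refine algebraicIndependent_red_of_resIndep (K := K) V (IsLocalRing.residue V) (fun w hw => ?_)
    (IsLocalRing.residue _) IsLocalRing.residue_surjective (fun a ha => ?_) (fun a => ?_) t ht hW
  · rw [IsLocalRing.residue_eq_zero_iff] at hw
    exact ValuationSubring.coe_mem_nonunits_iff.2 hw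
  · rw [IsLocalRing.residue_eq_zero_iff, ← ValuationSubring.coe_mem_nonunits_iff]
    exact mem_nonunits_res_iff.2 ha
  · exact (resFieldHom_residue _ V hA a).symm

/-- **(GAUSS-EX) with residue fields**: a valuation subring `V` of `Ω` with trace `A` on `K`,
containing the `t i`, whose residues are algebraically independent over the residue field of
`A`. -/
theorem exists_valuationSubring_gauss_residue (A : ValuationSubring K) {ι : Type*} (t : ι → Ω)
    (ht : AlgebraicIndependent K t) :
    ∃ (V : ValuationSubring Ω) (hA : ∀ a : K, algebraMap K Ω a ∈ V ↔ a ∈ A)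
      (hx : ∀ i, t i ∈ V), Gauss.ResIndep K V t ∧
      (letI := (resFieldHom A V hA).toAlgebra
       AlgebraicIndependent (IsLocalRing.ResidueField A)
         fun i => IsLocalRing.residue V ⟨t i, hx i⟩) := by
  obtain ⟨V, h1, h2, h3⟩ := GaussExt.exists_valuationSubring_gauss A t ht
  have hW : Gauss.ResIndep K V t := fun P hP hnon m =>
    (mem_nonunits_trace_iff A V h1 _).1 (h3 P (fun m => (h1 _).1 (hP m)) hnon m)
  exact ⟨V, h1, h2, hW, algebraicIndependent_residue A V h1 t h2 hW⟩

end Fermat.Agent.S27P.Val.GaussExtCor
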