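import Mathlib
import Fermat.Agent.S27P.BC.TensorDomain
import Fermat.Agent.S27P.Val.GaussFam

/-!
# (JI) Joint residual independence of a product family

`k` algebraically closed, `C` a `k`-domain integral over `k[x̄]` (the special fibre `B_k`),
`φ_l : C →ₐ[k] E` (`l < g`) homomorphisms into a field with the `φ_l x̄` algebraically
independent over `k` (the reductions of the points of a generic tuple).  Then for every
`k`-independent family `β` of `C` the products `∏_l φ_l (β (j l))`, `j : Fin g → J`, are
`k`-linearly independent (`linearIndependent_prod`).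

Consequently, if `b l j ∈ V` are elements of a valuation ring reducing to `φ_l (β_j)`, the family
`j ↦ ∏_l b l (j l)` is residually independent (`resIndepFam_prod`, in the sense of
`GaussFam.ResIndepFam`).

Proof: for a `k`-subalgebra `S ⊆ E` over which `φ x̄` is transcendental, `S ⊗_k C` is a domain
(`k` algebraically closed), integral over `S[1 ⊗ x̄]`, and the kernel of `S ⊗ C → E` meets
`S[1 ⊗ x̄]` trivially; induction on `g` with `S` the integral closure of `k[φ_0 x̄, …]`.
-/

set_option autoImplicit false

namespace Fermat.Agent.S27P.Val.JointIndep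

open TensorProduct Fermat.Agent.S27P.BC.TensorDomain Fermat.Agent.S27P.Val.GaussFam

/-- Integrality is transported along an algebra homomorphism, relative to a subalgebra containing
the image of the generator. -/
theorem isIntegral_map_adjoin {k C E : Type*} [CommRing k] [CommRing C] [CommRing E] [Algebra k C]
    [Algebra k E] (f : C →ₐ[k] E) (xb : C) (T : Subalgebra k E) (hT : f xb ∈ T) {c : C}
    (hc : IsIntegral (Algebra.adjoin k {xb}) c) : IsIntegral T (f c) := by
  have hle : Algebra.adjoin k {xb} ≤ T.comap f :=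
    Algebra.adjoin_le (by
      intro y hy
      rw [Set.mem_singleton_iff] at hy
      rw [hy]
      exact hT)
  let ψ₀ : Algebra.adjoin k {xb} →+* T :=
    (f.toRingHom.comp (algebraMap (Algebra.adjoin k {xb}) C)).codRestrict T
      (fun r => hle r.2)
  exact IsIntegral.map_of_comp_eq ψ₀ f.toRingHom (RingHom.ext fun r => rfl) hc

section OneStep

variable {k C E : Type*} [Field k] [CommRing C] [Algebra k C] [Field E] [Algebra k E]

/-- the multiplication map `S ⊗ C → E`, `s ⊗ c ↦ s · φ c` -/
noncomputable def mulMap (S : Subalgebra k E) (φ : C →ₐ[k] E) : S ⊗[k] C →ₐ[k] E :=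
  Algebra.TensorProduct.lift S.val φ (fun _ _ => Commute.all _ _)

theorem mulMap_tmul (S : Subalgebra k E) (φ : C →ₐ[k] E) (a : S) (c : C) :
    mulMap S φ (a ⊗ₜ[k] c) = (a : E) * φ c := by
  rw [mulMap, Algebra.TensorProduct.lift_tmul]
  rfl

/-- `mulMap` is compatible with polynomial evaluation over `S`. -/
theorem mulMap_aeval (S : Subalgebra k E) (φ : C →ₐ[k] E) (xb : C) (p : Polynomial S) :
    mulMap S φ (Polynomial.aeval ((1 : S) ⊗ₜ[k] xb) p) = Polynomial.aeval (φ xb) p := by
  have hcomp : (mulMap S φ).toRingHom.comp (algebraMap S (S ⊗[k] C)) = algebraMap S E := by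
    refine RingHom.ext fun a => ?_
    rw [RingHom.comp_apply, Algebra.TensorProduct.algebraMap_apply]
    change mulMap S φ (a ⊗ₜ[k] (1 : C)) = _
    rw [mulMap_tmul, map_one, mul_one]
    rfl
  rw [Polynomial.aeval_def, Polynomial.aeval_def]
  have := Polynomial.hom_eval₂ p (algebraMap S (S ⊗[k] C)) (mulMap S φ).toRingHom
    ((1 : S) ⊗ₜ[k] xb)
  rw [hcomp] at this
  change (mulMap S φ).toRingHom _ = _
  rw [this]
  congr 1
  change mulMap S φ ((1 : S) ⊗ₜ[k] xb) = _
  rw [mulMap_tmul]
  simp

variable [IsAlgClosed k] [IsDomain C]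

/-- **One step.**  `S ⊆ E` a `k`-subalgebra, `φ : C → E` with `φ x̄` transcendental over `S`:
the multiplication map `S ⊗ C → E` is injective. -/
theorem mulMap_injective (xb : C) (hint : ∀ c : C, IsIntegral (Algebra.adjoin k {xb}) c)
    (S : Subalgebra k E) (φ : C →ₐ[k] E) (htr : Transcendental S (φ xb)) :
    Function.Injective (mulMap S φ) := by
  have hdom : IsDomain (S ⊗[k] C) := isDomain_tensorProduct
  -- the subalgebra `S[1 ⊗ x̄]`
  set R : Subalgebra k (S ⊗[k] C) :=
    (Algebra.adjoin S {(1 : S) ⊗ₜ[k] xb}).restrictScalars k with hR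
  have hmemR : ∀ d : S ⊗[k] C, d ∈ R ↔ d ∈ Algebra.adjoin S {(1 : S) ⊗ₜ[k] xb} := fun d =>
    Iff.rfl
  -- integrality over `R`
  have hint1 : ∀ c : C, IsIntegral R ((1 : S) ⊗ₜ[k] c) := fun c =>
    isIntegral_map_adjoin (Algebra.TensorProduct.includeRight : C →ₐ[k] S ⊗[k] C) xb R
      ((hmemR _).2 (Algebra.subset_adjoin (Set.mem_singleton _))) (hint c)
  have hintD : ∀ d : S ⊗[k] C, IsIntegral R d := by
    intro d
    induction d using TensorProduct.induction_on with
    | zero => exact isIntegral_zero
    | tmul a c =>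
      have h1 : a ⊗ₜ[k] c = algebraMap S (S ⊗[k] C) a * ((1 : S) ⊗ₜ[k] c) := by
        rw [Algebra.TensorProduct.algebraMap_apply, Algebra.TensorProduct.tmul_mul_tmul,
          mul_one, one_mul]
        rfl
      rw [h1]
      have h2 : algebraMap S (S ⊗[k] C) a ∈ R :=
        (hmemR _).2 (Subalgebra.algebraMap_mem _ a)
      have h3 : IsIntegral R (algebraMap S (S ⊗[k] C) a) :=
        (isIntegral_algebraMap (R := R) (x := ⟨_, h2⟩))
      exact h3.mul (hint1 c)
    | add x y hx hy => exact hx.add hy
  have hI : Algebra.IsIntegral R (S ⊗[k] C) := ⟨hintD⟩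
  -- the kernel meets `R` trivially
  have hcomap : (RingHom.ker (mulMap S φ).toRingHom).comap (algebraMap R (S ⊗[k] C)) = ⊥ := by
    rw [eq_bot_iff]
    intro r hr
    rw [Ideal.mem_comap, RingHom.mem_ker] at hr
    have hr' : (r : S ⊗[k] C) ∈ Algebra.adjoin S {(1 : S) ⊗ₜ[k] xb} := (hmemR _).1 r.2
    rw [Algebra.adjoin_singleton_eq_range_aeval] at hr'
    obtain ⟨p, hp⟩ := hr'
    have h2 : Polynomial.aeval (φ xb) p = 0 := by
      rw [← mulMap_aeval]
      have : (algebraMap R (S ⊗[k] C)) r = Polynomial.aeval ((1 : S) ⊗ₜ[k] xb) p := hp.symm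
      rw [← this]
      exact hr
    have hp0 : p = 0 := (transcendental_iff.1 htr) p h2
    rw [Ideal.mem_bot]
    apply Subtype.ext
    rw [← hp, hp0, map_zero]
    rfl
  have hntD : Nontrivial (S ⊗[k] C) := hdom.toNontrivial
  have hnt : Nontrivial R :=
    ⟨⟨0, 1, fun h => zero_ne_one (α := S ⊗[k] C) (congrArg Subtype.val h)⟩⟩
  have hker : RingHom.ker (mulMap S φ).toRingHom = ⊥ := by
    rw [eq_bot_iff]
    intro d hd
    by_contra hd0
    have hd0' : d ≠ 0 := fun h => hd0 (by rw [h]; exact Ideal.zero_mem _)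
    exact Ideal.comap_ne_bot_of_integral_mem hd0' hd (hintD d) hcomap
  have hinj := (RingHom.injective_iff_ker_eq_bot (mulMap S φ).toRingHom).2 hker
  exact fun a b hab => hinj hab

/-- **One step, families.**  If `(s i)` is `k`-independent in `S` and `(β j)` is `k`-independent
in `C`, then `(s i · φ (β j))` is `k`-independent in `E`. -/
theorem linearIndependent_mul_of_transcendental (xb : C)
    (hint : ∀ c : C, IsIntegral (Algebra.adjoin k {xb}) c)
    (S : Subalgebra k E) (φ : C →ₐ[k] E) (htr : Transcendental S (φ xb))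
    {I J : Type*} (s : I → E) (hs : ∀ i, s i ∈ S) (hsli : LinearIndependent k s)
    (β : J → C) (hβ : LinearIndependent k β) :
    LinearIndependent k fun p : I × J => s p.1 * φ (β p.2) := by
  have hinj := mulMap_injective xb hint S φ htr
  -- independence in the tensor product
  have hs' : LinearIndependent k (fun i => (⟨s i, hs i⟩ : S)) := by
    have : LinearIndependent k (S.val.toLinearMap ∘ fun i => (⟨s i, hs i⟩ : S)) := hsli
    exact LinearIndependent.of_comp S.val.toLinearMap this
  have h2 : LinearIndependent k fun p : I × J => (⟨s p.1, hs p.1⟩ : S) ⊗ₜ[k] β p.2 :=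
    hs'.tmul_of_isDomain hβ
  have h3 := h2.map' (mulMap S φ).toLinearMap (LinearMap.ker_eq_bot.2 hinj)
  have h4 : ((mulMap S φ).toLinearMap ∘ fun p : I × J =>
      (⟨s p.1, hs p.1⟩ : S) ⊗ₜ[k] β p.2) = fun p : I × J => s p.1 * φ (β p.2) := by
    funext p
    rw [Function.comp_apply]
    exact mulMap_tmul S φ _ _
  rw [h4] at h3
  exact h3

end OneStep

section Induction

variable {k C E : Type*} [Field k] [IsAlgClosed k] [CommRing C] [IsDomain C] [Algebra k C]
  [Field E] [Algebra k E]

/-- **(JI), residue level.**  The products `∏_l φ_l (β (j l))` are `k`-linearly independent. -/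
theorem linearIndependent_prod (xb : C) (hint : ∀ c : C, IsIntegral (Algebra.adjoin k {xb}) c)
    {J : Type*} (β : J → C) (hβ : LinearIndependent k β) (g : ℕ) (φ : Fin g → C →ₐ[k] E)
    (hφ : AlgebraicIndependent k fun l => φ l xb) :
    LinearIndependent k fun j : Fin g → J => ∏ l, φ l (β (j l)) := by
  induction g with
  | zero =>
    refine LinearIndependent.of_subsingleton (fun l => Fin.elim0 l) ?_
    simp
  | succ g ih =>
    -- the first `g` homomorphisms
    have hφ' : AlgebraicIndependent k fun l : Fin g => φ (Fin.castSucc l) xb :=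
      hφ.comp Fin.castSucc (Fin.castSucc_injective g)
    have ih' := ih (fun l => φ (Fin.castSucc l)) hφ'
    -- the subalgebra of elements integral over `k[t_0, …, t_(g-1)]`
    set T₀ : Subalgebra k E := Algebra.adjoin k (Set.range fun l : Fin g => φ (Fin.castSucc l) xb)
      with hT₀
    set S : Subalgebra k E := (integralClosure T₀ E).restrictScalars k with hS
    have hmemS : ∀ y : E, y ∈ S ↔ IsIntegral T₀ y := fun y => Iff.rfl
    -- `φ_l c ∈ S` for `l < g`
    have hφS : ∀ (l : Fin g) (c : C), φ (Fin.castSucc l) c ∈ S := fun l c =>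
      (hmemS _).2 (isIntegral_map_adjoin (φ (Fin.castSucc l)) xb T₀
        (Algebra.subset_adjoin ⟨l, rfl⟩) (hint c))
    -- transcendence of the last coordinate over `S`
    have htr0 : Transcendental T₀ (φ (Fin.last g) xb) := by
      have h := hφ.transcendental_adjoin (s := Set.range Fin.castSucc) (i := Fin.last g)
        (by
          rintro ⟨l, hl⟩
          exact (Fin.castSucc_lt_last l).ne hl)
      have himg : (fun l => φ l xb) '' Set.range (Fin.castSucc : Fin g → Fin (g + 1)) =
          Set.range fun l : Fin g => φ (Fin.castSucc l) xb := by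
        rw [← Set.range_comp]
        rfl
      rw [himg] at h
      exact h
    have htr : Transcendental S (φ (Fin.last g) xb) := htr0.integralClosure
    have hstep := linearIndependent_mul_of_transcendental xb hint S (φ (Fin.last g)) htr
      (fun j' : Fin g → J => ∏ l, φ (Fin.castSucc l) (β (j' l)))
      (fun j' => S.prod_mem fun l _ => hφS l _) ih' β hβ
    -- reindex
    have hinj : Function.Injective
        (fun j : Fin (g + 1) → J => ((fun l : Fin g => j (Fin.castSucc l)), j (Fin.last g))) := by
      intro j j' h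
      have h1 := congrArg Prod.fst h
      have h2 := congrArg Prod.snd h
      funext l
      refine Fin.lastCases h2 (fun l' => congrFun h1 l') l
    have hcomp := hstep.comp _ hinj
    have heq : ((fun p : (Fin g → J) × J =>
        (∏ l, φ (Fin.castSucc l) (β (p.1 l))) * φ (Fin.last g) (β p.2)) ∘
        fun j : Fin (g + 1) → J => ((fun l : Fin g => j (Fin.castSucc l)), j (Fin.last g))) =
        fun j : Fin (g + 1) → J => ∏ l, φ l (β (j l)) := by
      funext j
      rw [Function.comp_apply, Fin.prod_univ_castSucc]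
    rw [heq] at hcomp
    exact hcomp

/-- **(JI), valuation level** = the hypothesis `hind` of `exists_algEquiv_adjust`: if
`b l j ∈ V` reduces to `φ_l (β̄_j)`, the family `j ↦ ∏_l b l (j l)` is residually independent. -/
theorem resIndepFam_prod {K Ω : Type*} [Field K] [Field Ω] [Algebra K Ω] (V : ValuationSubring Ω)
    {kV : Type*} [Field kV] [Algebra k kV] (red : V →+* kV)
    (hred : ∀ w : V, (w : Ω) ∈ V.nonunits → red w = 0) (red₀ : V.comap (algebraMap K Ω) →+* k)
    (hred₀ : ∀ a : V.comap (algebraMap K Ω), red₀ a = 0 → algebraMap K Ω (a : K) ∈ V.nonunits)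
    (hcomp : ∀ a : V.comap (algebraMap K Ω),
      red ⟨algebraMap K Ω (a : K), a.2⟩ = algebraMap k kV (red₀ a))
    (xb : C) (hint : ∀ c : C, IsIntegral (Algebra.adjoin k {xb}) c) {J : Type*} (βb : J → C)
    (hβ : LinearIndependent k βb) (g : ℕ) (φ : Fin g → C →ₐ[k] kV)
    (hφ : AlgebraicIndependent k fun l => φ l xb) (b : Fin g → J → Ω) (hb : ∀ l j, b l j ∈ V)
    (hbφ : ∀ l j, red ⟨b l j, hb l j⟩ = φ l (βb j)) :
    ResIndepFam (K := K) V fun j : Fin g → J => ∏ l, b l (j l) := by
  have he : ∀ j : Fin g → J, (∏ l, b l (j l)) ∈ V := fun j => prod_mem fun l _ => hb l (j l)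
  refine resIndepFam_of_linearIndependent V red hred red₀ hred₀ hcomp _ he ?_
  have hli := linearIndependent_prod xb hint βb hβ g φ hφ
  have heq : (fun j : Fin g → J => red ⟨∏ l, b l (j l), he j⟩) =
      fun j : Fin g → J => ∏ l, φ l (βb (j l)) := by
    funext j
    have h1 : (⟨∏ l, b l (j l), he j⟩ : V) = ∏ l, (⟨b l (j l), hb l (j l)⟩ : V) := by
      apply Subtype.ext
      rw [SubmonoidClass.coe_finsetProd]
    rw [h1, map_prod]
    exact Finset.prod_congr rfl fun l _ => hbφ l (j l)
  rw [heq]
  exact hli

end Induction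

end Fermat.Agent.S27P.Val.JointIndep
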