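import Mathlib
import Fermat.Agent.S27P.Val.Gauss

/-!
# `f = n` forces `e = 1`: the value group does not grow

`M/M₀` finite of degree `n`, `O` a valuation subring of `M`.  If `n` elements of `O` have residues
linearly independent over the residue field of `O ∩ M₀` (stated without residue fields, as
`ResLinIndep`), then every nonzero element of `M` is an element of `M₀` times a unit of `O`.
Combined with the Gauss formula for `M₀ = K(x)`: every nonzero element of `M` is a constant of
`K` times a unit of `O` (the `scale` field of `Lib.Red.OneStep.IsRed`).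

Mathlib only; arbitrary rank; universe-polymorphic.
-/

set_option autoImplicit false

namespace Fermat.Agent.S27P.Val.Scale

open Fermat.Agent.S27P.Val.Gauss

variable {M₀ M : Type*} [Field M₀] [Field M] [Algebra M₀ M] {ι : Type*} [Fintype ι]

variable (M₀) in
/-- The residues of the `b i` are linearly independent over the residue field of the trace of
`O` on `M₀`, stated without residue fields. -/
def ResLinIndep (O : ValuationSubring M) (b : ι → M) : Prop :=
  ∀ c : ι → M₀, (∀ i, algebraMap M₀ M (c i) ∈ O) →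
    ∑ i, c i • b i ∈ O.nonunits → ∀ i, algebraMap M₀ M (c i) ∈ O.nonunits

/-- A nonzero family of coefficients has a coefficient of maximal valuation. -/
theorem exists_max_coeff (O : ValuationSubring M) (c : ι → M₀) (hc : c ≠ 0) :
    ∃ i₀, c i₀ ≠ 0 ∧ ∀ i, algebraMap M₀ M (c i / c i₀) ∈ O := by
  classical
  obtain ⟨j, hj⟩ : ∃ j, c j ≠ 0 := by
    by_contra hcon
    push Not at hcon
    exact hc (funext hcon)
  obtain ⟨i₀, -, hmax⟩ := Finset.exists_max_image Finset.univ
    (fun i => O.valuation (algebraMap M₀ M (c i))) ⟨j, Finset.mem_univ j⟩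
  have h0 : c i₀ ≠ 0 := by
    intro h
    have h1 := hmax j (Finset.mem_univ j)
    rw [h, map_zero, map_zero] at h1
    exact hj ((map_eq_zero _).1 ((Valuation.zero_iff _).1 (le_antisymm h1 zero_le)))
  refine ⟨i₀, h0, fun i => ?_⟩
  rw [← ValuationSubring.valuation_le_one_iff, map_div₀, map_div₀]
  have hv0 : O.valuation (algebraMap M₀ M (c i₀)) ≠ 0 :=
    (Valuation.ne_zero_iff _).2 ((map_ne_zero _).2 h0)
  exact (div_le_one₀ (zero_lt_iff.2 hv0)).2 (hmax i (Finset.mem_univ i))

/-- If `c i₀` is a coefficient of maximal valuation, `(∑ c i • b i) / c i₀` is a unit of `O`. -/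
theorem unit_of_max_coeff (O : ValuationSubring M) (b : ι → M) (hb : ∀ i, b i ∈ O)
    (hO : ResLinIndep M₀ O b) (c : ι → M₀) (i₀ : ι) (h0 : c i₀ ≠ 0)
    (hmax : ∀ i, algebraMap M₀ M (c i / c i₀) ∈ O) :
    (∑ i, c i • b i) / algebraMap M₀ M (c i₀) ∈ O ∧
      ((∑ i, c i • b i) / algebraMap M₀ M (c i₀))⁻¹ ∈ O ∧ ∑ i, c i • b i ≠ 0 := by
  have hval : ∑ i, (c i / c i₀) • b i = (∑ i, c i • b i) / algebraMap M₀ M (c i₀) := by
    rw [Finset.sum_div]
    refine Finset.sum_congr rfl fun i _ => ?_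
    rw [Algebra.smul_def, Algebra.smul_def, map_div₀]
    ring
  have hmem : ∑ i, (c i / c i₀) • b i ∈ O :=
    sum_mem fun i _ => by
      rw [Algebra.smul_def]
      exact O.mul_mem _ _ (hmax i) (hb i)
  have hnon : ∑ i, (c i / c i₀) • b i ∉ O.nonunits := by
    intro hcon
    have h1 := hO _ hmax hcon i₀
    rw [div_self h0, map_one] at h1
    exact one_not_mem_nonunits O h1
  obtain ⟨h1, h2⟩ := inv_mem_of_not_mem_nonunits O hnon
  rw [hval] at hmem h1 h2
  exact ⟨hmem, h1, fun h => h2 (by rw [h, zero_div])⟩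

/-- Lifts of residue-independent elements are linearly independent. -/
theorem linearIndependent_of_resLinIndep (O : ValuationSubring M) (b : ι → M)
    (hb : ∀ i, b i ∈ O) (hO : ResLinIndep M₀ O b) : LinearIndependent M₀ b := by
  rw [Fintype.linearIndependent_iff]
  intro c hc
  by_contra hcon
  push Not at hcon
  have hc0 : c ≠ 0 := by
    obtain ⟨i, hi⟩ := hcon
    exact fun h => hi (by rw [h]; rfl)
  obtain ⟨i₀, h0, hmax⟩ := exists_max_coeff O c hc0
  exact (unit_of_max_coeff O b hb hO c i₀ h0 hmax).2.2 hc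

/-- **`f = n ⟹ e = 1`.**  If `[M : M₀]` elements of `O` have `M₀`-independent residues, every
nonzero element of `M` is an element of `M₀` times a unit of `O`. -/
theorem exists_scale [FiniteDimensional M₀ M] (O : ValuationSubring M) (b : ι → M)
    (hb : ∀ i, b i ∈ O) (hO : ResLinIndep M₀ O b)
    (hcard : Fintype.card ι = Module.finrank M₀ M) (y : M) (hy : y ≠ 0) :
    ∃ c : M₀, c ≠ 0 ∧ y / algebraMap M₀ M c ∈ O ∧ (y / algebraMap M₀ M c)⁻¹ ∈ O := by
  have hli := linearIndependent_of_resLinIndep O b hb hO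
  have hspan : Submodule.span M₀ (Set.range b) = ⊤ :=
    hli.span_eq_top_of_card_eq_finrank' hcard
  have hy' : y ∈ Submodule.span M₀ (Set.range b) := by rw [hspan]; exact Submodule.mem_top
  obtain ⟨c, rfl⟩ := (Submodule.mem_span_range_iff_exists_fun M₀).1 hy'
  have hc0 : c ≠ 0 := by
    rintro rfl
    exact hy (by simp)
  obtain ⟨i₀, h0, hmax⟩ := exists_max_coeff O c hc0
  obtain ⟨h1, h2, -⟩ := unit_of_max_coeff O b hb hO c i₀ h0 hmax
  exact ⟨c i₀, h0, h1, h2⟩

/-- **The `scale` property of the Gauss valuation of a function field.**  Tower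
`K ⊆ M₀ = K(x) ⊆ M`, `[M : M₀] = n`; `O` a valuation subring of `M` containing `x` with
transcendental residue, and `n` elements with residues independent over the residue field of
`O ∩ M₀`.  Then every nonzero element of `M` is a constant of `K` times a unit of `O`. -/
theorem exists_scale_const {K : Type*} [Field K] [Algebra K M₀] [Algebra K M]
    [IsScalarTower K M₀ M] [FiniteDimensional M₀ M] (O : ValuationSubring M)
    (x : M₀) (hgen : IntermediateField.adjoin K {x} = ⊤)
    (hx : algebraMap M₀ M x ∈ O)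
    (hxO : ResTrans K (O.comap (algebraMap M₀ M)) x)
    (b : ι → M) (hb : ∀ i, b i ∈ O) (hO : ResLinIndep M₀ O b)
    (hcard : Fintype.card ι = Module.finrank M₀ M) (y : M) (hy : y ≠ 0) :
    ∃ c : K, c ≠ 0 ∧ y / algebraMap K M c ∈ O ∧ (y / algebraMap K M c)⁻¹ ∈ O := by
  obtain ⟨c₀, hc₀, h1, h2⟩ := exists_scale O b hb hO hcard y hy
  -- `c₀ = P(x)/Q(x)`, each a constant times a unit of the trace
  have hf : c₀ ∈ IntermediateField.adjoin K {x} := by
    rw [hgen]; exact IntermediateField.mem_top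
  obtain ⟨r, s, hrs⟩ := (IntermediateField.mem_adjoin_simple_iff K c₀).1 hf
  have hr0 : Polynomial.aeval x r ≠ 0 := by
    intro h
    rw [h, zero_div] at hrs
    exact hc₀ hrs
  have hs0 : Polynomial.aeval x s ≠ 0 := by
    intro h
    rw [h, div_zero] at hrs
    exact hc₀ hrs
  have hr : r ≠ 0 := by
    rintro rfl
    exact hr0 (map_zero _)
  have hs : s ≠ 0 := by
    rintro rfl
    exact hs0 (map_zero _)
  set W := O.comap (algebraMap M₀ M) with hWdef
  obtain ⟨n₁, hn₁, hmax₁⟩ := exists_max_coeff_one W r hr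
  obtain ⟨n₂, hn₂, hmax₂⟩ := exists_max_coeff_one W s hs
  obtain ⟨u1, u2, -⟩ := unit_of_max_coeff_one W x hx hxO r n₁ hn₁ hmax₁
  obtain ⟨v1, v2, -⟩ := unit_of_max_coeff_one W x hx hxO s n₂ hn₂ hmax₂
  refine ⟨r.coeff n₁ / s.coeff n₂, div_ne_zero hn₁ hn₂, ?_, ?_⟩
  · -- y / c = (y / c₀) * (P(x)/c₁) * (Q(x)/c₂)⁻¹
    have h3 : y / algebraMap K M (r.coeff n₁ / s.coeff n₂) =
        y / algebraMap M₀ M c₀ *
          algebraMap M₀ M (Polynomial.aeval x r / algebraMap K M₀ (r.coeff n₁)) *
          algebraMap M₀ M (Polynomial.aeval x s / algebraMap K M₀ (s.coeff n₂))⁻¹ := by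
      have e1 : algebraMap M₀ M (algebraMap K M₀ (r.coeff n₁)) ≠ 0 :=
        (map_ne_zero _).2 ((map_ne_zero _).2 hn₁)
      have e2 : algebraMap M₀ M (algebraMap K M₀ (s.coeff n₂)) ≠ 0 :=
        (map_ne_zero _).2 ((map_ne_zero _).2 hn₂)
      have e3 : algebraMap M₀ M (Polynomial.aeval x r) ≠ 0 := (map_ne_zero _).2 hr0
      have e4 : algebraMap M₀ M (Polynomial.aeval x s) ≠ 0 := (map_ne_zero _).2 hs0
      rw [hrs, IsScalarTower.algebraMap_apply K M₀ M]
      simp only [map_div₀, map_inv₀]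
      field_simp
    rw [h3]
    exact O.mul_mem _ _ (O.mul_mem _ _ h1 (ValuationSubring.mem_comap.1 u1))
      (ValuationSubring.mem_comap.1 v2)
  · have h3 : (y / algebraMap K M (r.coeff n₁ / s.coeff n₂))⁻¹ =
        (y / algebraMap M₀ M c₀)⁻¹ *
          algebraMap M₀ M (Polynomial.aeval x r / algebraMap K M₀ (r.coeff n₁))⁻¹ *
          algebraMap M₀ M (Polynomial.aeval x s / algebraMap K M₀ (s.coeff n₂)) := by
      have e1 : algebraMap M₀ M (algebraMap K M₀ (r.coeff n₁)) ≠ 0 :=
        (map_ne_zero _).2 ((map_ne_zero _).2 hn₁)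
      have e2 : algebraMap M₀ M (algebraMap K M₀ (s.coeff n₂)) ≠ 0 :=
        (map_ne_zero _).2 ((map_ne_zero _).2 hn₂)
      have e3 : algebraMap M₀ M (Polynomial.aeval x r) ≠ 0 := (map_ne_zero _).2 hr0
      have e4 : algebraMap M₀ M (Polynomial.aeval x s) ≠ 0 := (map_ne_zero _).2 hs0
      rw [hrs, IsScalarTower.algebraMap_apply K M₀ M]
      simp only [map_div₀, map_inv₀]
      field_simp
    rw [h3]
    exact O.mul_mem _ _ (O.mul_mem _ _ h2 (ValuationSubring.mem_comap.1 u2))
      (ValuationSubring.mem_comap.1 v1)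

/-- The Gauss formula for rational functions: a nonzero element of `K(x) ⊆ M` is a constant of
`K` times a unit of `O`, as soon as `x ∈ O` has transcendental residue. -/
theorem exists_const_of_mem_adjoin_simple {K : Type*} [Field K] [Algebra K M]
    (O : ValuationSubring M) (x : M) (hx : x ∈ O) (hxO : ResTrans K O x)
    (c₀ : M) (hc₀ : c₀ ∈ IntermediateField.adjoin K {x}) (h0 : c₀ ≠ 0) :
    ∃ c : K, c ≠ 0 ∧ c₀ / algebraMap K M c ∈ O ∧ (c₀ / algebraMap K M c)⁻¹ ∈ O := by
  obtain ⟨r, s, hrs⟩ := (IntermediateField.mem_adjoin_simple_iff K c₀).1 hc₀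
  have hr0 : Polynomial.aeval x r ≠ 0 := by
    intro h
    rw [h, zero_div] at hrs
    exact h0 hrs
  have hs0 : Polynomial.aeval x s ≠ 0 := by
    intro h
    rw [h, div_zero] at hrs
    exact h0 hrs
  have hr : r ≠ 0 := by
    rintro rfl
    exact hr0 (map_zero _)
  have hs : s ≠ 0 := by
    rintro rfl
    exact hs0 (map_zero _)
  obtain ⟨n₁, hn₁, hmax₁⟩ := exists_max_coeff_one O r hr
  obtain ⟨n₂, hn₂, hmax₂⟩ := exists_max_coeff_one O s hs
  obtain ⟨u1, u2, -⟩ := unit_of_max_coeff_one O x hx hxO r n₁ hn₁ hmax₁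
  obtain ⟨v1, v2, -⟩ := unit_of_max_coeff_one O x hx hxO s n₂ hn₂ hmax₂
  have e1 : algebraMap K M (r.coeff n₁) ≠ 0 := (map_ne_zero _).2 hn₁
  have e2 : algebraMap K M (s.coeff n₂) ≠ 0 := (map_ne_zero _).2 hn₂
  refine ⟨r.coeff n₁ / s.coeff n₂, div_ne_zero hn₁ hn₂, ?_, ?_⟩
  · have h3 : c₀ / algebraMap K M (r.coeff n₁ / s.coeff n₂) =
        Polynomial.aeval x r / algebraMap K M (r.coeff n₁) *
          (Polynomial.aeval x s / algebraMap K M (s.coeff n₂))⁻¹ := by
      rw [hrs, map_div₀]
      field_simp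
    rw [h3]
    exact O.mul_mem _ _ u1 v2
  · have h3 : (c₀ / algebraMap K M (r.coeff n₁ / s.coeff n₂))⁻¹ =
        (Polynomial.aeval x r / algebraMap K M (r.coeff n₁))⁻¹ *
          (Polynomial.aeval x s / algebraMap K M (s.coeff n₂)) := by
      rw [hrs, map_div₀]
      field_simp
    rw [h3]
    exact O.mul_mem _ _ u2 v1

/-- **The `scale` property, intermediate-field form.**  `M` finite of degree `n` over `K(x)`;
`O ∋ x` with transcendental residue, and `n` elements of `O` with residues independent over the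
residue field of `O ∩ K(x)`.  Then every nonzero element of `M` is a constant of `K` times a
unit of `O`. -/
theorem exists_scale_const_adjoin {K : Type*} [Field K] [Algebra K M]
    (O : ValuationSubring M) (x : M) (hx : x ∈ O) (hxO : ResTrans K O x)
    [FiniteDimensional (IntermediateField.adjoin K {x}) M]
    (b : ι → M) (hb : ∀ i, b i ∈ O) (hO : ResLinIndep (IntermediateField.adjoin K {x}) O b)
    (hcard : Fintype.card ι = Module.finrank (IntermediateField.adjoin K {x}) M)
    (y : M) (hy : y ≠ 0) :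
    ∃ c : K, c ≠ 0 ∧ y / algebraMap K M c ∈ O ∧ (y / algebraMap K M c)⁻¹ ∈ O := by
  obtain ⟨c₀, hc₀, h1, h2⟩ := exists_scale O b hb hO hcard y hy
  have hc₀' : ((c₀ : IntermediateField.adjoin K {x}) : M) ≠ 0 := fun h => hc₀ (Subtype.ext h)
  obtain ⟨c, hc, h3, h4⟩ := exists_const_of_mem_adjoin_simple O x hx hxO (c₀ : M) c₀.2 hc₀'
  have hcM : algebraMap K M c ≠ 0 := (map_ne_zero _).2 hc
  have halg : algebraMap (IntermediateField.adjoin K {x}) M c₀ = (c₀ : M) := rfl
  rw [halg] at h1 h2
  refine ⟨c, hc, ?_, ?_⟩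
  · have h5 : y / algebraMap K M c = y / (c₀ : M) * ((c₀ : M) / algebraMap K M c) := by
      field_simp
    rw [h5]
    exact O.mul_mem _ _ h1 h3
  · have h5 : (y / algebraMap K M c)⁻¹ = (y / (c₀ : M))⁻¹ * ((c₀ : M) / algebraMap K M c)⁻¹ := by
      field_simp
    rw [h5]
    exact O.mul_mem _ _ h2 h4

end Fermat.Agent.S27P.Val.Scale
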