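/-
S27 / (VAL), brick (V3) (helper33) — "uniqueness when `f = n`".  Mathlib + (V0) only, arbitrary rank.

`L / K` a field extension, `B` a valuation subring of `L`, `A := res K B` its restriction to `K`.

* `ResLinIndep K B b` : the residues of the `b i` are linearly independent over the residue field
  of `A` (stated without residue fields, in the style of `Gauss.ResIndep`).
* `resLinIndep_of_linearIndependent` : producer from a reduction map.
* `sum_mem_iff`, `sum_mem_nonunits_iff`, `valuation_sum_eq` : for such a family,
  `∑ c i • b i ∈ B ↔ ∀ i, c i ∈ A` (and the same for non-units): `B ∩ span_K b = span_A b`.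
* `linearIndependent_of_resLinIndep` : the family is `K`-linearly independent.
* `eq_of_resLinIndep` : **if `[L : K] ≤ #ι` (so `f = n`), then `B` is the only valuation subring
  of `L` with restriction `A`.**  Nothing is assumed about the `b i` in the other ring.
-/
import Fermat.Agent.S27P.Val.IntClosure

set_option autoImplicit false

namespace Fermat.Agent.S27P.Val.Unique

variable {K L : Type*} [Field K] [Field L] [Algebra K L]

/-! ### Small facts on non-units -/

theorem nonunits_add_mem (B : ValuationSubring L) {x y : L} (hx : x ∈ B.nonunits)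
    (hy : y ∈ B.nonunits) : x + y ∈ B.nonunits := by
  rw [B.mem_nonunits_iff] at hx hy ⊢
  exact lt_of_le_of_lt (Valuation.map_add _ _ _) (max_lt hx hy)

theorem nonunits_neg_mem (B : ValuationSubring L) {x : L} (hx : x ∈ B.nonunits) :
    -x ∈ B.nonunits := by
  rw [B.mem_nonunits_iff] at hx ⊢
  rw [Valuation.map_neg]
  exact hx

theorem nonunits_mul_mem (B : ValuationSubring L) {x y : L} (hx : x ∈ B)
    (hy : y ∈ B.nonunits) : x * y ∈ B.nonunits := by
  rw [B.mem_nonunits_iff] at hy ⊢
  rw [map_mul]
  have h1 := (B.valuation_le_one_iff x).2 hx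
  calc B.valuation x * B.valuation y ≤ 1 * B.valuation y := mul_le_mul' h1 le_rfl
    _ = B.valuation y := one_mul _
    _ < 1 := hy

theorem nonunits_zero_mem (B : ValuationSubring L) : (0 : L) ∈ B.nonunits := by
  rw [B.mem_nonunits_iff, map_zero]
  exact zero_lt_one

theorem nonunits_one_not_mem (B : ValuationSubring L) : (1 : L) ∉ B.nonunits := by
  rw [B.mem_nonunits_iff, map_one]
  exact lt_irrefl _

theorem nonunits_sum_mem (B : ValuationSubring L) {ι : Type*} (s : Finset ι) (f : ι → L)
    (h : ∀ i ∈ s, f i ∈ B.nonunits) : ∑ i ∈ s, f i ∈ B.nonunits := by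
  classical
  induction s using Finset.induction_on with
  | empty => rw [Finset.sum_empty]; exact nonunits_zero_mem B
  | insert a s ha ih =>
    rw [Finset.sum_insert ha]
    exact nonunits_add_mem B (h a (Finset.mem_insert_self a s))
      (ih fun i hi => h i (Finset.mem_insert_of_mem hi))

/-! ### Residue-independent families -/

section ResLin

variable {ι : Type*} [Fintype ι]

variable (K) in
/-- The residues of the `b i` are linearly independent over the residue field of the restriction
of `B` to `K`, stated without residue fields: a combination with coefficients in `B ∩ K` which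
is a non-unit of `B` has all its coefficients non-units. -/
def ResLinIndep (B : ValuationSubring L) (b : ι → L) : Prop :=
  ∀ c : ι → K, (∀ i, algebraMap K L (c i) ∈ B) → ∑ i, c i • b i ∈ B.nonunits →
    ∀ i, algebraMap K L (c i) ∈ B.nonunits

/-- A family of scalars, not all zero, has a nonzero member of maximal valuation. -/
theorem exists_max_index (B : ValuationSubring L) (c : ι → K) (hc : ∃ i, c i ≠ 0) :
    ∃ i₀, c i₀ ≠ 0 ∧
      ∀ i, B.valuation (algebraMap K L (c i)) ≤ B.valuation (algebraMap K L (c i₀)) := by
  classical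
  obtain ⟨j, hj⟩ := hc
  obtain ⟨i₀, -, hmax⟩ := Finset.exists_max_image Finset.univ
    (fun i => B.valuation (algebraMap K L (c i))) ⟨j, Finset.mem_univ j⟩
  refine ⟨i₀, ?_, fun i => hmax i (Finset.mem_univ i)⟩
  intro h0
  have h1 := hmax j (Finset.mem_univ j)
  rw [h0, map_zero, map_zero] at h1
  have h2 : B.valuation (algebraMap K L (c j)) ≠ 0 :=
    (Valuation.ne_zero_iff _).2 ((map_ne_zero _).2 hj)
  exact h2 (le_antisymm h1 zero_le)

/-- **The valuation of a combination of a residue-independent family** is the maximal valuation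
of its coefficients. -/
theorem valuation_sum_eq {B : ValuationSubring L} {b : ι → L} (hb : ∀ i, b i ∈ B)
    (hind : ResLinIndep K B b) (c : ι → K) (i₀ : ι) (h0 : c i₀ ≠ 0)
    (hmax : ∀ i, B.valuation (algebraMap K L (c i)) ≤ B.valuation (algebraMap K L (c i₀))) :
    B.valuation (∑ i, c i • b i) = B.valuation (algebraMap K L (c i₀)) := by
  have hv0 : B.valuation (algebraMap K L (c i₀)) ≠ 0 :=
    (Valuation.ne_zero_iff _).2 ((map_ne_zero _).2 h0)
  have hc'B : ∀ i, algebraMap K L (c i / c i₀) ∈ B := by
    intro i
    rw [← B.valuation_le_one_iff, map_div₀, map_div₀]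
    exact (div_le_one₀ (zero_lt_iff.2 hv0)).2 (hmax i)
  have huB : ∑ i, (c i / c i₀) • b i ∈ B := by
    refine sum_mem fun i _ => ?_
    rw [Algebra.smul_def]
    exact B.mul_mem _ _ (hc'B i) (hb i)
  have hunon : ∑ i, (c i / c i₀) • b i ∉ B.nonunits := by
    intro hcon
    have h1 := hind (fun i => c i / c i₀) hc'B hcon i₀
    rw [div_self h0, map_one] at h1
    exact nonunits_one_not_mem B h1
  have hvu : B.valuation (∑ i, (c i / c i₀) • b i) = 1 := by
    refine le_antisymm ((B.valuation_le_one_iff _).2 huB) ?_
    by_contra hcon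
    rw [not_le] at hcon
    exact hunon (B.mem_nonunits_iff.2 hcon)
  have hsum : ∑ i, c i • b i = algebraMap K L (c i₀) * ∑ i, (c i / c i₀) • b i := by
    rw [Finset.mul_sum]
    refine Finset.sum_congr rfl fun i _ => ?_
    rw [Algebra.smul_def, Algebra.smul_def, ← mul_assoc, ← map_mul, mul_div_cancel₀ _ h0]
  rw [hsum, map_mul, hvu, mul_one]

/-- `B ∩ span_K b = span_A b`. -/
theorem sum_mem_iff {B : ValuationSubring L} {b : ι → L} (hb : ∀ i, b i ∈ B)
    (hind : ResLinIndep K B b) (c : ι → K) :
    ∑ i, c i • b i ∈ B ↔ ∀ i, algebraMap K L (c i) ∈ B := by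
  constructor
  · intro h i
    by_cases hc : ∃ j, c j ≠ 0
    · obtain ⟨i₀, h0, hmax⟩ := exists_max_index B c hc
      have h1 := valuation_sum_eq hb hind c i₀ h0 hmax
      rw [← B.valuation_le_one_iff] at h ⊢
      rw [h1] at h
      exact (hmax i).trans h
    · have hci : c i = 0 := by_contra fun hi => hc ⟨i, hi⟩
      rw [hci, map_zero]
      exact B.zero_mem
  · intro h
    refine sum_mem fun i _ => ?_
    rw [Algebra.smul_def]
    exact B.mul_mem _ _ (h i) (hb i)

/-- The non-unit twin of `sum_mem_iff`. -/
theorem sum_mem_nonunits_iff {B : ValuationSubring L} {b : ι → L} (hb : ∀ i, b i ∈ B)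
    (hind : ResLinIndep K B b) (c : ι → K) :
    ∑ i, c i • b i ∈ B.nonunits ↔ ∀ i, algebraMap K L (c i) ∈ B.nonunits := by
  constructor
  · intro h i
    by_cases hc : ∃ j, c j ≠ 0
    · obtain ⟨i₀, h0, hmax⟩ := exists_max_index B c hc
      have h1 := valuation_sum_eq hb hind c i₀ h0 hmax
      rw [B.mem_nonunits_iff] at h ⊢
      rw [h1] at h
      exact lt_of_le_of_lt (hmax i) h
    · have hci : c i = 0 := by_contra fun hi => hc ⟨i, hi⟩
      rw [hci, map_zero]
      exact nonunits_zero_mem B
  · intro h
    refine nonunits_sum_mem B _ _ fun i _ => ?_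
    rw [Algebra.smul_def, mul_comm]
    exact nonunits_mul_mem B (hb i) (h i)

/-- With a spanning residue-independent family, `B` is the span of the `b i` over `B ∩ K`. -/
theorem mem_iff_of_span {B : ValuationSubring L} {b : ι → L} (hb : ∀ i, b i ∈ B)
    (hind : ResLinIndep K B b) (hspan : ⊤ ≤ Submodule.span K (Set.range b)) (x : L) :
    x ∈ B ↔ ∃ c : ι → K, (∀ i, algebraMap K L (c i) ∈ B) ∧ x = ∑ i, c i • b i := by
  constructor
  · intro hx
    obtain ⟨c, hc⟩ := (Submodule.mem_span_range_iff_exists_fun K).1 (hspan (Submodule.mem_top : x ∈ ⊤))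
    refine ⟨c, ?_, hc.symm⟩
    rw [← hc] at hx
    exact (sum_mem_iff hb hind c).1 hx
  · rintro ⟨c, hc, rfl⟩
    exact (sum_mem_iff hb hind c).2 hc

/-- With a spanning residue-independent family, the non-units of `B` are the combinations of the
`b i` with non-unit coefficients. -/
theorem mem_nonunits_iff_of_span {B : ValuationSubring L} {b : ι → L} (hb : ∀ i, b i ∈ B)
    (hind : ResLinIndep K B b) (hspan : ⊤ ≤ Submodule.span K (Set.range b)) (x : L) :
    x ∈ B.nonunits ↔
      ∃ c : ι → K, (∀ i, algebraMap K L (c i) ∈ B.nonunits) ∧ x = ∑ i, c i • b i := by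
  constructor
  · intro hx
    obtain ⟨c, hc⟩ := (Submodule.mem_span_range_iff_exists_fun K).1 (hspan (Submodule.mem_top : x ∈ ⊤))
    refine ⟨c, ?_, hc.symm⟩
    rw [← hc] at hx
    exact (sum_mem_nonunits_iff hb hind c).1 hx
  · rintro ⟨c, hc, rfl⟩
    exact (sum_mem_nonunits_iff hb hind c).2 hc

/-- A residue-independent family is linearly independent. -/
theorem linearIndependent_of_resLinIndep {B : ValuationSubring L} {b : ι → L}
    (hb : ∀ i, b i ∈ B) (hind : ResLinIndep K B b) : LinearIndependent K b := by
  rw [Fintype.linearIndependent_iff]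
  intro c hc i
  by_contra hi
  obtain ⟨i₀, h0, hmax⟩ := exists_max_index B c ⟨i, hi⟩
  have h1 := valuation_sum_eq hb hind c i₀ h0 hmax
  rw [hc, map_zero] at h1
  exact (Valuation.ne_zero_iff _).2 ((map_ne_zero _).2 h0) h1.symm

/-- **Producer of `ResLinIndep`** from a reduction map: `red : B → k` kills the non-units, is
compatible with a reduction `red₀ : B ∩ K → k₀` whose kernel consists of non-units, and the
reductions of the `b i` are linearly independent over `k₀`. -/
theorem resLinIndep_of_linearIndependent {k₀ k : Type*} [Field k₀] [Field k] [Algebra k₀ k]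
    (B : ValuationSubring L) (red : B →+* k)
    (hred : ∀ w : B, (w : L) ∈ B.nonunits → red w = 0)
    (red₀ : res K B →+* k₀)
    (hred₀ : ∀ a : res K B, red₀ a = 0 → algebraMap K L (a : K) ∈ B.nonunits)
    (hcomp : ∀ a : res K B, red ⟨algebraMap K L (a : K), a.2⟩ = algebraMap k₀ k (red₀ a))
    (b : ι → L) (hb : ∀ i, b i ∈ B)
    (hind : LinearIndependent k₀ fun i => red ⟨b i, hb i⟩) : ResLinIndep K B b := by
  intro c hc hnon i
  set w : B := ∑ i, (⟨algebraMap K L (c i), hc i⟩ : B) * ⟨b i, hb i⟩ with hw
  have hwval : (w : L) = ∑ i, c i • b i := by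
    rw [hw]
    simp only [AddSubmonoidClass.coe_finsetSum, MulMemClass.coe_mul, Algebra.smul_def]
  have h1 : red w = 0 := hred w (by rw [hwval]; exact hnon)
  have h2 : ∑ i, (red₀ ⟨c i, hc i⟩) • red ⟨b i, hb i⟩ = 0 := by
    rw [← h1, hw, map_sum]
    refine Finset.sum_congr rfl fun i _ => ?_
    rw [map_mul, Algebra.smul_def, ← hcomp]
  have h3 := (Fintype.linearIndependent_iff.1 hind) (fun i => red₀ ⟨c i, hc i⟩) h2 i
  exact hred₀ ⟨c i, hc i⟩ h3

end ResLin

/-! ### The centre on the integral closure -/

section Centre

variable (A : ValuationSubring K)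

theorem mem_of_mem_integralClosure {A : ValuationSubring K} (B : ValuationSubring L)
    (hB : res K B = A) (r : integralClosure A L) : (r : L) ∈ B := by
  subst hB
  exact mem_of_isIntegral B r.2

/-- The integral closure of `A` in `L` maps to any valuation subring of `L` restricting to `A`. -/
def intHom (B : ValuationSubring L) (hB : res K B = A) : integralClosure A L →+* B where
  toFun r := ⟨(r : L), mem_of_mem_integralClosure B hB r⟩
  map_one' := rfl
  map_mul' _ _ := rfl
  map_zero' := rfl
  map_add' _ _ := rfl

/-- The centre of `B` on the integral closure of `A`. -/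
def centre (B : ValuationSubring L) (hB : res K B = A) : Ideal (integralClosure A L) :=
  Ideal.comap (intHom A B hB) (IsLocalRing.maximalIdeal B)

theorem mem_centre {B : ValuationSubring L} {hB : res K B = A} {r : integralClosure A L} :
    r ∈ centre A B hB ↔ (r : L) ∈ B.nonunits := by
  unfold centre
  rw [Ideal.mem_comap, ← ValuationSubring.coe_mem_nonunits_iff]
  exact Iff.rfl

theorem centre_isPrime (B : ValuationSubring L) (hB : res K B = A) :
    (centre A B hB).IsPrime := by
  unfold centre
  infer_instance

theorem centre_comap (B : ValuationSubring L) (hB : res K B = A) :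
    (centre A B hB).comap (algebraMap A (integralClosure A L)) = IsLocalRing.maximalIdeal A := by
  ext a
  rw [Ideal.mem_comap, mem_centre, ← ValuationSubring.coe_mem_nonunits_iff]
  subst hB
  exact mem_nonunits_res_iff.symm

theorem centre_isMaximal (B : ValuationSubring L) (hB : res K B = A) :
    (centre A B hB).IsMaximal := by
  have := centre_isPrime A B hB
  refine Ideal.isMaximal_of_isIntegral_of_isMaximal_comap (R := A) _ ?_
  rw [centre_comap]
  exact IsLocalRing.maximalIdeal.isMaximal A

/-- Valuation subrings of an algebraic extension with the same restriction and the same centre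
are equal. -/
theorem eq_of_centre_eq [Algebra.IsAlgebraic K L] {B B' : ValuationSubring L}
    (hB : res K B = A) (hB' : res K B' = A) (h : centre A B hB = centre A B' hB') : B = B' := by
  subst hB
  refine eq_of_nonunits_integral (K := K) hB'.symm fun y hy => ?_
  have h1 : (⟨y, hy⟩ : integralClosure (res K B) L) ∈ centre (res K B) B rfl ↔
      y ∈ B.nonunits := mem_centre _
  have h2 : (⟨y, hy⟩ : integralClosure (res K B) L) ∈ centre (res K B) B' hB' ↔
      y ∈ B'.nonunits := mem_centre _
  rw [← h1, ← h2, h]

end Centre

/-! ### Uniqueness when `f = n` -/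

/-- **(V3) Uniqueness when `f = n`.**  `L / K` finite, `B` a valuation subring of `L` and
`b : ι → L` a family in `B` whose residues are linearly independent over the residue field of
`A = B ∩ K`, with `[L : K] ≤ #ι`.  Then `B` is the only valuation subring of `L` whose
restriction to `K` is `A`. -/
theorem eq_of_resLinIndep [FiniteDimensional K L] {ι : Type*} [Fintype ι]
    {B : ValuationSubring L} {b : ι → L} (hb : ∀ i, b i ∈ B) (hind : ResLinIndep K B b)
    (hn : Module.finrank K L ≤ Fintype.card ι) (B' : ValuationSubring L)
    (hres : res K B' = res K B) : B' = B := by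
  classical
  by_contra hne
  have hmax : (centre (res K B) B rfl).IsMaximal := centre_isMaximal _ B rfl
  have hmax' : (centre (res K B) B' hres).IsMaximal := centre_isMaximal _ B' hres
  have hcne : centre (res K B) B rfl ≠ centre (res K B) B' hres := fun h =>
    hne (eq_of_centre_eq (res K B) rfl hres h).symm
  -- `s ∈ m`, `e ∈ m'`, `s + e = 1`
  have hcop := hmax.coprime_of_ne hmax' hcne
  have h1top : (1 : integralClosure (res K B) L) ∈
      centre (res K B) B rfl ⊔ centre (res K B) B' hres := by
    rw [hcop]
    exact Submodule.mem_top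
  obtain ⟨s, hs, e, he, hse⟩ := Submodule.mem_sup.1 h1top
  rw [mem_centre] at hs he
  have hseL : (s : L) + (e : L) = 1 := by
    have := congrArg (fun r : integralClosure (res K B) L => (r : L)) hse
    simpa using this
  -- integral elements lie in both rings
  have hRB : ∀ r : integralClosure (res K B) L, (r : L) ∈ B := fun r =>
    mem_of_isIntegral B r.2
  have hRB' : ∀ r : integralClosure (res K B) L, (r : L) ∈ B' := fun r =>
    mem_of_isIntegral B' (by rw [hres]; exact r.2)
  -- integral lifts of the `b i` modulo the maximal ideal of `B`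
  have hlift : ∀ i, ∃ y : integralClosure (res K B) L, b i - (y : L) ∈ B.nonunits := by
    intro i
    obtain ⟨β, c, hβ, hc, hvc, hxc⟩ := exists_integral_mul_eq (K := K) B (hb i)
    have hcm : (⟨c, hc⟩ : integralClosure (res K B) L) ∉ centre (res K B) B rfl := by
      rw [mem_centre, B.mem_nonunits_iff, hvc]
      exact lt_irrefl _
    obtain ⟨c', t, ht, hct⟩ := hmax.exists_inv hcm
    rw [mem_centre] at ht
    have hctL : (c' : L) * c + (t : L) = 1 := by
      have := congrArg (fun r : integralClosure (res K B) L => (r : L)) hct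
      simpa using this
    refine ⟨⟨β, hβ⟩ * c', ?_⟩
    have h1 : b i - ((⟨β, hβ⟩ * c' : integralClosure (res K B) L) : L) = b i * (t : L) := by
      have h2 : ((⟨β, hβ⟩ * c' : integralClosure (res K B) L) : L) = β * (c' : L) := rfl
      rw [h2, ← hxc]
      linear_combination (-(b i)) * hctL
    rw [h1]
    exact nonunits_mul_mem B (hb i) ht
  choose y hy using hlift
  -- the elements `z i = e * y i`: congruent to `b i` modulo `𝔪_B`, and in `𝔪_B'`
  have hzB : ∀ i, b i - (e : L) * (y i : L) ∈ B.nonunits := by
    intro i
    have h1 : b i - (e : L) * (y i : L) = (b i - (y i : L)) + (y i : L) * (s : L) := by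
      have h2 : (e : L) = 1 - (s : L) := by rw [← hseL]; ring
      rw [h2]
      ring
    rw [h1]
    exact nonunits_add_mem B (hy i) (nonunits_mul_mem B (hRB (y i)) hs)
  have hzB' : ∀ i, (e : L) * (y i : L) ∈ B'.nonunits := by
    intro i
    rw [mul_comm]
    exact nonunits_mul_mem B' (hRB' (y i)) he
  -- `1` and the `z i` are linearly independent over `K`
  have hli : LinearIndependent K
      (fun o : Option ι => o.elim (1 : L) fun i => (e : L) * (y i : L)) := by
    rw [Fintype.linearIndependent_iff]
    intro g hg
    by_contra hcon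
    obtain ⟨o₀, h0, hmaxg⟩ := exists_max_index B g (not_forall.1 hcon)
    have hv0 : B.valuation (algebraMap K L (g o₀)) ≠ 0 :=
      (Valuation.ne_zero_iff _).2 ((map_ne_zero _).2 h0)
    have hg'B : ∀ o, algebraMap K L (g o / g o₀) ∈ B := by
      intro o
      rw [← B.valuation_le_one_iff, map_div₀, map_div₀]
      exact (div_le_one₀ (zero_lt_iff.2 hv0)).2 (hmaxg o)
    have hg'B' : ∀ o, algebraMap K L (g o / g o₀) ∈ B' := by
      intro o
      have h1 : g o / g o₀ ∈ res K B := mem_res.2 (hg'B o)
      rw [← hres] at h1
      exact mem_res.1 h1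
    have hg'sum : ∑ o, (g o / g o₀) • (o.elim (1 : L) fun i => (e : L) * (y i : L)) = 0 := by
      have h1 : ∑ o, (g o / g o₀) • (o.elim (1 : L) fun i => (e : L) * (y i : L)) =
          (g o₀)⁻¹ • ∑ o, g o • (o.elim (1 : L) fun i => (e : L) * (y i : L)) := by
        rw [Finset.smul_sum]
        refine Finset.sum_congr rfl fun o _ => ?_
        rw [smul_smul, div_eq_inv_mul]
      rw [h1, hg, smul_zero]
    rw [Fintype.sum_option] at hg'sum
    simp only [Option.elim_none, Option.elim_some] at hg'sum
    have hrel : algebraMap K L (g none / g o₀) +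
        ∑ i, (g (some i) / g o₀) • ((e : L) * (y i : L)) = 0 := by
      rw [← hg'sum, Algebra.smul_def, mul_one]
    -- the coefficient of `1` is a non-unit of `B'`, hence of `B`
    have hnone' : algebraMap K L (g none / g o₀) ∈ B'.nonunits := by
      have h1 : algebraMap K L (g none / g o₀) =
          -∑ i, (g (some i) / g o₀) • ((e : L) * (y i : L)) := by
        rw [eq_neg_iff_add_eq_zero, hrel]
      rw [h1]
      refine nonunits_neg_mem B' (nonunits_sum_mem B' _ _ fun i _ => ?_)
      rw [Algebra.smul_def]
      exact nonunits_mul_mem B' (hg'B' (some i)) (hzB' i)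
    have hnone : algebraMap K L (g none / g o₀) ∈ B.nonunits := by
      have h1 : g none / g o₀ ∈ (res K B').nonunits := mem_nonunits_res_iff.2 hnone'
      rw [hres] at h1
      exact mem_nonunits_res_iff.1 h1
    -- hence the combination of the `b i` is a non-unit of `B`
    have hsumb : ∑ i, (g (some i) / g o₀) • b i ∈ B.nonunits := by
      have h1 : ∑ i, (g (some i) / g o₀) • b i = -algebraMap K L (g none / g o₀) +
          ∑ i, (g (some i) / g o₀) • (b i - (e : L) * (y i : L)) := by
        simp only [smul_sub, Finset.sum_sub_distrib]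
        rw [← sub_eq_zero]
        have h2 := hrel
        linear_combination h2
      rw [h1]
      refine nonunits_add_mem B (nonunits_neg_mem B hnone) (nonunits_sum_mem B _ _ fun i _ => ?_)
      rw [Algebra.smul_def]
      exact nonunits_mul_mem B (hg'B (some i)) (hzB i)
    have hall := hind (fun i => g (some i) / g o₀) (fun i => hg'B (some i)) hsumb
    have hunit : algebraMap K L (g o₀ / g o₀) ∈ B.nonunits := by
      cases o₀ with
      | none => exact hnone
      | some i => exact hall i
    rw [div_self h0, map_one] at hunit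
    exact nonunits_one_not_mem B hunit
  have hcard := hli.fintype_card_le_finrank
  rw [Fintype.card_option] at hcard
  omega

/-- The same with a spanning hypothesis instead of the degree. -/
theorem eq_of_resLinIndep_of_span {ι : Type*} [Fintype ι]
    {B : ValuationSubring L} {b : ι → L} (hb : ∀ i, b i ∈ B) (hind : ResLinIndep K B b)
    (hspan : ⊤ ≤ Submodule.span K (Set.range b)) (B' : ValuationSubring L)
    (hres : res K B' = res K B) : B' = B := by
  classical
  have : FiniteDimensional K L := by
    refine ⟨?_⟩
    rw [← top_le_iff.1 hspan]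
    exact Submodule.fg_span (Set.finite_range b)
  refine eq_of_resLinIndep hb hind ?_ B' hres
  have h1 := finrank_range_le_card (R := K) b
  have h2 : Module.finrank K (Submodule.span K (Set.range b)) = Module.finrank K L := by
    rw [top_le_iff.1 hspan, finrank_top]
  rw [← h2]
  exact h1

end Fermat.Agent.S27P.Val.Unique
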